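import Fermat.Agent.Curve.Places
import Mathlib.Algebra.BigOperators.Field

/-!
# Weak approximation for finitely many places
-/

noncomputable section

namespace Fermat.Agent.Curve

open AlgebraicCurve

variable {K F : Type*} [Field K] [Field F] [Algebra K F]

/-- A function with a zero at `v` and poles at finitely many other places. -/
theorem exists_zero_poles (v : Place K F) (S : Finset (Place K F)) (hv : v ∉ S) :
    ∃ f : F, f ≠ 0 ∧ 0 < v.ord f ∧ ∀ w ∈ S, w.ord f < 0 := by
  classical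
  induction S using Finset.induction_on with
  | empty =>
    obtain ⟨t, ht, h1⟩ := exists_uniformizer v
    exact ⟨t, ht, by omega, by simp⟩
  | insert u S huS ih =>
    obtain ⟨f, hf0, hfv, hfS⟩ := ih (fun h => hv (Finset.mem_insert_of_mem h))
    have hvu : v ≠ u := fun h => hv (h ▸ Finset.mem_insert_self _ _)
    -- `g` has a zero at `v` and a pole at `u`
    obtain ⟨g, hg0, hgv, hgu⟩ : ∃ g : F, g ≠ 0 ∧ 0 < v.ord g ∧ u.ord g < 0 := by
      obtain ⟨a, hav, hau⟩ := exists_mem_not_mem hvu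
      obtain ⟨b, hbu, hbv⟩ := exists_mem_not_mem hvu.symm
      have ha0 : a ≠ 0 := by rintro rfl; exact hau (zero_mem _)
      have hb0 : b ≠ 0 := by rintro rfl; exact hbv (zero_mem _)
      refine ⟨a / b, div_ne_zero ha0 hb0, ?_, ?_⟩
      · have := (mem_iff_ord_nonneg v).mp hav
        have := (mem_iff_ord_nonneg v).not.mp hbv
        rw [ord_div v ha0 hb0]; omega
      · have := (mem_iff_ord_nonneg u).not.mp hau
        have := (mem_iff_ord_nonneg u).mp hbu
        rw [ord_div u ha0 hb0]; omega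
    by_cases hfu : u.ord f < 0
    · exact ⟨f, hf0, hfv, by simpa [hfu] using hfS⟩
    -- raise `g` to a power avoiding every cancellation against `f`
    obtain ⟨N, hN1, hN⟩ : ∃ N : ℕ, 1 ≤ N ∧ ∀ w ∈ S, (N : ℤ) * w.ord g ≠ w.ord f := by
      refine ⟨(∑ w ∈ S, (w.ord f).natAbs) + 1, by omega, fun w hw h => ?_⟩
      have hle : (w.ord f).natAbs ≤ ∑ x ∈ S, (x.ord f).natAbs :=
        Finset.single_le_sum (f := fun x : Place K F => (x.ord f).natAbs) (fun _ _ => by positivity) hw
      have hneg := hfS w hw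
      rcases eq_or_ne (w.ord g) 0 with hz | hz
      · rw [hz, mul_zero] at h; omega
      · have h' := congrArg Int.natAbs h
        rw [Int.natAbs_mul, Int.natAbs_natCast] at h'
        have h1 : 1 ≤ (w.ord g).natAbs := Int.natAbs_pos.mpr hz
        have h2 := Nat.le_mul_of_pos_right ((∑ w ∈ S, (w.ord f).natAbs) + 1) h1
        omega
    have hgN0 : g ^ N ≠ 0 := pow_ne_zero _ hg0
    have hNpos : (1 : ℤ) ≤ N := by exact_mod_cast hN1
    have hu' : u.ord (g ^ N + f) = N * u.ord g ∧ g ^ N + f ≠ 0 := by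
      have h := add_ne_zero_and_ord_add_eq u hgN0 (ord_pow u g N)
        ((ordGE_iff u).mpr (Or.inr (by nlinarith)) : OrdGE u _ f)
      exact ⟨h.2, h.1⟩
    refine ⟨g ^ N + f, hu'.2, ?_, ?_⟩
    · have := min_ord_le_ord_add v hu'.2
      rw [ord_pow] at this
      have : 0 < (N : ℤ) * v.ord g := by positivity
      omega
    · intro w hw
      rcases Finset.mem_insert.mp hw with rfl | hw
      · rw [hu'.1]; nlinarith
      · have hneg := hfS w hw
        have hne := hN w hw
        rcases lt_or_gt_of_ne hne with h | h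
        · rw [ord_add_eq_of_lt w hgN0 (by rw [ord_pow]; omega), ord_pow]; omega
        · rw [add_comm, ord_add_eq_of_lt w hf0 (by rw [ord_pow]; omega)]; omega

/-- A function close to `1` at `v` and close to `0` at finitely many other places. -/
theorem exists_near_indicator (v : Place K F) (S : Finset (Place K F)) (hv : v ∉ S) (r : ℤ) :
    ∃ g : F, OrdGE v r (g - 1) ∧ ∀ w ∈ S, OrdGE w r g := by
  obtain ⟨f, hf0, hfv, hfS⟩ := exists_zero_poles v S hv
  set N : ℕ := r.toNat + 1
  have hN : r ≤ (N : ℤ) ∧ (1 : ℤ) ≤ N := by simp only [N]; omega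
  have hfN : f ^ N ≠ 0 := pow_ne_zero _ hf0
  have h1 : (1 : F) + f ^ N ≠ 0 ∧ v.ord (1 + f ^ N) = 0 :=
    add_ne_zero_and_ord_add_eq v one_ne_zero v.ord_one
      (ordGE_of_le_ord (by rw [ord_pow]; nlinarith))
  refine ⟨(1 + f ^ N)⁻¹, ?_, fun w hw => ?_⟩
  · have : (1 + f ^ N)⁻¹ - 1 = -(f ^ N * (1 + f ^ N)⁻¹) := by
      linear_combination mul_inv_cancel₀ h1.1
    rw [this]
    refine (OrdGE.neg ?_)
    refine ordGE_of_le_ord ?_
    rw [v.ord_mul hfN (inv_ne_zero h1.1), v.ord_inv, h1.2, ord_pow]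
    nlinarith
  · refine ordGE_of_le_ord ?_
    have hneg := hfS w hw
    have hlt : w.ord (f ^ N) < 0 := by rw [ord_pow]; nlinarith
    have := (add_ne_zero_and_ord_add_eq w hfN rfl
      (ordGE_of_le_ord (f := (1 : F)) (by rw [w.ord_one]; omega))).2
    rw [w.ord_inv, add_comm, this, ord_pow]
    nlinarith

/-- Weak approximation: finitely many prescribed local values, to any order. -/
theorem exists_approx_ordGE (S : Finset (Place K F)) (a : Place K F → F) (r : ℤ) :
    ∃ x : F, ∀ v ∈ S, OrdGE v r (x - a v) := by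
  classical
  obtain ⟨R, hR⟩ : ∃ R : ℤ, ∀ v ∈ S, ∀ u ∈ S, r - v.ord (a u) ≤ R := by
    refine ⟨|r| + ∑ v ∈ S, ∑ u ∈ S, |v.ord (a u)|, fun v hv u hu => ?_⟩
    have h1 : |v.ord (a u)| ≤ ∑ u' ∈ S, |v.ord (a u')| :=
      Finset.single_le_sum (f := fun u' => |v.ord (a u')|) (fun _ _ => abs_nonneg _) hu
    have h2 : ∑ u' ∈ S, |v.ord (a u')| ≤ ∑ v' ∈ S, ∑ u' ∈ S, |v'.ord (a u')| :=
      Finset.single_le_sum (f := fun v' : Place K F => ∑ u' ∈ S, |v'.ord (a u')|)
        (fun _ _ => Finset.sum_nonneg fun _ _ => abs_nonneg _) hv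
    have := neg_abs_le (v.ord (a u)); have := le_abs_self r
    omega
  choose g hg1 hg0 using fun v : Place K F =>
    exists_near_indicator v (S.erase v) (Finset.notMem_erase v S) R
  refine ⟨∑ u ∈ S, a u * g u, fun v hv => ?_⟩
  rw [← Finset.add_sum_erase _ _ hv, add_sub_right_comm]
  refine OrdGE.add ?_ (OrdGE.sum _ fun u hu => ?_)
  · rw [show a v * g v - a v = a v * (g v - 1) by ring]
    exact ((ordGE_of_le_ord le_rfl).mul (hg1 v)).mono (by have := hR v hv v hv; omega)
  · have hu' := Finset.mem_of_mem_erase hu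
    refine ((ordGE_of_le_ord le_rfl).mul
      (hg0 u v (Finset.mem_erase.mpr ⟨?_, hv⟩))).mono (by have := hR v hv u hu'; omega)
    exact (Finset.ne_of_mem_erase hu).symm

/-- Weak approximation with prescribed precision at each place. -/
theorem exists_approx (S : Finset (Place K F)) (a : Place K F → F) (n : Place K F → ℤ) :
    ∃ f : F, ∀ v ∈ S, f - a v = 0 ∨ n v ≤ v.ord (f - a v) := by
  obtain ⟨f, hf⟩ := exists_approx_ordGE S a (∑ v ∈ S, |n v|)
  refine ⟨f, fun v hv => (ordGE_iff v).mp ((hf v hv).mono ?_)⟩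
  exact (le_abs_self _).trans
    (Finset.single_le_sum (f := fun u => |n u|) (fun _ _ => abs_nonneg _) hv)

/-- Prescribed orders at finitely many places. -/
theorem exists_forall_ord_eq (S : Finset (Place K F)) (n : Place K F → ℤ) :
    ∃ f : F, f ≠ 0 ∧ ∀ v ∈ S, v.ord f = n v := by
  classical
  rcases S.eq_empty_or_nonempty with rfl | hS
  · exact ⟨1, one_ne_zero, by simp⟩
  choose t ht0 ht1 using fun v : Place K F => exists_ord_eq v (n v)
  obtain ⟨x, hx⟩ := exists_approx_ordGE S t (∑ v ∈ S, |n v| + 1)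
  have key : ∀ v ∈ S, x ≠ 0 ∧ v.ord x = n v := fun v hv => by
    have hle : |n v| ≤ ∑ u ∈ S, |n u| :=
      Finset.single_le_sum (f := fun u => |n u|) (fun _ _ => abs_nonneg _) hv
    exact sub_ne_zero_iff_of_ordGE v (ht0 v) (ht1 v)
      ((hx v hv).mono (by have := le_abs_self (n v); omega))
  exact ⟨x, (key _ hS.choose_spec).1, fun v hv => (key v hv).2⟩

end Fermat.Agent.Curve
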