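import Fermat.Agent.Curve.Approximation
import Mathlib.LinearAlgebra.Dimension.Finite
import Mathlib.LinearAlgebra.Dimension.StrongRankCondition

/-!
# The fundamental inequality `∑ e f ≤ n`
-/

noncomputable section

namespace Fermat.Agent.Curve

open AlgebraicCurve

variable {K E F : Type*} [Field K] [Field E] [Field F] [Algebra K E] [Algebra K F] [Algebra E F]
  [IsScalarTower K E F] [FiniteDimensional E F]

theorem sum_ramificationIndex_mul_le_of_lifts {v : Place K E} (S : Finset (Place K F))
    (hS : ∀ w ∈ S, w.restrict E = v) (m : Place K F → ℕ)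
    (u : ∀ w : Place K F, Fin (m w) → F) (hu0 : ∀ w ∈ S, ∀ k, OrdGE w 0 (u w k))
    (hu : ∀ w ∈ S, ∀ c : Fin (m w) → E, (∀ k, OrdGE v 0 (c k)) →
      OrdGE w 1 (∑ k, algebraMap E F (c k) * u w k) → ∀ k, OrdGE v 1 (c k)) :
    ∑ w ∈ S, w.ramificationIndex E * m w ≤ Module.finrank E F := by
  classical
  choose t ht0 ht1 using fun w : Place K F => exists_uniformizer w
  set R : ℤ := (∑ w ∈ S, w.ramificationIndex E : ℕ) + 1
  have hR : ∀ w ∈ S, (w.ramificationIndex E : ℤ) + 1 ≤ R := fun w hw => by
    have : w.ramificationIndex E ≤ ∑ w ∈ S, w.ramificationIndex E :=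
      Finset.single_le_sum (f := fun w : Place K F => w.ramificationIndex E)
        (fun _ _ => Nat.zero_le _) hw
    simp only [R]; omega
  let ι := Σ w : S, Fin ((w : Place K F).ramificationIndex E) × Fin (m w)
  choose A hA using fun i : ι => exists_approx_ordGE S
    (fun w => if w = (i.1 : Place K F) then u i.1 i.2.2 * t i.1 ^ (i.2.1 : ℕ) else 0) R
  suffices hli : LinearIndependent E A by
    have h := hli.fintype_card_le_finrank
    simp only [ι, Fintype.card_sigma, Fintype.card_prod, Fintype.card_fin] at h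
    rwa [Finset.sum_coe_sort S (fun w => w.ramificationIndex E * m w)] at h
  rw [Fintype.linearIndependent_iff]
  intro g hg
  by_contra! hne
  obtain ⟨i₁, hi₁⟩ := hne
  obtain ⟨i₀, -, hmax⟩ := Finset.exists_max_image (Finset.univ : Finset ι)
    (fun i => v.adicValuation (g i)) ⟨i₁, Finset.mem_univ _⟩
  have hg₀ : g i₀ ≠ 0 := by
    intro h0
    have h := hmax i₁ (Finset.mem_univ _)
    rw [h0, map_zero, le_zero_iff, Valuation.zero_iff] at h
    exact hi₁ h
  set c : ι → E := fun i => g i / g i₀
  have hc0 : ∀ i, OrdGE v 0 (c i) := fun i => by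
    show v.adicValuation (g i / g i₀) ≤ _
    rw [map_div₀, neg_zero, WithZero.exp_zero]
    exact div_le_one_of_le₀ (hmax i (Finset.mem_univ _)) zero_le
  have hc₁ : ¬ OrdGE v 1 (c i₀) := by
    simp only [c, div_self hg₀, OrdGE, map_one, ← WithZero.exp_zero, WithZero.exp_le_exp]
    norm_num
  have hsum : ∑ i, algebraMap E F (c i) * A i = 0 := by
    have : ∀ i, algebraMap E F (c i) * A i = algebraMap E F (g i₀)⁻¹ * (g i • A i) := fun i => by
      rw [Algebra.smul_def, ← mul_assoc, ← map_mul, inv_mul_eq_div]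
    simp only [this, ← Finset.mul_sum, hg, mul_zero]
  obtain ⟨⟨w₀, hw₀⟩, jk⟩ := i₀
  -- the least exponent of the uniformiser carrying a unit coefficient at `w₀`
  obtain ⟨j₀, hj₀, hjmin⟩ := Finset.exists_min_image
    (Finset.univ.filter fun j : Fin (w₀.ramificationIndex E) =>
      ∃ k, ¬ OrdGE v 1 (c ⟨⟨w₀, hw₀⟩, (j, k)⟩)) id
    ⟨jk.1, by simpa using ⟨jk.2, hc₁⟩⟩
  obtain ⟨k₀, hk₀⟩ : ∃ k, ¬ OrdGE v 1 (c ⟨⟨w₀, hw₀⟩, (j₀, k)⟩) := by simpa using hj₀
  apply hk₀
  refine hu w₀ hw₀ (fun k => c ⟨⟨w₀, hw₀⟩, (j₀, k)⟩) (fun k => hc0 _) ?_ k₀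
  set j : ℕ := (j₀ : ℕ) with hj
  have hjlt : (j : ℤ) + 1 ≤ w₀.ramificationIndex E := by have := j₀.isLt; omega
  have hv0 := hS w₀ hw₀
  -- all terms differ from those of the main part by something of order `> j`
  let M : ι → F := fun i =>
    if i.1 = ⟨w₀, hw₀⟩ ∧ (i.2.1 : ℕ) = j then algebraMap E F (c i) * (u i.1 i.2.2 * t w₀ ^ j) else 0
  have hdiff : ∀ i : ι, OrdGE w₀ (j + 1) (algebraMap E F (c i) * A i - M i) := by
    rintro ⟨⟨w, hw⟩, j', k⟩
    have hc := ordGE_algebraMap_of_restrict hv0 (hc0 ⟨⟨w, hw⟩, j', k⟩)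
    rw [mul_zero] at hc
    have hA' := hA ⟨⟨w, hw⟩, j', k⟩ w₀ hw₀
    have hR' := hR w₀ hw₀
    simp only [M, Subtype.mk.injEq]
    by_cases hwe : w = w₀
    · subst hwe
      rw [if_pos rfl] at hA'
      by_cases hje : (j' : ℕ) = j
      · rw [if_pos ⟨rfl, hje⟩, ← mul_sub]
        simp only [hje] at hA'
        exact (hc.mul hA').mono (by omega)
      · rw [if_neg (fun h => hje h.2), sub_zero]
        have hA'' : OrdGE w (j' : ℕ) (A ⟨⟨w, hw⟩, j', k⟩) := by
          have h1 : OrdGE w ((0 : ℤ) + (j' : ℕ)) (u w k * t w ^ (j' : ℕ)) :=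
            (hu0 w hw k).mul (ordGE_of_le_ord (by rw [ord_pow, ht1]; omega))
          rw [zero_add] at h1
          simpa using (hA'.mono (by have h5 : (j' : ℕ) < w.ramificationIndex E := j'.isLt; omega)).add h1
        rcases Nat.lt_or_gt_of_ne hje with hlt | hgt
        · have h1 : OrdGE v 1 (c ⟨⟨w, hw⟩, j', k⟩) := by
            by_contra hbad
            have := hjmin j' (by simpa using ⟨k, hbad⟩)
            simp only [id, Fin.le_def] at this
            omega
          have h2 := ordGE_algebraMap_of_restrict hv0 h1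
          exact (h2.mul hA'').mono (by omega)
        · exact (hc.mul hA'').mono (by omega)
    · rw [if_neg (fun h => hwe h.1), sub_zero]
      rw [if_neg (fun h => hwe h.symm), sub_zero] at hA'
      exact (hc.mul hA').mono (by omega)
  have hM : OrdGE w₀ (j + 1) (∑ i, M i) := by
    have h := (OrdGE.sum Finset.univ fun i _ => hdiff i).neg
    rwa [Finset.sum_sub_distrib, hsum, zero_sub, neg_neg] at h
  have hMeq : ∑ i, M i =
      (∑ k, algebraMap E F (c ⟨⟨w₀, hw₀⟩, (j₀, k)⟩) * u w₀ k) * t w₀ ^ j := by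
    rw [Fintype.sum_sigma, Finset.sum_eq_single (⟨w₀, hw₀⟩ : S), Fintype.sum_prod_type,
      Finset.sum_eq_single j₀, Finset.sum_mul]
    · refine Finset.sum_congr rfl fun k _ => ?_
      simp [M, ← hj, mul_assoc]
    · intro b _ hb
      refine Finset.sum_eq_zero fun k _ => ?_
      exact if_neg fun h => hb (Fin.ext h.2)
    · simp
    · intro b _ hb
      exact Finset.sum_eq_zero fun k _ => if_neg fun h => hb h.1
    · simp
  rw [hMeq] at hM
  have h := hM.mul (ordGE_of_le_ord (v := w₀) (n := -(j : ℤ)) (f := (t w₀ ^ j)⁻¹)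
    (by rw [w₀.ord_inv, ord_pow, ht1]; omega))
  rw [mul_assoc, mul_inv_cancel₀ (pow_ne_zero _ (ht0 w₀)), mul_one] at h
  exact h.mono (by omega)

theorem sum_ramificationIndex_mul_le_of_linearIndependent {v : Place K E}
    (S : Finset (Place K F)) (hS : ∀ w ∈ S, w.restrict E = v) (m : Place K F → ℕ)
    (b : ∀ w : Place K F, Fin (m w) → w.ResidueField)
    (hb : ∀ w ∈ S, LinearIndependent (w.restrict E).ResidueField (b w)) :
    ∑ w ∈ S, w.ramificationIndex E * m w ≤ Module.finrank E F := by
  choose u hu using fun (w : Place K F) (k : Fin (m w)) =>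
    IsLocalRing.residue_surjective (b w k)
  refine sum_ramificationIndex_mul_le_of_lifts S hS m (fun w k => (u w k : F))
    (fun w _ k => (ordGE_zero_iff_mem w).mpr (u w k).2) fun w hw c hc hsum k => ?_
  obtain rfl := hS w hw
  let c' : Fin (m w) → (w.restrict E).toValuationSubring := fun k =>
    ⟨c k, (ordGE_zero_iff_mem _).mp (hc k)⟩
  have h0 : ∑ k, IsLocalRing.residue _ (c' k) • b w k = 0 := by
    simp only [Algebra.smul_def, Place.algebraMap_residueField_eq,
      Place.restrictResidueMap_residue, ← hu, ← map_mul, ← map_sum]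
    rw [residue_eq_zero_iff]
    have he : ∀ x, ((Place.restrictInclusion E w (c' x) : w.toValuationSubring) : F)
        = algebraMap E F (c x) := fun _ => rfl
    show OrdGE w 1 ((∑ x, Place.restrictInclusion E w (c' x) * u w x : w.toValuationSubring) : F)
    push_cast
    convert hsum using 2 with x
    rw [he x]
  exact (residue_eq_zero_iff _ _).mp (Fintype.linearIndependent_iff.mp (hb w hw) _ h0 k)

theorem module_finite_residue_over_restrict (w : Place K F) :
    Module.Finite (w.restrict E).ResidueField w.ResidueField := by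
  have hrank : Module.rank (w.restrict E).ResidueField w.ResidueField
      ≤ (Module.finrank E F : ℕ) := by
    classical
    refine rank_le fun s hs => ?_
    have h := sum_ramificationIndex_mul_le_of_linearIndependent (v := w.restrict E) {w}
      (by simp) (fun w' => if w' = w then s.card else 0)
      (fun w' k => if hk : w' = w then
        hk ▸ ((s.equivFin.symm ⟨k, by simpa [hk] using k.isLt⟩ : s) : w.ResidueField) else 0)
      (by
        intro w' hw'
        rw [Finset.mem_singleton] at hw'
        subst hw'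
        simp only [dite_true]
        exact hs.comp _ fun a b hab => Fin.ext (by simpa using congrArg Fin.val (s.equivFin.symm.injective hab)))
    rw [Finset.sum_singleton, if_pos rfl] at h
    exact le_trans (Nat.le_mul_of_pos_left _ w.ramificationIndex_pos) h
  exact Module.rank_lt_aleph0_iff.mp (hrank.trans_lt Cardinal.natCast_lt_aleph0)

/-- The fundamental inequality `∑ e f ≤ n`. -/
theorem sum_ramificationIndex_mul_inertiaDeg_le {v : Place K E} (S : Finset (Place K F))
    (hS : ∀ w ∈ S, w.restrict E = v) :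
    ∑ w ∈ S, w.ramificationIndex E * w.inertiaDeg E ≤ Module.finrank E F := by
  haveI : ∀ w : Place K F, Module.Finite (w.restrict E).ResidueField w.ResidueField :=
    fun w => module_finite_residue_over_restrict w
  exact sum_ramificationIndex_mul_le_of_linearIndependent S hS _
    (fun w => Module.finBasis (w.restrict E).ResidueField w.ResidueField)
    (fun w _ => (Module.finBasis _ _).linearIndependent)

end Fermat.Agent.Curve
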