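import Fermat.Agent.Curve.Places

/-!
# The zero of `t` in a field `K(t)`
-/

set_option autoImplicit false

noncomputable section

open IntermediateField AlgebraicCurve Polynomial

namespace Fermat.Agent.Curve

variable {K F : Type*} [Field K] [Field F] [Algebra K F] {t : F} {v : Place K F}

theorem aeval_mem_place (ht : t ∈ v.toValuationSubring) (q : K[X]) :
    aeval t q ∈ v.toValuationSubring := by
  induction q using Polynomial.induction_on' with
  | add p r hp hr => rw [map_add]; exact add_mem hp hr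
  | monomial n a => rw [aeval_monomial]; exact mul_mem (v.algebraMap_mem' a) (pow_mem ht n)

theorem ordGE_aeval_sub_coeff_zero (ht : 0 < v.ord t) (q : K[X]) :
    OrdGE v 1 (aeval t q - algebraMap K F (q.coeff 0)) := by
  have hdec : aeval t q = aeval t q.divX * t + algebraMap K F (q.coeff 0) := by
    conv_lhs => rw [← Polynomial.divX_mul_X_add q]
    simp
  rw [hdec, add_sub_cancel_right]
  have h := ((ordGE_zero_iff_mem v).mpr (aeval_mem_place (mem_of_ord_nonneg v ht.le) q.divX)).mul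
    (ordGE_of_le_ord (v := v) (f := t) (show (1 : ℤ) ≤ v.ord t by omega))
  simpa using h

theorem ord_aeval_eq (ht : 0 < v.ord t) (q : K[X]) (hq : aeval t q ≠ 0) :
    v.ord (aeval t q) = q.rootMultiplicity 0 * v.ord t := by
  have hq0 : q ≠ 0 := by rintro rfl; simp at hq
  obtain ⟨r, hr, hndvd⟩ := Polynomial.exists_eq_pow_rootMultiplicity_mul_and_not_dvd q hq0 0
  rw [C_0, sub_zero] at hr hndvd
  have hr0 : r.coeff 0 ≠ 0 := fun h => hndvd (X_dvd_iff.mpr h)
  have h1 := add_ne_zero_and_ord_add_eq v (f := algebraMap K F (r.coeff 0))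
    (g := aeval t r - algebraMap K F (r.coeff 0)) (n := 0) (by simpa using hr0)
    (ord_algebraMap v _) (by simpa using ordGE_aeval_sub_coeff_zero ht r)
  rw [add_sub_cancel] at h1
  have ht0 : t ≠ 0 := by rintro rfl; simp at ht
  conv_lhs => rw [hr]
  rw [map_mul, map_pow, aeval_X, v.ord_mul (pow_ne_zero _ ht0) h1.1, ord_pow, h1.2, add_zero]

theorem exists_ord_eq_mul (hgen : K⟮t⟯ = ⊤) {c : F} (hc : c ≠ 0) :
    ∃ m : ℤ, ∀ v : Place K F, 0 < v.ord t → v.ord c = m * v.ord t := by
  obtain ⟨p, q, rfl⟩ := (mem_adjoin_simple_iff K c).mp (hgen ▸ mem_top)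
  obtain ⟨hp, hq⟩ := div_ne_zero_iff.mp hc
  refine ⟨(p.rootMultiplicity 0 : ℤ) - q.rootMultiplicity 0, fun v hv => ?_⟩
  rw [ord_div v hp hq, ord_aeval_eq hv p hp, ord_aeval_eq hv q hq]
  ring

theorem ord_eq_one_of_gen (hgen : K⟮t⟯ = ⊤) (ht : 0 < v.ord t) : v.ord t = 1 := by
  obtain ⟨π, hπ, h1⟩ := exists_uniformizer v
  obtain ⟨m, hm⟩ := exists_ord_eq_mul hgen hπ
  have h := hm v ht
  rw [h1] at h
  exact Int.eq_one_of_dvd_one ht.le ⟨m, by rw [h]; ring⟩

theorem eq_of_ord_pos_gen (hgen : K⟮t⟯ = ⊤) {w : Place K F} (hv : 0 < v.ord t)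
    (hw : 0 < w.ord t) : v = w := by
  refine place_ext_ord fun f hf => ?_
  rcases eq_or_ne f 0 with rfl | hf0
  · simp
  obtain ⟨m, hm⟩ := exists_ord_eq_mul hgen hf0
  rw [hm v hv, ord_eq_one_of_gen hgen hv] at hf
  rw [hm w hw, ord_eq_one_of_gen hgen hw]
  omega

theorem exists_sub_algebraMap_ordGE_one (hgen : K⟮t⟯ = ⊤) (ht : 0 < v.ord t) {c : F}
    (hc : c ∈ v.toValuationSubring) : ∃ a : K, OrdGE v 1 (c - algebraMap K F a) := by
  rcases eq_or_ne c 0 with rfl | hc0
  · exact ⟨0, by simpa using ordGE_zero 1⟩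
  rcases eq_or_lt_of_le (ord_nonneg_of_mem v hc) with h | h
  · obtain ⟨p, q, rfl⟩ := (mem_adjoin_simple_iff K c).mp (hgen ▸ mem_top)
    obtain ⟨hp, hq⟩ := div_ne_zero_iff.mp hc0
    -- cancel the common power of `t`
    have ht0 : t ≠ 0 := by rintro rfl; simp at ht
    obtain ⟨r, hr, hrd⟩ := Polynomial.exists_eq_pow_rootMultiplicity_mul_and_not_dvd p
      (by rintro rfl; simp at hp) 0
    obtain ⟨s, hs, hsd⟩ := Polynomial.exists_eq_pow_rootMultiplicity_mul_and_not_dvd q
      (by rintro rfl; simp at hq) 0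
    rw [C_0, sub_zero] at hr hrd hs hsd
    have hs0 : s.coeff 0 ≠ 0 := fun h => hsd (X_dvd_iff.mpr h)
    have hm : p.rootMultiplicity 0 = q.rootMultiplicity 0 := by
      rw [ord_div v hp hq, ord_aeval_eq ht p hp, ord_aeval_eq ht q hq, ← sub_mul] at h
      have := (mul_eq_zero.mp h.symm).resolve_right ht.ne'
      omega
    have hsne : aeval t s ≠ 0 := by
      intro h0; rw [hs] at hq; simp [h0] at hq
    have hdiv : aeval t p / aeval t q = aeval t r / aeval t s := by
      conv_lhs => rw [hr, hs, hm]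
      simp only [map_mul, map_pow, aeval_X]
      rw [mul_div_mul_left _ _ (pow_ne_zero _ ht0)]
    refine ⟨r.coeff 0 / s.coeff 0, ?_⟩
    have hs1 : v.ord (aeval t s) = 0 := by
      rw [ord_aeval_eq ht s hsne, Polynomial.rootMultiplicity_eq_zero (by
        rwa [IsRoot, ← coeff_zero_eq_eval_zero])]
      simp
    set a := r.coeff 0 / s.coeff 0
    have hnum : OrdGE v 1 (aeval t (r - C a * s)) := by
      have h := ordGE_aeval_sub_coeff_zero ht (r - C a * s)
      simpa [a, div_mul_cancel₀ _ hs0] using h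
    have heq : aeval t p / aeval t q - algebraMap K F a
        = aeval t (r - C a * s) * (aeval t s)⁻¹ := by
      rw [hdiv, map_sub, map_mul, aeval_C, sub_mul, div_eq_mul_inv,
        mul_inv_cancel_right₀ hsne]
    rw [heq]
    simpa using hnum.mul (ordGE_of_le_ord (v := v) (n := 0) (f := (aeval t s)⁻¹)
      (by rw [v.ord_inv, hs1]; simp))
  · exact ⟨0, by simpa using ordGE_of_le_ord (v := v) (f := c) (by omega : (1 : ℤ) ≤ v.ord c)⟩

theorem residue_algebraMap_surjective (hgen : K⟮t⟯ = ⊤) (ht : 0 < v.ord t) :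
    Function.Surjective (algebraMap K v.ResidueField) := by
  intro y
  obtain ⟨c, rfl⟩ := IsLocalRing.residue_surjective y
  obtain ⟨a, ha⟩ := exists_sub_algebraMap_ordGE_one hgen ht c.2
  refine ⟨a, ?_⟩
  symm
  rw [← sub_eq_zero]
  show IsLocalRing.residue _ c - IsLocalRing.residue _ (algebraMap K v.toValuationSubring a) = 0
  rw [← map_sub, residue_eq_zero_iff]
  simpa using ha

theorem finite_residueField_of_gen (hgen : K⟮t⟯ = ⊤) (ht : 0 < v.ord t) :
    Module.Finite K v.ResidueField :=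
  Module.Finite.of_surjective (Algebra.linearMap K v.ResidueField)
    (residue_algebraMap_surjective hgen ht)

theorem deg_eq_one_of_gen (hgen : K⟮t⟯ = ⊤) (ht : 0 < v.ord t) : v.deg = 1 := by
  let e := AlgEquiv.ofBijective (Algebra.ofId K v.ResidueField)
    ⟨(algebraMap K v.ResidueField).injective, residue_algebraMap_surjective hgen ht⟩
  rw [Place.deg, ← e.toLinearEquiv.finrank_eq, Module.finrank_self]

theorem adjoin_sub_algebraMap (x : F) (a : K) : K⟮x - algebraMap K F a⟯ = K⟮x⟯ := by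
  refine le_antisymm ?_ ?_
  · rw [adjoin_simple_le_iff]
    exact sub_mem (mem_adjoin_simple_self K x) (K⟮x⟯.algebraMap_mem a)
  · rw [adjoin_simple_le_iff]
    have h := add_mem (mem_adjoin_simple_self K (x - algebraMap K F a))
      (K⟮x - algebraMap K F a⟯.algebraMap_mem a)
    rwa [sub_add_cancel] at h

theorem adjoin_inv (x : F) : K⟮x⁻¹⟯ = K⟮x⟯ := by
  refine le_antisymm ?_ ?_ <;> rw [adjoin_simple_le_iff]
  · exact inv_mem (mem_adjoin_simple_self K x)
  · simpa using inv_mem (mem_adjoin_simple_self K x⁻¹)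

end Fermat.Agent.Curve

end
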