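import Fermat.Agent.Curve.Places
import Fermat.Agent.Curve.Approximation
import Fermat.Agent.Curve.RatPlaces
import Fermat.Agent.Curve.FundamentalInequality

/-!
# Degree of the zero divisor, principal divisors, residue fields

Owner: helper36.
-/

set_option autoImplicit false

noncomputable section

open IntermediateField AlgebraicCurve WithZero Polynomial

namespace Fermat.Agent.Curve

variable {K F : Type*} [Field K] [Field F] [Algebra K F]

section Adjoin

variable [IsFunctionField1 K F] {x : F} (hx : Transcendental K x) {w : Place K F}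

include hx in
theorem zero_restrict (hw : 0 < w.ord x) :
    haveI := finiteDimensional_adjoin (K := K) hx
    0 < (w.restrict K⟮x⟯).ord (IntermediateField.AdjoinSimple.gen K x) := by
  haveI := finiteDimensional_adjoin (K := K) hx
  have h := w.ord_restrict (F := K⟮x⟯) (IntermediateField.AdjoinSimple.gen K x)
  rw [IntermediateField.AdjoinSimple.algebraMap_gen] at h
  by_contra hle
  push_neg at hle
  have : (w.ramificationIndex K⟮x⟯ : ℤ)
      * (w.restrict K⟮x⟯).ord (IntermediateField.AdjoinSimple.gen K x) ≤ 0 :=
    mul_nonpos_of_nonneg_of_nonpos (by positivity) hle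
  omega

include hx in
theorem ramificationIndex_eq_ord (hw : 0 < w.ord x) :
    haveI := finiteDimensional_adjoin (K := K) hx
    (w.ramificationIndex K⟮x⟯ : ℤ) = w.ord x := by
  haveI := finiteDimensional_adjoin (K := K) hx
  have h := w.ord_restrict (F := K⟮x⟯) (IntermediateField.AdjoinSimple.gen K x)
  rwa [IntermediateField.AdjoinSimple.algebraMap_gen,
    ord_eq_one_of_gen (adjoin_gen_eq_top x) (zero_restrict hx hw), mul_one, eq_comm] at h

include hx in
theorem finite_residueField_of_ord_pos (hw : 0 < w.ord x) : Module.Finite K w.ResidueField := by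
  haveI := finiteDimensional_adjoin (K := K) hx
  haveI := finite_residueField_of_gen (adjoin_gen_eq_top x) (zero_restrict hx hw)
  haveI := module_finite_residue_over_restrict (E := K⟮x⟯) w
  exact Module.Finite.trans (w.restrict K⟮x⟯).ResidueField w.ResidueField

end Adjoin

/-- Every place of a function field has finite residue field. -/
theorem finite_residueField [IsFunctionField1 K F] (v : Place K F) :
    Module.Finite K v.ResidueField := by
  obtain ⟨t, -, ht⟩ := exists_uniformizer v
  exact finite_residueField_of_ord_pos (transcendental_of_ord_ne_zero v (f := t) (by omega))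
    (by omega)

theorem deg_pos [IsFunctionField1 K F] (v : Place K F) : 0 < v.deg :=
  finiteResidue_deg_pos v (finite_residueField v)

theorem deg_eq_one [IsFunctionField1 K F] [IsAlgClosed K] (v : Place K F) : v.deg = 1 :=
  haveI := finite_residueField v
  v.deg_eq_one_of_isAlgClosed_of_finite

/-- Zeros of `x` among finitely many places: `∑ ord · deg ≤ [F : K(x)]`. -/
theorem sum_ord_mul_deg_le [IsFunctionField1 K F] {x : F} (hx : Transcendental K x)
    (S : Finset (Place K F)) (hS : ∀ w ∈ S, 0 < w.ord x) :
    ∑ w ∈ S, w.ord x * w.deg ≤ (Module.finrank K⟮x⟯ F : ℤ) := by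
  rcases S.eq_empty_or_nonempty with rfl | ⟨w₀, hw₀⟩
  · simp
  haveI := finiteDimensional_adjoin (K := K) hx
  have h := sum_ramificationIndex_mul_inertiaDeg_le (v := w₀.restrict K⟮x⟯) S fun w hw =>
    eq_of_ord_pos_gen (adjoin_gen_eq_top x) (zero_restrict hx (hS w hw))
      (zero_restrict hx (hS w₀ hw₀))
  refine le_of_eq_of_le ?_ (Int.ofNat_le.mpr h)
  push_cast
  refine Finset.sum_congr rfl fun w hw => ?_
  rw [ramificationIndex_eq_ord hx (hS w hw)]
  congr 1
  rw [← w.deg_restrict_mul_inertiaDeg (F := K⟮x⟯),
    deg_eq_one_of_gen (adjoin_gen_eq_top x) (zero_restrict hx (hS w hw)), one_mul]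

theorem finite_ord_pos [IsFunctionField1 K F] {x : F} (hx : Transcendental K x) :
    {v : Place K F | 0 < v.ord x}.Finite := by
  by_contra hinf
  obtain ⟨S, hS, hcard⟩ := Set.Infinite.exists_subset_card_eq hinf (Module.finrank K⟮x⟯ F + 1)
  have h := sum_ord_mul_deg_le hx S fun w hw => hS hw
  have hle : (S.card : ℤ) ≤ ∑ w ∈ S, w.ord x * w.deg := by
    rw [Finset.card_eq_sum_ones]
    push_cast
    refine Finset.sum_le_sum fun w hw => ?_
    have h1 : 0 < w.ord x := hS hw
    have h2 : (1 : ℤ) ≤ w.deg := by exact_mod_cast deg_pos w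
    calc (1 : ℤ) = 1 * 1 := (mul_one 1).symm
      _ ≤ w.ord x * w.deg := by gcongr; omega
  omega

theorem finite_ord_ne_zero [IsFunctionField1 K F] (f : F) :
    {v : Place K F | v.ord f ≠ 0}.Finite := by
  by_cases hf : IsAlgebraic K f
  · simp [ord_eq_zero_of_isAlgebraic _ hf]
  · have hinv : Transcendental K f⁻¹ := fun h => hf (by simpa using h.inv)
    refine ((finite_ord_pos (K := K) hf).union (finite_ord_pos hinv)).subset fun v hv => ?_
    simp only [Set.mem_union, Set.mem_setOf_eq, Place.ord_inv] at hv ⊢
    omega

/-- The divisor of `f` (zero for `f = 0`). -/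
def divisorOf [IsFunctionField1 K F] (f : F) : Divisor K F :=
  Finsupp.onFinset (finite_ord_ne_zero f).toFinset (fun v => v.ord f) fun v h => by simpa using h

@[simp]
theorem divisorOf_apply [IsFunctionField1 K F] (f : F) (v : Place K F) :
    divisorOf f v = v.ord f := rfl

/-- The divisor of poles of `f`. -/
def poleDivisor [IsFunctionField1 K F] (f : F) : Divisor K F :=
  (divisorOf f).mapRange (fun n => max (-n) 0) (by simp)

@[simp]
theorem poleDivisor_apply [IsFunctionField1 K F] (f : F) (v : Place K F) :
    poleDivisor f v = max (-v.ord f) 0 := rfl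

theorem poleDivisor_nonneg [IsFunctionField1 K F] (f : F) : 0 ≤ poleDivisor (K := K) f := by
  intro v
  simp

theorem degree_eq_sum (D : Divisor K F) :
    Divisor.degree D = ∑ v ∈ D.support, D v * (v.deg : ℤ) := by
  simp [Divisor.degree, Finsupp.liftAddHom_apply, Finsupp.sum]

theorem degree_nonneg {D : Divisor K F} (h : 0 ≤ D) : 0 ≤ Divisor.degree D := by
  rw [degree_eq_sum]
  exact Finset.sum_nonneg fun v _ => mul_nonneg (h v) (by positivity)

/-- Adding one point enlarges `L(D)` by at most the degree of the point. -/
theorem finite_riemannRochSpace_add_single [IsFunctionField1 K F] (D : Divisor K F)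
    (v : Place K F) (h : Module.Finite K (riemannRochSpace D)) :
    Module.Finite K (riemannRochSpace (D + Finsupp.single v 1)) ∧
      Module.finrank K (riemannRochSpace (D + Finsupp.single v 1))
        ≤ Module.finrank K (riemannRochSpace D) + v.deg := by
  haveI := h
  haveI := finite_residueField v
  obtain ⟨t, ht0, ht⟩ := exists_ord_eq v (D v + 1)
  set D' := D + Finsupp.single v 1
  have hmem : ∀ f : riemannRochSpace D', (f : F) * t ∈ v.toValuationSubring := fun f => by
    rcases mem_riemannRochSpace_iff.mp f.2 v with h | h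
    · simp [h, zero_mem]
    rcases eq_or_ne (f : F) 0 with h0 | h0
    · simp [h0, zero_mem]
    refine mem_of_ord_nonneg v ?_
    rw [v.ord_mul h0 ht0, ht]
    simp [D'] at h
    omega
  let φ : riemannRochSpace D' →ₗ[K] v.ResidueField :=
    { toFun := fun f => IsLocalRing.residue _ (⟨(f : F) * t, hmem f⟩ : v.toValuationSubring)
      map_add' := fun f g => by
        rw [← map_add]; congr 1; ext; simp [add_mul]
      map_smul' := fun c f => by
        rw [RingHom.id_apply, Algebra.smul_def,
          show algebraMap K v.ResidueField c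
            = IsLocalRing.residue _ (algebraMap K v.toValuationSubring c) from rfl, ← map_mul]
        congr 1; ext; simp [Algebra.smul_def, mul_assoc] }
  have hker : ∀ f : riemannRochSpace D', φ f = 0 → (f : F) ∈ riemannRochSpace D := fun f hf => by
    change IsLocalRing.residue _ (⟨(f : F) * t, hmem f⟩ : v.toValuationSubring) = 0 at hf
    rw [Fermat.Agent.Curve.residue_eq_zero_iff, ordGE_iff] at hf
    rw [mem_riemannRochSpace_iff]
    intro u
    rcases eq_or_ne (f : F) 0 with h0 | h0
    · exact Or.inl h0
    refine Or.inr ?_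
    rcases eq_or_ne u v with rfl | hu
    · have h1 := hf.resolve_left (mul_ne_zero h0 ht0)
      simp only [] at h1
      rw [u.ord_mul h0 ht0, ht] at h1
      omega
    · have h1 := (mem_riemannRochSpace_iff.mp f.2 u).resolve_left h0
      simpa [D', Finsupp.single_eq_of_ne hu] using h1
  let ψ : LinearMap.ker φ →ₗ[K] riemannRochSpace D :=
    ((riemannRochSpace D').subtype.comp (LinearMap.ker φ).subtype).codRestrict _
      fun f => hker f f.2
  have hψ : Function.Injective ψ := fun a b hab => by
    have h := congrArg Subtype.val hab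
    exact Subtype.ext (Subtype.ext h)
  haveI : Module.Finite K (LinearMap.ker φ) := Module.Finite.of_injective ψ hψ
  haveI : Module.Finite K (riemannRochSpace D' ⧸ LinearMap.ker φ) :=
    Module.Finite.of_injective ((LinearMap.ker φ).liftQ φ le_rfl)
      (LinearMap.ker_eq_bot.mp (Submodule.ker_liftQ_eq_bot _ _ _ le_rfl))
  haveI : Module.Finite K (riemannRochSpace D') :=
    Module.Finite.of_submodule_quotient (LinearMap.ker φ)
  refine ⟨inferInstance, ?_⟩
  have h1 := LinearMap.finrank_range_add_finrank_ker φ
  have h2 : Module.finrank K (LinearMap.range φ) ≤ v.deg := Submodule.finrank_le _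
  have h3 := LinearMap.finrank_le_finrank_of_injective hψ
  omega

theorem finite_riemannRochSpace_zero [IsFunctionField1 K F] (v : Place K F) :
    Module.Finite K (riemannRochSpace (0 : Divisor K F)) ∧
      Module.finrank K (riemannRochSpace (0 : Divisor K F)) ≤ v.deg := by
  haveI := finite_residueField v
  have halg : ∀ f : riemannRochSpace (0 : Divisor K F), IsAlgebraic K (f : F) := fun f =>
    isAlgebraic_of_forall_ord_nonneg fun u => by
      rcases mem_riemannRochSpace_iff.mp f.2 u with h | h
      · simp [h]
      · simpa using h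
  have hmem : ∀ f : riemannRochSpace (0 : Divisor K F), (f : F) ∈ v.toValuationSubring := fun f =>
    mem_of_ord_nonneg v (ord_eq_zero_of_isAlgebraic v (halg f)).ge
  let φ : riemannRochSpace (0 : Divisor K F) →ₗ[K] v.ResidueField :=
    { toFun := fun f => IsLocalRing.residue _ (⟨(f : F), hmem f⟩ : v.toValuationSubring)
      map_add' := fun f g => by rw [← map_add]; rfl
      map_smul' := fun c f => by
        rw [RingHom.id_apply, Algebra.smul_def,
          show algebraMap K v.ResidueField c
            = IsLocalRing.residue _ (algebraMap K v.toValuationSubring c) from rfl, ← map_mul]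
        congr 1; ext; simp [Algebra.smul_def] }
  have hφ : Function.Injective φ := by
    rw [injective_iff_map_eq_zero]
    intro f hf
    change IsLocalRing.residue _ (⟨(f : F), hmem f⟩ : v.toValuationSubring) = 0 at hf
    rw [Fermat.Agent.Curve.residue_eq_zero_iff, ordGE_iff] at hf
    rcases hf with h | h
    · exact Subtype.ext h
    · have h' := ord_eq_zero_of_isAlgebraic v (halg f)
      simp only [] at h
      omega
  exact ⟨Module.Finite.of_injective φ hφ, LinearMap.finrank_le_finrank_of_injective hφ⟩

theorem finite_riemannRochSpace_of_nonneg [IsFunctionField1 K F] (v₀ : Place K F)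
    {D : Divisor K F} (hD : 0 ≤ D) : Module.Finite K (riemannRochSpace D) ∧
      (Module.finrank K (riemannRochSpace D) : ℤ) ≤ v₀.deg + Divisor.degree D := by
  suffices H : ∀ m : ℕ, ∀ D : Divisor K F, 0 ≤ D → (Divisor.degree D).toNat ≤ m →
      Module.Finite K (riemannRochSpace D) ∧
        (Module.finrank K (riemannRochSpace D) : ℤ) ≤ v₀.deg + Divisor.degree D from
    H _ D hD le_rfl
  intro m
  induction m with
  | zero =>
    intro D hD hm
    suffices D = 0 by
      subst this
      obtain ⟨h1, h2⟩ := finite_riemannRochSpace_zero v₀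
      exact ⟨h1, by rw [map_zero, add_zero]; exact_mod_cast h2⟩
    ext v
    by_contra hv
    have hle : D v * v.deg ≤ Divisor.degree D := by
      rw [degree_eq_sum]
      exact Finset.single_le_sum (f := fun u => D u * (u.deg : ℤ))
        (fun u _ => mul_nonneg (hD u) (by positivity)) (Finsupp.mem_support_iff.mpr hv)
    have h1 : 0 < D v * v.deg :=
      mul_pos (lt_of_le_of_ne (hD v) (Ne.symm hv)) (by exact_mod_cast deg_pos v)
    omega
  | succ m ih =>
    intro D hD hm
    rcases eq_or_ne D 0 with rfl | hne
    · obtain ⟨h1, h2⟩ := finite_riemannRochSpace_zero v₀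
      exact ⟨h1, by rw [map_zero, add_zero]; exact_mod_cast h2⟩
    obtain ⟨v, hv⟩ := Finsupp.support_nonempty_iff.mpr hne
    have hv' : 1 ≤ D v := by
      have := hD v; rw [Finsupp.mem_support_iff] at hv
      simp at this; omega
    set D₀ := D - Finsupp.single v 1
    have hD₀ : 0 ≤ D₀ := fun u => by
      rcases eq_or_ne u v with rfl | hu
      · simp [D₀]; omega
      · simpa [D₀, Finsupp.single_eq_of_ne hu] using hD u
    have hadd : D₀ + Finsupp.single v 1 = D := sub_add_cancel _ _
    have hdeg : Divisor.degree D = Divisor.degree D₀ + v.deg := by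
      rw [← hadd, map_add, Divisor.degree_single, one_mul]
    have hpos := deg_pos v
    have hnn := degree_nonneg hD₀
    obtain ⟨h1, h2⟩ := ih D₀ hD₀ (by omega)
    obtain ⟨h3, h4⟩ := finite_riemannRochSpace_add_single D₀ v h1
    rw [hadd] at h3 h4
    exact ⟨h3, by omega⟩

theorem degree_poleDivisor_le [IsFunctionField1 K F] {f : F} (hf : Transcendental K f) :
    Divisor.degree (poleDivisor (K := K) f) ≤ (Module.finrank K⟮f⟯ F : ℤ) := by
  have hinv : Transcendental K f⁻¹ := fun h => hf (by simpa using h.inv)
  have hS : ∀ v ∈ (poleDivisor (K := K) f).support, 0 < v.ord f⁻¹ := fun v hv => by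
    rw [Finsupp.mem_support_iff, poleDivisor_apply] at hv
    rw [Place.ord_inv]
    omega
  rw [← adjoin_inv f, degree_eq_sum]
  refine le_of_eq_of_le ?_ (sum_ord_mul_deg_le hinv _ hS)
  refine Finset.sum_congr rfl fun v hv => ?_
  have := hS v hv
  rw [Place.ord_inv] at this
  rw [poleDivisor_apply, Place.ord_inv, max_eq_left this.le]

/-- `deg (f)_∞ = [F : K(f)]`. -/
theorem degree_poleDivisor [IsFunctionField1 K F] {f : F} (hf : Transcendental K f) :
    Divisor.degree (poleDivisor (K := K) f) = Module.finrank K⟮f⟯ F := by
  refine le_antisymm (degree_poleDivisor_le hf) ?_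
  by_contra hlt
  push_neg at hlt
  haveI := finiteDimensional_adjoin (K := K) hf
  obtain ⟨v₀, hv₀⟩ := exists_place_ord_pos (K := K) hf
  set n := Module.finrank K⟮f⟯ F
  let b := Module.finBasis K⟮f⟯ F
  set P := poleDivisor (K := K) f
  set C := ∑ i, poleDivisor (K := K) (b i)
  have hC : 0 ≤ C := Finset.sum_nonneg fun i _ => poleDivisor_nonneg _
  have hdC := degree_nonneg hC
  set k : ℕ := (Divisor.degree C).toNat + v₀.deg + 1
  have hnn : 0 ≤ k • P + C := add_nonneg (nsmul_nonneg (poleDivisor_nonneg f) k) hC
  obtain ⟨hfin, hle⟩ := finite_riemannRochSpace_of_nonneg v₀ hnn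
  haveI := hfin
  let u : Fin (k + 1) × Fin n → riemannRochSpace (k • P + C) := fun p =>
    ⟨f ^ (p.1 : ℕ) * b p.2, by
      rw [mem_riemannRochSpace_iff]
      refine fun v => Or.inr ?_
      rcases eq_or_ne f 0 with rfl | hf0
      · exact absurd isAlgebraic_zero hf
      rw [v.ord_mul (pow_ne_zero _ hf0) (b.ne_zero _), ord_pow]
      have hP : -P v ≤ v.ord f ∧ 0 ≤ P v := by simp [P]; omega
      have hCv : poleDivisor (K := K) (b p.2) v ≤ C v := by
        simp only [C, Finset.sum_apply']
        exact Finset.single_le_sum (f := fun i => poleDivisor (K := K) (b i) v)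
          (fun i _ => poleDivisor_nonneg (b i) v) (Finset.mem_univ _)
      rw [Finsupp.add_apply, Finsupp.smul_apply, nsmul_eq_mul]
      simp only [poleDivisor_apply] at hCv
      have hp : ((p.1 : ℕ) : ℤ) ≤ k := by have := p.1.isLt; omega
      have h1 : ((p.1 : ℕ) : ℤ) * (-P v) ≤ (p.1 : ℕ) * v.ord f :=
        mul_le_mul_of_nonneg_left hP.1 (by positivity)
      have h2 : (k : ℤ) * (-P v) ≤ (p.1 : ℕ) * (-P v) :=
        mul_le_mul_of_nonpos_right hp (by omega)
      simp only [mul_neg] at h1 h2
      omega⟩
  have hpow : LinearIndependent K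
      (fun j : Fin (k + 1) => IntermediateField.AdjoinSimple.gen K f ^ (j : ℕ)) := by
    rw [Fintype.linearIndependent_iff]
    intro g hg j
    have hp : (∑ i : Fin (k + 1), monomial (i : ℕ) (g i)) = (0 : K[X]) := by
      refine transcendental_iff.mp hf _ ?_
      have h := congrArg (algebraMap K⟮f⟯ F) hg
      rw [map_sum, map_zero] at h
      rw [map_sum, ← h]
      refine Finset.sum_congr rfl fun i _ => ?_
      rw [aeval_monomial, Algebra.smul_def, map_mul, map_pow,
        IntermediateField.AdjoinSimple.algebraMap_gen]
      rfl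
    have := congrArg (fun p : K[X] => p.coeff (j : ℕ)) hp
    simpa [coeff_monomial, Fin.val_inj, Finset.sum_ite_eq'] using this
  have hu : LinearIndependent K u := by
    have hs := linearIndependent_smul hpow b.linearIndependent
    refine LinearIndependent.of_comp (riemannRochSpace (k • P + C)).subtype ?_
    convert hs using 1
    ext p
    simp [u, Algebra.smul_def]
  have hcard := hu.fintype_card_le_finrank
  simp only [Fintype.card_prod, Fintype.card_fin] at hcard
  have hcardZ : ((k + 1) * n : ℤ) ≤
      (Module.finrank K (riemannRochSpace (k • P + C)) : ℕ) := by exact_mod_cast hcard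
  rw [map_add, map_nsmul, nsmul_eq_mul] at hle
  have hkP : (k : ℤ) * Divisor.degree P ≤ k * ((n : ℤ) - 1) :=
    mul_le_mul_of_nonneg_left (by omega) (by positivity)
  have hk : (k : ℤ) = Divisor.degree C + v₀.deg + 1 := by simp [k, Int.toNat_of_nonneg hdC]
  rw [mul_sub, mul_one] at hkP
  rw [add_mul, one_mul] at hcardZ
  omega

theorem degree_divisorOf [IsFunctionField1 K F] (f : F) :
    Divisor.degree (divisorOf (K := K) f) = 0 := by
  by_cases hf : IsAlgebraic K f
  · have : divisorOf (K := K) f = 0 := Finsupp.ext fun v => ord_eq_zero_of_isAlgebraic v hf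
    rw [this, map_zero]
  · have hinv : Transcendental K f⁻¹ := fun h => hf (by simpa using h.inv)
    have h : divisorOf (K := K) f = poleDivisor f⁻¹ - poleDivisor f := Finsupp.ext fun v => by
      simp only [Finsupp.sub_apply, poleDivisor_apply, divisorOf_apply, Place.ord_inv]
      omega
    rw [h, map_sub, degree_poleDivisor hinv, degree_poleDivisor hf, adjoin_inv, sub_self]

instance instHasPrincipalDivisors [IsFunctionField1 K F] : HasPrincipalDivisors K F :=
  ⟨fun f _ => ⟨divisorOf f, fun _ => rfl, degree_divisorOf f⟩⟩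

/-- Residue value at a rational place; junk outside the valuation ring. -/
def evalAt (v : Place K F) (f : F) : K :=
  letI := Classical.propDecidable
  if h : ∃ c : K, f - algebraMap K F c = 0 ∨ 0 < v.ord (f - algebraMap K F c) then h.choose else 0

theorem exists_sub_algebraMap_ord_pos [IsFunctionField1 K F] [IsAlgClosed K] (v : Place K F)
    {f : F} (hf : f ∈ v.toValuationSubring) :
    ∃ c : K, f - algebraMap K F c = 0 ∨ 0 < v.ord (f - algebraMap K F c) := by
  haveI := finite_residueField v
  haveI : Algebra.IsIntegral K v.ResidueField := Algebra.IsIntegral.of_finite K v.ResidueField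
  obtain ⟨c, hc⟩ := (IsAlgClosed.algebraMap_bijective_of_isIntegral (k := K)
    (K := v.ResidueField)).2 (IsLocalRing.residue _ (⟨f, hf⟩ : v.toValuationSubring))
  refine ⟨c, ?_⟩
  have h : IsLocalRing.residue _
      ((⟨f, hf⟩ : v.toValuationSubring) - algebraMap K v.toValuationSubring c) = 0 := by
    rw [map_sub, ← hc, sub_eq_zero]
    rfl
  rw [Fermat.Agent.Curve.residue_eq_zero_iff, ordGE_iff] at h
  simpa [Int.lt_iff_add_one_le] using h

theorem evalAt_spec [IsFunctionField1 K F] [IsAlgClosed K] (v : Place K F) {f : F}
    (hf : f ∈ v.toValuationSubring) :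
    f - algebraMap K F (evalAt v f) = 0 ∨ 0 < v.ord (f - algebraMap K F (evalAt v f)) := by
  unfold evalAt
  rw [dif_pos (exists_sub_algebraMap_ord_pos v hf)]
  exact (exists_sub_algebraMap_ord_pos v hf).choose_spec

end Fermat.Agent.Curve

end
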