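import Fermat.Agent.Curve.Duality

/-!
# Invariance of the genus under extension of algebraically closed constants

Owner: helper37.
-/

set_option autoImplicit false
set_option linter.style.haveILetI false
set_option linter.unusedSectionVars false

noncomputable section

open IntermediateField AlgebraicCurve KaehlerDifferential

namespace Fermat.Agent.Curve

variable {K L F F' : Type*} [Field K] [Field L] [Field F] [Field F'] [Algebra K L]
  [Algebra K F] [Algebra L F'] [Algebra K F'] [Algebra F F']
  [IsScalarTower K L F'] [IsScalarTower K F F']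

/-- Membership in `L(l·(x)_∞)` only involves the valuation rings. -/
theorem mem_riemannRochSpace_nsmul_poleDivisor_iff [IsFunctionField1 K F] {x f : F} (hx : x ≠ 0)
    (l : ℕ) :
    f ∈ riemannRochSpace (l • poleDivisor (K := K) x) ↔ ∀ v : Place K F,
      (x ∈ v.toValuationSubring → f ∈ v.toValuationSubring) ∧
      (x⁻¹ ∈ v.toValuationSubring → f * x⁻¹ ^ l ∈ v.toValuationSubring) := by
  rw [mem_riemannRochSpace_iff]
  refine forall_congr' fun v => ?_
  rcases eq_or_ne f 0 with rfl | hf
  · simp
  · rw [or_iff_right hf, mem_iff_ord_nonneg, mem_iff_ord_nonneg, mem_iff_ord_nonneg,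
      mem_iff_ord_nonneg, v.ord_mul hf (pow_ne_zero _ (inv_ne_zero hx)), ord_pow, v.ord_inv,
      Finsupp.smul_apply, poleDivisor_apply, nsmul_eq_mul]
    rcases le_total 0 (v.ord x) with h | h
    · rw [max_eq_right (by omega), mul_zero, neg_zero]
      refine ⟨fun hf' => ⟨fun _ => hf', fun h' => ?_⟩, fun hf' => hf'.1 h⟩
      rw [show v.ord x = 0 by omega]
      simpa using hf'
    · rw [max_eq_left (by omega), mul_neg, neg_neg]
      refine ⟨fun hf' => ⟨fun h' => ?_, fun _ => by omega⟩, fun hf' => ?_⟩
      · rw [show v.ord x = 0 by omega] at hf'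
        simpa using hf'
      · have := hf'.2 (by omega)
        omega

section Basic

variable [IsFunctionField1 K F]
  (hdisj : ∀ (n : ℕ) (f : Fin n → F), LinearIndependent K f →
    LinearIndependent L (fun i => algebraMap F F' (f i)))
  (hgen : IntermediateField.adjoin L (Set.range (algebraMap F F')) = ⊤)

include hdisj in
theorem transcendental_constExt {x : F} (hx : Transcendental K x) :
    Transcendental L (algebraMap F F' x) := by
  rintro ⟨p, hp, hpx⟩
  have hpow : LinearIndependent K fun i : Fin (p.natDegree + 1) => x ^ (i : ℕ) := by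
    have := ((Polynomial.basisMonomials K).linearIndependent.map'
      (Polynomial.aeval x).toLinearMap
      (LinearMap.ker_eq_bot.mpr (transcendental_iff_injective.mp hx))).comp
        (fun i : Fin (p.natDegree + 1) => (i : ℕ)) Fin.val_injective
    simpa [Function.comp_def] using this
  have hli := Fintype.linearIndependent_iff.mp (hdisj _ _ hpow) (fun i => p.coeff i) (by
    rw [Polynomial.aeval_eq_sum_range, ← Fin.sum_univ_eq_sum_range] at hpx
    simpa only [map_pow] using hpx) ⟨p.natDegree, Nat.lt_succ_self _⟩
  exact hp (Polynomial.leadingCoeff_eq_zero.mp hli)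

variable (L F') in
/-- The embedding `K⟮x⟯ → L⟮x'⟯`. -/
def adjoinEmb (x : F) : K⟮x⟯ →+* L⟮algebraMap F F' x⟯ :=
  ((algebraMap F F').comp (algebraMap K⟮x⟯ F)).codRestrict L⟮algebraMap F F' x⟯
    fun z => by
      show algebraMap F F' (z : F) ∈ L⟮algebraMap F F' x⟯
      obtain ⟨z, hz⟩ := z
      induction hz using IntermediateField.adjoin_induction with
      | mem y hy =>
        show algebraMap F F' y ∈ _
        obtain rfl : y = x := hy
        exact mem_adjoin_simple_self L _
      | algebraMap c =>
        show algebraMap F F' (algebraMap K F c) ∈ _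
        rw [← IsScalarTower.algebraMap_apply, IsScalarTower.algebraMap_apply K L F']
        exact IntermediateField.algebraMap_mem _ _
      | add a b _ _ ha hb => simpa using add_mem ha hb
      | inv a _ ha => simpa using inv_mem ha
      | mul a b _ _ ha hb => simpa using mul_mem ha hb

include hgen in
theorem adjoin_range_eq_top (x : F) :
    IntermediateField.adjoin L⟮algebraMap F F' x⟯ (Set.range (algebraMap F F')) = ⊤ := by
  rw [eq_top_iff]
  intro z htop
  clear htop
  set M := IntermediateField.adjoin L⟮algebraMap F F' x⟯ (Set.range (algebraMap F F'))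
  have hz : z ∈ IntermediateField.adjoin L (Set.range (algebraMap F F')) := by
    rw [hgen]; exact IntermediateField.mem_top
  induction hz using IntermediateField.adjoin_induction with
  | mem y hy => exact subset_adjoin _ _ hy
  | algebraMap c =>
    exact M.algebraMap_mem (algebraMap L L⟮algebraMap F F' x⟯ c)
  | add a b _ _ ha hb => exact add_mem ha hb
  | inv a _ ha => exact inv_mem ha
  | mul a b _ _ ha hb => exact mul_mem ha hb

include hgen in
theorem finite_constExt_le {x : F} (hx : Transcendental K x) :
    FiniteDimensional L⟮algebraMap F F' x⟯ F' ∧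
      Module.finrank L⟮algebraMap F F' x⟯ F' ≤ Module.finrank K⟮x⟯ F := by
  classical
  haveI := finiteDimensional_adjoin hx
  set L₁ := L⟮algebraMap F F' x⟯
  let b := Module.finBasis K⟮x⟯ F
  letI : Algebra K⟮x⟯ L₁ := (adjoinEmb L F' x).toAlgebra
  haveI : IsScalarTower K⟮x⟯ L₁ F' := IsScalarTower.of_algebraMap_eq fun _ => rfl
  haveI : Algebra.IsAlgebraic K⟮x⟯ F := Algebra.IsAlgebraic.of_finite _ _
  have halg : ∀ z ∈ Set.range (algebraMap F F'), IsAlgebraic L₁ z := by
    rintro - ⟨z, rfl⟩
    exact ((Algebra.IsAlgebraic.isAlgebraic (R := K⟮x⟯) z).algebraMap (A := F')).tower_top L₁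
  have hclos : (Submonoid.closure (Set.range (algebraMap F F')) : Set F') =
      Set.range (algebraMap F F') := by
    have := congrArg ((↑) : Submonoid F' → Set F')
      (Submonoid.closure_eq (MonoidHom.mrange ((algebraMap F F') : F →* F')))
    simp [MonoidHom.coe_mrange] at this ⊢
  have hspan : Submodule.span L₁ (Set.range fun j => algebraMap F F' (b j)) = ⊤ := by
    rw [eq_top_iff]
    intro z _
    have hz : z ∈ (IntermediateField.adjoin L₁ (Set.range (algebraMap F F'))).toSubalgebra := by
      rw [adjoin_range_eq_top hgen x]; exact IntermediateField.mem_top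
    rw [adjoin_toSubalgebra_of_isAlgebraic halg, ← Subalgebra.mem_toSubmodule,
      Algebra.adjoin_eq_span, hclos] at hz
    refine Submodule.span_le.mpr ?_ hz
    rintro - ⟨y, rfl⟩
    rw [← b.sum_repr y, map_sum]
    refine Submodule.sum_mem _ fun j _ => ?_
    rw [Algebra.smul_def, map_mul, ← IsScalarTower.algebraMap_apply,
      IsScalarTower.algebraMap_apply K⟮x⟯ L₁ F', ← Algebra.smul_def]
    exact Submodule.smul_mem _ _ (Submodule.subset_span ⟨j, rfl⟩)
  haveI hfin : FiniteDimensional L₁ F' := Module.finite_def.mpr
    (hspan ▸ Submodule.fg_span (Set.finite_range _))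
  refine ⟨hfin, ?_⟩
  have := finrank_range_le_card (R := L₁) (fun j => algebraMap F F' (b j))
  rwa [Set.finrank, hspan, finrank_top, Fintype.card_fin] at this

include hdisj hgen in
theorem isFunctionField1_constExt : IsFunctionField1 L F' := by
  obtain ⟨x, hx, -⟩ := IsFunctionField1.exists_transcendental' (K := K) (F := F)
  exact .of_finite_adjoin (transcendental_constExt hdisj hx) (finite_constExt_le hgen hx).1

/-- The contraction of a place of `F'` to `F` contains the valuation ring of a place of `F`. -/
theorem exists_place_le_comap (w : Place L F') :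
    ∃ v : Place K F, v.toValuationSubring ≤ w.toValuationSubring.comap (algebraMap F F') := by
  set A := w.toValuationSubring.comap (algebraMap F F')
  have hK : ∀ a : K, algebraMap K F a ∈ A := fun a => by
    rw [ValuationSubring.mem_comap, ← IsScalarTower.algebraMap_apply,
      IsScalarTower.algebraMap_apply K L F']
    exact w.algebraMap_mem' _
  by_cases hA : A = ⊤
  · obtain ⟨v⟩ := exists_place (K := K) (F := F)
    exact ⟨v, hA ▸ le_top⟩
  · exact ⟨placeOfValuationSubring A hK hA, le_rfl⟩

/-- Functions in `L(l·(x)_∞)` stay so after extending the constants. -/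
theorem algebraMap_mem_riemannRochSpace [IsFunctionField1 L F'] {x f : F} (hx : x ≠ 0) (l : ℕ)
    (hf : f ∈ riemannRochSpace (l • poleDivisor (K := K) x)) :
    algebraMap F F' f ∈ riemannRochSpace (l • poleDivisor (K := L) (algebraMap F F' x)) := by
  rw [mem_riemannRochSpace_nsmul_poleDivisor_iff ((map_ne_zero _).mpr hx)]
  rw [mem_riemannRochSpace_nsmul_poleDivisor_iff hx] at hf
  intro w
  rw [← map_inv₀, ← map_pow, ← map_mul]
  set A := w.toValuationSubring.comap (algebraMap F F') with hAdef
  show (x ∈ A → f ∈ A) ∧ (x⁻¹ ∈ A → f * x⁻¹ ^ l ∈ A)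
  by_cases hA : A = ⊤
  · rw [hA]; exact ⟨fun _ => trivial, fun _ => trivial⟩
  · have hK : ∀ a : K, algebraMap K F a ∈ A := fun a => by
      rw [hAdef, ValuationSubring.mem_comap, ← IsScalarTower.algebraMap_apply,
        IsScalarTower.algebraMap_apply K L F']
      exact w.algebraMap_mem' _
    exact hf (placeOfValuationSubring A hK hA)

variable [IsAlgClosed K] [IsAlgClosed L]

include hdisj hgen in
/-- Degree over a transcendental element is preserved, and the genus does not grow. -/
theorem finrank_eq_and_genusFF_le_constExt [IsFunctionField1 L F'] {x : F}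
    (hx : Transcendental K x) :
    Module.finrank L⟮algebraMap F F' x⟯ F' = Module.finrank K⟮x⟯ F ∧
      genusFF L F' ≤ genusFF K F := by
  have hx' : Transcendental L (algebraMap F F' x) := transcendental_constExt hdisj hx
  have hle := (finite_constExt_le hgen hx).2
  haveI := (finite_constExt_le hgen hx).1
  have hn' : 0 < Module.finrank L⟮algebraMap F F' x⟯ F' := Module.finrank_pos
  set n := Module.finrank K⟮x⟯ F
  set n' := Module.finrank L⟮algebraMap F F' x⟯ F'
  obtain ⟨d, hd⟩ := exists_specialIndex_eq_zero (K := K) (F := F)
  obtain ⟨d', hd'⟩ := exists_specialIndex_eq_zero (K := L) (F := F')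
  set l := d.toNat + d'.toNat + genusFF K F + 1 with hl
  have hdeg : Divisor.degree (l • poleDivisor (K := K) x) = (l : ℤ) * n := by
    rw [map_nsmul, degree_poleDivisor hx, nsmul_eq_mul]
  have hdeg' : Divisor.degree (l • poleDivisor (K := L) (algebraMap F F' x)) = (l : ℤ) * n' := by
    rw [map_nsmul, degree_poleDivisor hx', nsmul_eq_mul]
  have hln' : (l : ℤ) ≤ (l : ℤ) * n' := le_mul_of_one_le_right (by omega) (by exact_mod_cast hn')
  have hln : (l : ℤ) * n' ≤ (l : ℤ) * n :=
    mul_le_mul_of_nonneg_left (by exact_mod_cast hle) (by omega)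
  have hrr := riemann_roch (l • poleDivisor (K := K) x)
  have hrr' := riemann_roch (l • poleDivisor (K := L) (algebraMap F F' x))
  rw [hd _ (by omega), hdeg] at hrr
  rw [hd' _ (by omega), hdeg'] at hrr'
  have hx0 : x ≠ 0 := fun h => hx (h ▸ isAlgebraic_zero)
  have hell : ell (l • poleDivisor (K := K) x) ≤
      ell (l • poleDivisor (K := L) (algebraMap F F' x)) := by
    let b := Module.finBasis K (riemannRochSpace (l • poleDivisor (K := K) x))
    have hli := hdisj _ _ (b.linearIndependent.map' (Submodule.subtype _) (Submodule.ker_subtype _))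
    have hli' := LinearIndependent.of_comp (Submodule.subtype _)
      (v := fun i => (⟨_, algebraMap_mem_riemannRochSpace hx0 l (b i).2⟩ :
        riemannRochSpace (l • poleDivisor (K := L) (algebraMap F F' x)))) hli
    simpa [ell] using hli'.fintype_card_le_finrank
  constructor
  · by_contra hne
    have h1 : (l : ℤ) * n' + l ≤ (l : ℤ) * n := by
      have : (n' : ℤ) + 1 ≤ n := by omega
      have := mul_le_mul_of_nonneg_left this (Int.natCast_nonneg l)
      rwa [mul_add, mul_one] at this
    omega
  · omega

include hgen in
theorem isSeparable_constExt {x : F} [Algebra.IsSeparable K⟮x⟯ F] :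
    Algebra.IsSeparable L⟮algebraMap F F' x⟯ F' := by
  set L₁ := L⟮algebraMap F F' x⟯
  letI : Algebra K⟮x⟯ L₁ := (adjoinEmb L F' x).toAlgebra
  haveI : IsScalarTower K⟮x⟯ L₁ F' := IsScalarTower.of_algebraMap_eq fun _ => rfl
  have h : Algebra.IsSeparable L₁
      (IntermediateField.adjoin L₁ (Set.range (algebraMap F F'))) := by
    rw [isSeparable_adjoin_iff_isSeparable]
    rintro - ⟨z, rfl⟩
    have hsep : IsSeparable K⟮x⟯ (algebraMap F F' z) := by
      show (minpoly K⟮x⟯ (algebraMap F F' z)).Separable
      rw [minpoly.algebraMap_eq (algebraMap F F').injective]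
      exact Algebra.IsSeparable.isSeparable K⟮x⟯ z
    exact hsep.tower_top L₁
  rw [adjoin_range_eq_top hgen x] at h
  exact AlgEquiv.Algebra.isSeparable IntermediateField.topEquiv

include hdisj hgen in
theorem genusFF_le_constExt [IsFunctionField1 L F'] : genusFF K F ≤ genusFF L F' := by
  classical
  obtain ⟨x, hx⟩ := exists_isSeparatingElement_of_isFunctionField1 K F
  haveI := hx.isSeparable
  haveI := isSeparable_constExt (K := K) (L := L) (F' := F') (x := x) hgen
  have hDx' : D L F' (algebraMap F F' x) ≠ 0 :=
    D_ne_zero_of_isSeparable (transcendental_constExt hdisj hx.transcendental)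
  haveI : SMulCommClass L F F' :=
    ⟨fun a b c => by simp only [Algebra.smul_def]; exact mul_left_comm _ _ _⟩
  let φ := KaehlerDifferential.map K L F F'
  have hreg : ∀ ω ∈ regularDifferentials K F, φ ω ∈ regularDifferentials L F' := by
    intro ω hω w
    rw [← ordDifferential_nonneg_iff]
    obtain ⟨v, hv⟩ := exists_place_le_comap (K := K) (F := F) w
    have hωv := ordDifferential_nonneg_iff.mpr (hω v)
    unfold differentials at hωv
    clear hω
    induction hωv using Submodule.span_induction with
    | mem y hy =>
      obtain ⟨a, rfl⟩ := hy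
      simp only [φ, KaehlerDifferential.map_D]
      exact D_mem_differentials (⟨_, hv a.2⟩ : w.toValuationSubring)
    | zero => simp
    | add p q _ _ hp hq => rw [map_add]; exact add_mem hp hq
    | smul c p _ hp =>
      rw [smul_valuationSubring_eq, map_smul, algebra_compatible_smul F' (c : F)]
      exact (differentials w).smul_mem (⟨_, hv c.2⟩ : w.toValuationSubring) hp
  haveI := finite_regularDifferentials (K := K) (F := F)
  haveI := finite_regularDifferentials (K := L) (F := F')
  let b := Module.finBasis K (regularDifferentials K F)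
  choose f hf using fun i => hx.exists_eq_smul_D ((b i : Ω[F⁄K]))
  have hfli : LinearIndependent K f := by
    have h := b.linearIndependent.map' (Submodule.subtype _) (Submodule.ker_subtype _)
    refine LinearIndependent.of_comp
      (((LinearMap.id (R := F) (M := F)).smulRight (D K F x)).restrictScalars K) ?_
    have heq : ((((LinearMap.id (R := F) (M := F)).smulRight (D K F x)).restrictScalars K) ∘ f) =
        ((regularDifferentials K F).subtype ∘ b) := funext fun i => hf i
    rwa [heq]
  have h1 := (hdisj _ f hfli).map'
    (((LinearMap.id (R := F') (M := F')).smulRight (D L F' (algebraMap F F' x))).restrictScalars L)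
    (LinearMap.ker_eq_bot.mpr fun p q hpq => sub_eq_zero.mp
      ((smul_eq_zero.mp (by
        rw [sub_smul]; exact sub_eq_zero.mpr hpq :
          (p - q) • D L F' (algebraMap F F' x) = 0)).resolve_right hDx'))
  have h2 : LinearIndependent L
      (fun i => (⟨_, hreg _ (b i).2⟩ : regularDifferentials L F')) := by
    refine LinearIndependent.of_comp (Submodule.subtype _) ?_
    have heq : (fun i => φ (b i : Ω[F⁄K])) =
        fun i => algebraMap F F' (f i) • D L F' (algebraMap F F' x) := by
      funext i
      rw [← hf i, map_smul, algebra_compatible_smul F' (f i)]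
      simp only [φ, KaehlerDifferential.map_D]
    show LinearIndependent L (fun i => φ (b i : Ω[F⁄K]))
    rw [heq]
    exact h1
  have h3 := h2.fintype_card_le_finrank
  rwa [Fintype.card_fin, finrank_regularDifferentials, finrank_regularDifferentials] at h3

end Basic

variable [IsAlgClosed K] [IsAlgClosed L] [IsFunctionField1 K F]

/-- If `F' = L·F` with `F` and `L` linearly disjoint over `K`, then `F'` is a function field over
`L` of the same genus. -/
theorem genusFF_constExt
    (hdisj : ∀ (n : ℕ) (f : Fin n → F), LinearIndependent K f →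
      LinearIndependent L (fun i => algebraMap F F' (f i)))
    (hgen : IntermediateField.adjoin L (Set.range (algebraMap F F')) = ⊤) :
    IsFunctionField1 L F' ∧ genusFF L F' = genusFF K F := by
  haveI := isFunctionField1_constExt hdisj hgen
  obtain ⟨x, hx, -⟩ := IsFunctionField1.exists_transcendental' (K := K) (F := F)
  exact ⟨‹_›, le_antisymm (finrank_eq_and_genusFF_le_constExt hdisj hgen hx).2
    (genusFF_le_constExt hdisj hgen)⟩

/-- The space of regular differentials keeps its dimension under extension of constants. -/
theorem finrank_regularDifferentials_constExt [IsFunctionField1 L F']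
    (hdisj : ∀ (n : ℕ) (f : Fin n → F), LinearIndependent K f →
      LinearIndependent L (fun i => algebraMap F F' (f i)))
    (hgen : IntermediateField.adjoin L (Set.range (algebraMap F F')) = ⊤) :
    Module.finrank L (regularDifferentials L F') =
      Module.finrank K (regularDifferentials K F) := by
  rw [finrank_regularDifferentials, finrank_regularDifferentials,
    (genusFF_constExt hdisj hgen).2]

end Fermat.Agent.Curve

end
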