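import Fermat.Agent.Curve.Degree

/-!
# The filtration `{f : ord_v f ≥ -m}` at a place and its leading-coefficient maps
-/

set_option autoImplicit false

noncomputable section

open IntermediateField AlgebraicCurve WithZero IsLocalRing

namespace Fermat.Agent.Curve

variable {K F : Type*} [Field K] [Field F] [Algebra K F] (v : Place K F)

theorem mem_iff_adicValuation_le_one {f : F} :
    f ∈ v.toValuationSubring ↔ v.adicValuation f ≤ 1 := by
  rw [v.adicValuation_le_one_iff, mem_iff_ord_nonneg]
  constructor
  · exact Or.inr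
  · rintro (rfl | h)
    · simp
    · exact h

/-- `{f | ord_v f ≥ -m}`. -/
def localSpace (m : ℤ) : Submodule K F where
  carrier := {f | v.adicValuation f ≤ exp m}
  zero_mem' := by simp
  add_mem' := fun {f g} hf hg => by
    show v.adicValuation (f + g) ≤ exp m
    exact (Valuation.map_add _ _ _).trans (max_le hf hg)
  smul_mem' := fun c f hf => by
    show v.adicValuation (c • f) ≤ exp m
    rw [Algebra.smul_def, map_mul]
    exact (mul_le_of_le_one_left' (v.adicValuation_algebraMap_le_one c)).trans hf

theorem mem_localSpace_iff {m : ℤ} {f : F} :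
    f ∈ localSpace v m ↔ v.adicValuation f ≤ exp m := Iff.rfl

theorem mem_localSpace_iff_ord {m : ℤ} {f : F} :
    f ∈ localSpace v m ↔ f = 0 ∨ -m ≤ v.ord f := v.adicValuation_le_exp_iff

theorem localSpace_mono {m m' : ℤ} (h : m ≤ m') : localSpace v m ≤ localSpace v m' :=
  fun _ hf => hf.trans (exp_le_exp.mpr h)

/-- A fixed uniformiser, used to normalise leading coefficients. -/
def unif : F := (exists_uniformizer v).choose

theorem unif_ne_zero : unif v ≠ 0 := (exists_uniformizer v).choose_spec.1

theorem ord_unif : v.ord (unif v) = 1 := (exists_uniformizer v).choose_spec.2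

theorem adicValuation_unif_zpow (m : ℤ) : v.adicValuation (unif v ^ m) = exp (-m) := by
  rw [v.adicValuation_eq_exp_neg_ord (zpow_ne_zero _ (unif_ne_zero v)), v.ord_zpow, ord_unif,
    mul_one]

theorem mul_unif_zpow_mem {m : ℤ} {f : F} (hf : f ∈ localSpace v m) :
    f * unif v ^ m ∈ v.toValuationSubring := by
  rw [mem_iff_adicValuation_le_one, map_mul, adicValuation_unif_zpow]
  calc v.adicValuation f * exp (-m) ≤ exp m * exp (-m) := mul_le_mul_left hf _
    _ = 1 := by rw [← exp_add, add_neg_cancel, exp_zero]

/-- The coefficient of `t ^ (-m)`. -/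
def leadCoeff (m : ℤ) : localSpace v m →ₗ[K] v.ResidueField where
  toFun f := residue _ ⟨(f : F) * unif v ^ m, mul_unif_zpow_mem v f.2⟩
  map_add' f g := by
    rw [← map_add]
    exact congrArg _ (Subtype.ext (by push_cast; ring))
  map_smul' c f := by
    rw [RingHom.id_apply, Algebra.smul_def,
      IsScalarTower.algebraMap_apply K v.toValuationSubring v.ResidueField]
    show _ = residue _ _ * residue _ _
    rw [← map_mul]
    exact congrArg _ (Subtype.ext (by
      push_cast
      rw [v.coe_algebraMap, Algebra.smul_def, mul_assoc]))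

theorem leadCoeff_surjective (m : ℤ) : Function.Surjective (leadCoeff v m) := by
  intro r
  obtain ⟨a, rfl⟩ := IsLocalRing.residue_surjective r
  refine ⟨⟨(a : F) * unif v ^ (-m), ?_⟩, ?_⟩
  · rw [mem_localSpace_iff, map_mul, adicValuation_unif_zpow, neg_neg]
    exact mul_le_of_le_one_left' ((mem_iff_adicValuation_le_one v).mp a.2)
  · show residue _ _ = residue _ a
    refine congrArg _ (Subtype.ext ?_)
    show (a : F) * unif v ^ (-m) * unif v ^ m = a
    rw [mul_assoc, ← zpow_add₀ (unif_ne_zero v), neg_add_cancel, zpow_zero, mul_one]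

theorem leadCoeff_eq_zero_iff {m : ℤ} (f : localSpace v m) :
    leadCoeff v m f = 0 ↔ (f : F) ∈ localSpace v (m - 1) := by
  show residue _ _ = 0 ↔ _
  rw [IsLocalRing.residue_eq_zero_iff, IsLocalRing.mem_maximalIdeal, mem_nonunits_iff,
    ← v.adicValuation_coe_eq_one_iff, mem_localSpace_iff]
  show ¬ v.adicValuation ((f : F) * unif v ^ m) = 1 ↔ _
  rcases eq_or_ne (f : F) 0 with h | h
  · simp [h]
  · have hf : f.1 ∈ localSpace v m := f.2
    rw [mem_localSpace_iff, v.adicValuation_eq_exp_neg_ord h, exp_le_exp] at hf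
    rw [map_mul, adicValuation_unif_zpow, v.adicValuation_eq_exp_neg_ord h, ← exp_add,
      ← exp_zero, exp_inj, exp_le_exp]
    omega

end Fermat.Agent.Curve

end
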