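import Fermat.Agent.Curve.Degree
import Fermat.Agent.Curve.Filtration
import Mathlib.LinearAlgebra.Dimension.RankNullity
import Mathlib.Algebra.Polynomial.Basis

/-!
# Riemann–Roch spaces, `H1`, Riemann's theorem

Riemann–Roch in repartition form for an arbitrary function field of one variable.
-/

set_option autoImplicit false
set_option linter.style.haveILetI false
set_option linter.unusedSectionVars false

noncomputable section

open IntermediateField AlgebraicCurve WithZero

namespace Fermat.Agent.Curve

variable {K F : Type*} [Field K] [Field F] [Algebra K F]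

/-- `ℓ(D)`. -/
def ell (D : Divisor K F) : ℕ := Module.finrank K (riemannRochSpace D)

/-- `i(D) = dim H¹(D)`. -/
def specialIndex (D : Divisor K F) : ℕ := Module.finrank K (H1 D)

theorem specialIndex_zero : specialIndex (0 : Divisor K F) = genusFF K F := rfl

theorem mem_repartitions_iff [IsFunctionField1 K F] {α : Place K F → F} :
    α ∈ repartitions K F ↔ {v : Place K F | v.ord (α v) < 0}.Finite := by
  refine ⟨fun h => ?_, mem_repartitions_of_finite_ord⟩
  unfold repartitions at h
  induction h using Algebra.adjoin_induction with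
  | mem β hβ =>
    refine hβ.subset fun v hv => ?_
    exact v.not_adicValuation_le_one_iff.mpr hv
  | algebraMap c =>
    exact (finite_ord_ne_zero c).subset fun v hv => ne_of_lt (show v.ord c < 0 from hv)
  | add β γ _ _ hβ hγ =>
    refine (hβ.union hγ).subset fun v hv => ?_
    by_contra hcon
    simp only [Set.mem_union, Set.mem_ofPred_eq, not_or, not_lt] at hcon hv
    have h' := add_mem ((mem_iff_ord_nonneg v).mpr hcon.1) ((mem_iff_ord_nonneg v).mpr hcon.2)
    exact absurd ((mem_iff_ord_nonneg v).mp h') (not_le.mpr hv)
  | mul β γ _ _ hβ hγ =>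
    refine (hβ.union hγ).subset fun v hv => ?_
    by_contra hcon
    simp only [Set.mem_union, Set.mem_ofPred_eq, not_or, not_lt] at hcon hv
    have h' := mul_mem ((mem_iff_ord_nonneg v).mpr hcon.1) ((mem_iff_ord_nonneg v).mpr hcon.2)
    exact absurd ((mem_iff_ord_nonneg v).mp h') (not_le.mpr hv)

theorem mem_riemannRochSpace_iff_localSpace {D : Divisor K F} {f : F} :
    f ∈ riemannRochSpace D ↔ ∀ v, f ∈ localSpace v (D v) := Iff.rfl

theorem riemannRochSpace_mono {D D' : Divisor K F} (h : D ≤ D') :
    riemannRochSpace D ≤ riemannRochSpace D' :=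
  fun _ hf v => localSpace_mono v (Finsupp.le_def.mp h v) (hf v)

/-! ### Induction along divisors -/

theorem le_add_single_one (D : Divisor K F) (v : Place K F) : D ≤ D + Finsupp.single v 1 := by
  classical
  intro w
  rw [Finsupp.add_apply, Finsupp.single_apply]
  split <;> omega

/-- Induction upwards along `D₀ ≤ D`, one place at a time. -/
theorem divisor_induction_up {P : Divisor K F → Prop} {D₀ D : Divisor K F} (h : D₀ ≤ D)
    (h0 : P D₀) (step : ∀ E v, D₀ ≤ E → P E → P (E + Finsupp.single v 1)) : P D := by
  have key : ∀ n : Place K F →₀ ℕ,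
      D₀ ≤ D₀ + n.mapRange (fun k : ℕ => (k : ℤ)) Nat.cast_zero ∧
        P (D₀ + n.mapRange (fun k : ℕ => (k : ℤ)) Nat.cast_zero) := by
    intro n
    induction n using Finsupp.induction with
    | zero => simpa using h0
    | single_add v k n _ _ ih =>
      suffices ∀ j : ℕ, D₀ ≤ D₀ + n.mapRange (fun k : ℕ => (k : ℤ)) Nat.cast_zero
            + Finsupp.single v (j : ℤ) ∧
          P (D₀ + n.mapRange (fun k : ℕ => (k : ℤ)) Nat.cast_zero + Finsupp.single v (j : ℤ)) by
        rw [Finsupp.mapRange_add (by intros; push_cast; ring), Finsupp.mapRange_single,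
          add_comm (Finsupp.single v _), ← add_assoc]
        exact this k
      intro j
      induction j with
      | zero => simpa using ih
      | succ j ihj =>
        rw [Nat.cast_succ, Finsupp.single_add, ← add_assoc]
        exact ⟨ihj.1.trans (le_add_single_one _ v), step _ v ihj.1 ihj.2⟩
  have hD : D = D₀ + ((D - D₀).mapRange Int.toNat Int.toNat_zero).mapRange
      (fun k : ℕ => (k : ℤ)) Nat.cast_zero := by
    ext w
    have := Finsupp.le_def.mp h w
    simp only [Finsupp.add_apply, Finsupp.mapRange_apply, Finsupp.sub_apply]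
    omega
  rw [hD]
  exact (key _).2

/-- Induction downwards along `D₀ ≤ D`. -/
theorem divisor_induction_down {P : Divisor K F → Prop} {D₀ D : Divisor K F} (h : D₀ ≤ D)
    (h0 : P D) (step : ∀ E v, P (E + Finsupp.single v 1) → P E) : P D₀ := by
  have : P D → P D₀ :=
    divisor_induction_up (P := fun E => P E → P D₀) h id fun E v _ hE hE' => hE (step E v hE')
  exact this h0

/-- The pointwise maximum of two divisors. -/
def divisorMax (D E : Divisor K F) : Divisor K F := Finsupp.zipWith max (max_self 0) D E

@[simp]
theorem divisorMax_apply (D E : Divisor K F) (v : Place K F) :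
    divisorMax D E v = max (D v) (E v) := Finsupp.zipWith_apply ..

theorem le_divisorMax_left (D E : Divisor K F) : D ≤ divisorMax D E := fun v => by simp

theorem le_divisorMax_right (D E : Divisor K F) : E ≤ divisorMax D E := fun v => by simp

/-! ### The step `D ⟶ D + v` -/

section Step

variable (D : Divisor K F) (v : Place K F)

/-- Coefficient of `t ^ (-(D v + 1))` on `L(D + v)`. -/
def stepMap : riemannRochSpace (D + Finsupp.single v 1) →ₗ[K] v.ResidueField :=
  leadCoeff v (D v + 1) ∘ₗ
    (riemannRochSpace (D + Finsupp.single v 1)).subtype.codRestrict (localSpace v (D v + 1))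
      fun f => by simpa [mem_localSpace_iff] using f.2 v

theorem ker_stepMap :
    LinearMap.ker (stepMap D v) = (riemannRochSpace D).comap (Submodule.subtype _) := by
  ext f
  rw [LinearMap.mem_ker, Submodule.mem_comap, Submodule.coe_subtype, stepMap, LinearMap.comp_apply,
    leadCoeff_eq_zero_iff]
  show (f : F) ∈ localSpace v (D v + 1 - 1) ↔ _
  rw [add_sub_cancel_right, mem_riemannRochSpace_iff_localSpace]
  refine ⟨fun h w => ?_, fun h => h v⟩
  rcases eq_or_ne w v with rfl | hw
  · exact h
  · simpa [mem_localSpace_iff, Finsupp.single_eq_of_ne hw] using f.2 w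

/-- Coefficient of `t ^ (-(D v + 1))` on `A(D + v)`. -/
def repStep : repartitionsOf (D + Finsupp.single v 1) →ₗ[K] v.ResidueField :=
  leadCoeff v (D v + 1) ∘ₗ
    { toFun := fun α => ⟨((α : repartitions K F) : Place K F → F) v, by
        simpa [mem_localSpace_iff] using α.2 v⟩
      map_add' := fun _ _ => rfl
      map_smul' := fun _ _ => rfl }

theorem ker_repStep_le {α : repartitionsOf (D + Finsupp.single v 1)} (h : repStep D v α = 0) :
    (α : repartitions K F) ∈ repartitionsOf D := by
  rw [repStep, LinearMap.comp_apply, leadCoeff_eq_zero_iff] at h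
  intro w
  rcases eq_or_ne w v with rfl | hw
  · simpa [mem_localSpace_iff] using h
  · simpa [Finsupp.single_eq_of_ne hw] using α.2 w

theorem repStep_surjective : Function.Surjective (repStep D v) := by
  classical
  intro r
  obtain ⟨⟨f, hf⟩, rfl⟩ := leadCoeff_surjective v (D v + 1) r
  have hmem : ∀ w, w.adicValuation (Pi.single (M := fun _ => F) v f w) ≤
      exp ((D + Finsupp.single v 1 : Divisor K F) w) := by
    intro w
    rcases eq_or_ne w v with rfl | hw
    · simpa [mem_localSpace_iff] using hf
    · simp [hw]
  refine ⟨⟨⟨_, mem_repartitions_of_forall_le_exp _ _ hmem⟩, hmem⟩, ?_⟩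
  exact congrArg (leadCoeff v (D v + 1)) (Subtype.ext (by simp))

theorem sup_principal_mono :
    repartitionsOf D ⊔ principalRepartitions K F ≤
      repartitionsOf (D + Finsupp.single v 1) ⊔ principalRepartitions K F :=
  sup_le_sup_right (repartitionsOf_mono (le_add_single_one D v)) _

/-- `H¹(D) → H¹(D + v)`. -/
def h1Step : H1 D →ₗ[K] H1 (D + Finsupp.single v 1) :=
  Submodule.factor (sup_principal_mono D v)

theorem h1Step_surjective : Function.Surjective (h1Step D v) :=
  Submodule.factor_surjective (sup_principal_mono D v)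

/-- The constant repartition. -/
def constRep (f : F) : repartitions K F := algebraMap F _ f

theorem constRep_apply (f : F) (w : Place K F) :
    ((constRep f : repartitions K F) : Place K F → F) w = f := rfl

theorem constRep_mem_principal (f : F) : constRep f ∈ principalRepartitions K F :=
  mem_principalRepartitions_iff.mpr ⟨f, rfl⟩

theorem exists_ker_h1Step_map [hfin : Module.Finite K v.ResidueField] :
    Module.Finite K (LinearMap.ker (h1Step D v)) ∧
      Module.finrank K (LinearMap.ker (h1Step D v)) +
        Module.finrank K (LinearMap.range (stepMap D v)) = v.deg := by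
  obtain ⟨s, hs⟩ := (repStep D v).exists_rightInverse_of_surjective
    (LinearMap.range_eq_top.mpr (repStep_surjective D v))
  let q : repartitionsOf (D + Finsupp.single v 1) →ₗ[K] H1 D :=
    (repartitionsOf D ⊔ principalRepartitions K F).mkQ ∘ₗ Submodule.subtype _
  let g : v.ResidueField →ₗ[K] H1 D := q ∘ₗ s
  have hs' : ∀ r, repStep D v (s r) = r := fun r => LinearMap.congr_fun hs r
  have hq : ∀ α, q α = g (repStep D v α) := by
    intro α
    rw [← sub_eq_zero]
    show (Submodule.Quotient.mk (α : repartitions K F) : H1 D) -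
      Submodule.Quotient.mk ((s (repStep D v α) : repartitions K F)) = 0
    rw [← Submodule.Quotient.mk_sub, ← Submodule.coe_sub]
    refine (Submodule.Quotient.mk_eq_zero _).mpr (Submodule.mem_sup_left ?_)
    apply ker_repStep_le
    exact ((repStep D v).toAddMonoidHom.map_sub α _).trans (sub_eq_zero.mpr (hs' _).symm)
  have hrange : LinearMap.range g = LinearMap.ker (h1Step D v) := by
    ext c
    obtain ⟨β, rfl⟩ := Submodule.Quotient.mk_surjective _ c
    rw [LinearMap.mem_ker, h1Step]
    show _ ↔ (Submodule.Quotient.mk β : H1 (D + Finsupp.single v 1)) = 0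
    rw [Submodule.Quotient.mk_eq_zero]
    constructor
    · rintro ⟨r, hr⟩
      have hdiff := (Submodule.Quotient.eq _).mp hr
      have h1 := Submodule.mem_sup_left (T := principalRepartitions K F) (s r).2
      simpa using Submodule.sub_mem _ h1 (sup_principal_mono D v hdiff)
    · intro hβ
      obtain ⟨a, ha, b, hb, rfl⟩ := Submodule.mem_sup.mp hβ
      refine ⟨repStep D v ⟨a, ha⟩, ?_⟩
      rw [← hq]
      refine ((Submodule.Quotient.eq _).mpr ?_)
      show a - (a + b) ∈ _
      rw [sub_add_cancel_left]
      exact Submodule.mem_sup_right (Submodule.neg_mem _ hb)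
  have hker : LinearMap.ker g = LinearMap.range (stepMap D v) := by
    ext r
    constructor
    · intro hr
      obtain ⟨α, rfl⟩ := repStep_surjective D v r
      rw [LinearMap.mem_ker, ← hq] at hr
      obtain ⟨a, ha, b, hb, hab⟩ := Submodule.mem_sup.mp ((Submodule.Quotient.mk_eq_zero _).mp hr)
      obtain ⟨f, hf⟩ := mem_principalRepartitions_iff.mp hb
      have hf' : f ∈ riemannRochSpace (D + Finsupp.single v 1) := by
        intro w
        have h1 := Submodule.sub_mem _ α.2 (repartitionsOf_mono (le_add_single_one D v) ha)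
        have h2 : (α : repartitions K F) - a = b := sub_eq_of_eq_add' hab.symm
        rw [h2] at h1
        simpa [hf] using h1 w
      refine ⟨⟨f, hf'⟩, ?_⟩
      show leadCoeff v _ _ = leadCoeff v _ _
      rw [← sub_eq_zero, ← map_sub, leadCoeff_eq_zero_iff, add_sub_cancel_right]
      have hα : ((α : repartitions K F) : Place K F → F) v = (a : Place K F → F) v + f := by
        have := congrArg (fun z : repartitions K F => (z : Place K F → F) v) hab.symm
        simpa [hf] using this
      show f - ((α : repartitions K F) : Place K F → F) v ∈ localSpace v (D v)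
      rw [hα, sub_add_cancel_right]
      exact Submodule.neg_mem _ (ha v)
    · rintro ⟨f, rfl⟩
      have hmem : constRep (f : F) ∈ repartitionsOf (D + Finsupp.single v 1) := fun w => f.2 w
      have h2 := hq ⟨constRep (f : F), hmem⟩
      have h3 : q ⟨constRep (f : F), hmem⟩ = 0 :=
        (Submodule.Quotient.mk_eq_zero _).mpr
          (Submodule.mem_sup_right (constRep_mem_principal _))
      exact h2.symm.trans h3
  refine ⟨hrange ▸ inferInstance, ?_⟩
  rw [← hrange, ← hker]
  exact g.finrank_range_add_finrank_ker

theorem finite_riemannRochSpace_step [Module.Finite K v.ResidueField]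
    [Module.Finite K (riemannRochSpace D)] :
    Module.Finite K (riemannRochSpace (D + Finsupp.single v 1)) := by
  have : Module.Finite K (LinearMap.ker (stepMap D v)) := by
    rw [ker_stepMap]
    exact Module.Finite.equiv
      (Submodule.comapSubtypeEquivOfLe (riemannRochSpace_mono (le_add_single_one D v))).symm
  have : Module.Finite K
      (riemannRochSpace (D + Finsupp.single v 1) ⧸ LinearMap.ker (stepMap D v)) :=
    Module.Finite.equiv (stepMap D v).quotKerEquivRange.symm
  exact Module.Finite.of_submodule_quotient (LinearMap.ker (stepMap D v))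

theorem ell_step [Module.Finite K v.ResidueField] [Module.Finite K (riemannRochSpace D)] :
    ell (D + Finsupp.single v 1) + Module.finrank K (LinearMap.ker (h1Step D v))
      = ell D + v.deg := by
  have := finite_riemannRochSpace_step D v
  have h1 := (stepMap D v).finrank_range_add_finrank_ker
  rw [ker_stepMap, (Submodule.comapSubtypeEquivOfLe
      (riemannRochSpace_mono (le_add_single_one D v))).finrank_eq] at h1
  have h2 := (exists_ker_h1Step_map D v).2
  unfold ell
  omega

theorem finite_H1_step [Module.Finite K v.ResidueField]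
    [Module.Finite K (H1 (D + Finsupp.single v 1))] : Module.Finite K (H1 D) := by
  have := (exists_ker_h1Step_map D v).1
  have : Module.Finite K (H1 D ⧸ LinearMap.ker (h1Step D v)) :=
    Module.Finite.equiv ((h1Step D v).quotKerEquivOfSurjective (h1Step_surjective D v)).symm
  exact Module.Finite.of_submodule_quotient (LinearMap.ker (h1Step D v))

theorem specialIndex_step [Module.Finite K (H1 D)] :
    specialIndex D =
      specialIndex (D + Finsupp.single v 1) + Module.finrank K (LinearMap.ker (h1Step D v)) := by
  have h := (h1Step D v).finrank_range_add_finrank_ker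
  rw [LinearMap.range_eq_top.mpr (h1Step_surjective D v), finrank_top] at h
  unfold specialIndex
  omega

theorem sup_principal_eq_of_finrank_eq_zero [Module.Finite K v.ResidueField]
    (h : Module.finrank K (LinearMap.ker (h1Step D v)) = 0) :
    repartitionsOf (D + Finsupp.single v 1) ⊔ principalRepartitions K F =
      repartitionsOf D ⊔ principalRepartitions K F := by
  have := (exists_ker_h1Step_map D v).1
  refine le_antisymm (fun β hβ => ?_) (sup_principal_mono D v)
  rw [← Submodule.Quotient.mk_eq_zero]
  have hbot : LinearMap.ker (h1Step D v) = ⊥ := Submodule.finrank_eq_zero.mp h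
  have hmem : (Submodule.Quotient.mk β : H1 D) ∈ LinearMap.ker (h1Step D v) :=
    (Submodule.Quotient.mk_eq_zero _).mpr hβ
  rwa [hbot, Submodule.mem_bot] at hmem

end Step

/-! ### Finiteness and Riemann's theorem -/

variable [IsFunctionField1 K F]

theorem eq_zero_of_forall_ord_nonneg_of_pos {f : F} (h : ∀ v : Place K F, 0 ≤ v.ord f)
    {P : Place K F} (hP : f = 0 ∨ 0 < P.ord f) : f = 0 :=
  hP.resolve_right fun hpos =>
    (ne_of_gt hpos) (ord_eq_zero_of_isAlgebraic P (isAlgebraic_of_forall_ord_nonneg h))

theorem ord_nonneg_of_mem_zero {f : F} (hf : f ∈ riemannRochSpace (0 : Divisor K F))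
    (v : Place K F) : 0 ≤ v.ord f := by
  rcases mem_riemannRochSpace_iff.mp hf v with rfl | h
  · simp
  · simpa using h

theorem exists_place : Nonempty (Place K F) := by
  obtain ⟨x, hx, -⟩ := IsFunctionField1.exists_transcendental' (K := K) (F := F)
  exact ⟨(exists_place_ord_pos hx).choose⟩

/-- `L(0)` embeds in every residue field. -/
theorem exists_injective_zero_residue (P : Place K F) :
    ∃ g : riemannRochSpace (0 : Divisor K F) →ₗ[K] P.ResidueField, Function.Injective g := by
  refine ⟨leadCoeff P 0 ∘ₗ (riemannRochSpace (0 : Divisor K F)).subtype.codRestrict (localSpace P 0)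
    fun f => f.2 P, LinearMap.ker_eq_bot.mp (LinearMap.ker_eq_bot'.mpr fun f hf => ?_)⟩
  rw [LinearMap.comp_apply, leadCoeff_eq_zero_iff, mem_localSpace_iff_ord] at hf
  change (f : F) = 0 ∨ -(0 - 1) ≤ P.ord (f : F) at hf
  exact Subtype.ext (eq_zero_of_forall_ord_nonneg_of_pos (ord_nonneg_of_mem_zero f.2) (P := P)
    (hf.imp id fun h => by omega))

instance finite_riemannRochSpace (D : Divisor K F) : Module.Finite K (riemannRochSpace D) := by
  obtain ⟨P⟩ := exists_place (K := K) (F := F)
  have h0 : Module.Finite K (riemannRochSpace (0 : Divisor K F)) := by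
    obtain ⟨g, hg⟩ := exists_injective_zero_residue P
    haveI := finite_residueField P
    exact Module.Finite.of_injective g hg
  have hmax : Module.Finite K (riemannRochSpace (divisorMax D 0)) :=
    divisor_induction_up (P := fun E => Module.Finite K (riemannRochSpace E))
      (le_divisorMax_right D 0) h0 fun E v _ hE => by
        haveI := finite_residueField v
        haveI := hE
        exact finite_riemannRochSpace_step E v
  exact Module.Finite.of_injective
    (Submodule.inclusion (riemannRochSpace_mono (le_divisorMax_left D 0)))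
    (Submodule.inclusion_injective _)

theorem degree_nonneg_of_le {D : Divisor K F} (h : 0 ≤ D) : 0 ≤ Divisor.degree D :=
  divisor_induction_up (P := fun E => 0 ≤ Divisor.degree E) h (by simp) fun E v _ hE => by
    rw [map_add, Divisor.degree_single]
    omega

theorem effective_of_mem {D : Divisor K F} {f : F} (hf : f ≠ 0) (h : f ∈ riemannRochSpace D) :
    0 ≤ D + divisorOf f := fun v => by
  have := (mem_riemannRochSpace_iff.mp h v).resolve_left hf
  simp only [Finsupp.coe_zero, Pi.zero_apply, Finsupp.add_apply, divisorOf_apply]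
  omega

theorem exists_ne_zero_of_ell_pos {D : Divisor K F} (h : 0 < ell D) :
    ∃ f : F, f ≠ 0 ∧ f ∈ riemannRochSpace D := by
  haveI : Nontrivial (riemannRochSpace D) := Module.nontrivial_of_finrank_pos h
  obtain ⟨⟨f, hf⟩, hne⟩ := exists_ne (0 : riemannRochSpace D)
  exact ⟨f, fun h0 => hne (Subtype.ext h0), hf⟩

theorem ell_eq_zero_of_degree_neg {D : Divisor K F} (h : Divisor.degree D < 0) : ell D = 0 := by
  by_contra hne
  obtain ⟨f, hf, hmem⟩ := exists_ne_zero_of_ell_pos (Nat.pos_of_ne_zero hne)
  have := degree_nonneg_of_le (effective_of_mem hf hmem)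
  rw [map_add, degree_divisorOf, add_zero] at this
  omega

theorem ell_add_divisorOf (D : Divisor K F) {f : F} (hf : f ≠ 0) :
    ell (D + divisorOf f) = ell D := by
  have key : ∀ g : F, g * f ∈ riemannRochSpace D ↔ g ∈ riemannRochSpace (D + divisorOf f) := by
    intro g
    rw [mem_riemannRochSpace_iff, mem_riemannRochSpace_iff]
    refine forall_congr' fun v => ?_
    rcases eq_or_ne g 0 with rfl | hg
    · simp
    · rw [v.ord_mul hg hf, Finsupp.add_apply, divisorOf_apply]
      simp only [mul_eq_zero, hg, hf, false_or]
      omega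
  let e : riemannRochSpace (D + divisorOf f) →ₗ[K] riemannRochSpace D :=
    (LinearMap.mulRight K f ∘ₗ Submodule.subtype _).codRestrict _ fun g => (key g).mpr g.2
  refine LinearEquiv.finrank_eq (LinearEquiv.ofBijective e ⟨fun g g' h => ?_, fun g => ?_⟩)
  · exact Subtype.ext (mul_right_cancel₀ hf (congrArg Subtype.val h))
  · refine ⟨⟨g * f⁻¹, (key _).mp (by rw [mul_assoc, inv_mul_cancel₀ hf, mul_one]; exact g.2)⟩, ?_⟩
    exact Subtype.ext (show (g : F) * f⁻¹ * f = g by rw [mul_assoc, inv_mul_cancel₀ hf, mul_one])

theorem degree_sub_ell_mono {D E : Divisor K F} (h : D ≤ E) :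
    Divisor.degree D - ell D ≤ Divisor.degree E - ell E :=
  divisor_induction_up
    (P := fun G => Divisor.degree D - ell D ≤ Divisor.degree G - ell G) h le_rfl
    fun G v _ hG => by
      haveI := finite_residueField v
      have hs := ell_step G v
      rw [map_add, Divisor.degree_single]
      omega

/-- `ℓ(l·(x)_∞ + C) ≥ n (l + 1)`. -/
theorem exists_growth {x : F} (hx : Transcendental K x) :
    ∃ C : Divisor K F, 0 ≤ C ∧
      ∀ l : ℕ, Module.finrank K⟮x⟯ F * (l + 1) ≤ ell (l • poleDivisor x + C) := by
  haveI := finiteDimensional_adjoin hx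
  let b := Module.finBasis K⟮x⟯ F
  refine ⟨∑ j, poleDivisor (b j), Finset.sum_nonneg fun j _ => poleDivisor_nonneg _, fun l => ?_⟩
  set g := IntermediateField.AdjoinSimple.gen K x with hgdef
  have hpow : LinearIndependent K fun i : ℕ => g ^ i := by
    have := (Polynomial.basisMonomials K).linearIndependent.map'
      (Polynomial.aeval g).toLinearMap
      (LinearMap.ker_eq_bot.mpr (transcendental_iff_injective.mp (transcendental_gen hx)))
    simpa [Function.comp_def] using this
  have hli := linearIndependent_smul
    (hpow.comp (fun i : Fin (l + 1) => (i : ℕ)) Fin.val_injective) b.linearIndependent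
  have hmem : ∀ p : Fin (l + 1) × Fin (Module.finrank K⟮x⟯ F),
      (g ^ (p.1 : ℕ)) • b p.2 ∈ riemannRochSpace (l • poleDivisor (K := K) x + ∑ j, poleDivisor (b j)) := by
    intro p
    rw [mem_riemannRochSpace_iff]
    intro v
    right
    have hb : b p.2 ≠ 0 := b.ne_zero _
    have hx0 : x ≠ 0 := fun h => hx (h ▸ isAlgebraic_zero)
    have hC : poleDivisor (b p.2) v ≤ (∑ j, poleDivisor (K := K) (b j)) v := by
      rw [Finsupp.finset_sum_apply]
      exact Finset.single_le_sum (f := fun j => poleDivisor (K := K) (b j) v)
        (fun j _ => poleDivisor_nonneg (b j) v) (Finset.mem_univ _)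
    rw [poleDivisor_apply] at hC
    have hcoe : (g ^ (p.1 : ℕ)) • b p.2 = x ^ (p.1 : ℕ) * b p.2 := by
      rw [Algebra.smul_def, map_pow]
      rfl
    rw [hcoe, v.ord_mul (pow_ne_zero _ hx0) hb, ord_pow, Finsupp.add_apply, Finsupp.smul_apply,
      poleDivisor_apply, nsmul_eq_mul]
    have hi : ((p.1 : ℕ) : ℤ) ≤ (l : ℤ) := by exact_mod_cast Nat.lt_succ_iff.mp p.1.2
    have h1 : ((p.1 : ℕ) : ℤ) * max (-v.ord x) 0 ≤ (l : ℤ) * max (-v.ord x) 0 :=
      mul_le_mul_of_nonneg_right hi (le_max_right _ _)
    have h2 : -(((p.1 : ℕ) : ℤ) * v.ord x) ≤ ((p.1 : ℕ) : ℤ) * max (-v.ord x) 0 := by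
      rw [← mul_neg]
      exact mul_le_mul_of_nonneg_left (le_max_left _ _) (Int.natCast_nonneg _)
    omega
  have hli' := LinearIndependent.of_comp (Submodule.subtype _)
    (v := fun p => (⟨_, hmem p⟩ : riemannRochSpace (l • poleDivisor (K := K) x + ∑ j, poleDivisor (b j))))
    hli
  have := hli'.fintype_card_le_finrank
  rw [Fintype.card_prod, Fintype.card_fin, Fintype.card_fin, mul_comm] at this
  exact this

theorem exists_bound_degree_sub_ell :
    ∃ M : ℤ, ∀ D : Divisor K F, Divisor.degree D - ell D ≤ M := by
  obtain ⟨x, hx, hfin⟩ := IsFunctionField1.exists_transcendental' (K := K) (F := F)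
  obtain ⟨C, hC, hgrow⟩ := exists_growth hx
  set n := Module.finrank K⟮x⟯ F
  have hn : 0 < n := Module.finrank_pos
  refine ⟨Divisor.degree C - n, fun D => ?_⟩
  set D' := divisorMax D 0
  have hmono : Divisor.degree D - ell D ≤ Divisor.degree D' - ell D' :=
    degree_sub_ell_mono (le_divisorMax_left D 0)
  have hD' : 0 ≤ Divisor.degree D' := degree_nonneg_of_le (le_divisorMax_right D 0)
  set l := (Divisor.degree D').toNat
  set E := l • poleDivisor x + C with hEdef
  have hEdeg : Divisor.degree E = l * n + Divisor.degree C := by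
    rw [hEdef, map_add, map_nsmul, degree_poleDivisor hx, nsmul_eq_mul]
  have hEell : (n : ℤ) * (l + 1) ≤ ell E := by exact_mod_cast hgrow l
  have hstep : (ell E : ℤ) ≤ ell (E - D') + Divisor.degree D' := by
    have h := degree_sub_ell_mono (show E - D' ≤ E from
      sub_le_self E (le_divisorMax_right D 0))
    rw [map_sub] at h
    omega
  have hlt : Divisor.degree D' < n * (l + 1) := by
    have : (l : ℤ) + 1 ≤ n * (l + 1) := le_mul_of_one_le_left (by omega) (by exact_mod_cast hn)
    omega
  obtain ⟨f, hf, hfmem⟩ := exists_ne_zero_of_ell_pos (D := E - D') (by omega)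
  have hle : D' ≤ E + divisorOf f := fun v => by
    have := effective_of_mem hf hfmem v
    simp only [Finsupp.coe_zero, Pi.zero_apply, Finsupp.add_apply, Finsupp.sub_apply] at this ⊢
    omega
  have h2 := degree_sub_ell_mono hle
  rw [map_add, degree_divisorOf, add_zero, ell_add_divisorOf E hf] at h2
  rw [mul_add, mul_comm (n : ℤ) (l : ℤ)] at hEell
  omega

/-- Strong approximation in Riemann's form: `A = A(D₀) + F` for some `D₀`. -/
theorem exists_sup_principal_eq_top :
    ∃ D₀ : Divisor K F, repartitionsOf D₀ ⊔ principalRepartitions K F = ⊤ := by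
  obtain ⟨M, hM⟩ := exists_bound_degree_sub_ell (K := K) (F := F)
  obtain ⟨δ, ⟨D₀, hD₀⟩, hmax⟩ := Int.exists_greatest_of_bdd
    (P := fun z => ∃ D : Divisor K F, Divisor.degree D - ell D = z)
    ⟨M, by rintro z ⟨D, rfl⟩; exact hM D⟩ ⟨_, 0, rfl⟩
  refine ⟨D₀, eq_top_iff.mpr fun α _ => ?_⟩
  have hfin : {v : Place K F | v.ord ((α : Place K F → F) v) < 0}.Finite :=
    mem_repartitions_iff.mp α.2
  let P : Divisor K F := Finsupp.onFinset hfin.toFinset
    (fun v => max (-v.ord ((α : Place K F → F) v)) 0) fun v h => by
      simp only [Set.Finite.mem_toFinset, Set.mem_ofPred_eq]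
      omega
  have hmemP : α ∈ repartitionsOf (divisorMax D₀ P) := by
    rw [mem_repartitionsOf_iff]
    intro v
    right
    simp only [divisorMax_apply, P, Finsupp.onFinset_apply]
    omega
  have heq : repartitionsOf (divisorMax D₀ P) ⊔ principalRepartitions K F =
      repartitionsOf D₀ ⊔ principalRepartitions K F :=
    divisor_induction_up
      (P := fun G => repartitionsOf G ⊔ principalRepartitions K F =
        repartitionsOf D₀ ⊔ principalRepartitions K F)
      (le_divisorMax_left D₀ P) rfl fun G v hle hG => by
        haveI := finite_residueField v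
        rw [sup_principal_eq_of_finrank_eq_zero G v ?_, hG]
        have hs := ell_step G v
        have h1 := hmax _ ⟨G + Finsupp.single v 1, rfl⟩
        rw [map_add, Divisor.degree_single] at h1
        have h2 := degree_sub_ell_mono hle
        omega
  rw [← heq]
  exact Submodule.mem_sup_left hmemP

instance finite_H1 (D : Divisor K F) : Module.Finite K (H1 D) := by
  obtain ⟨D₀, hD₀⟩ := exists_sup_principal_eq_top (K := K) (F := F)
  have htop : repartitionsOf (divisorMax D D₀) ⊔ principalRepartitions K F = ⊤ :=
    eq_top_iff.mpr (hD₀ ▸ sup_le_sup_right (repartitionsOf_mono (le_divisorMax_right D D₀)) _)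
  have hsub : Subsingleton (H1 (divisorMax D D₀)) :=
    Submodule.Quotient.subsingleton_iff.mpr htop
  exact divisor_induction_down (P := fun E => Module.Finite K (H1 E)) (le_divisorMax_left D D₀)
    inferInstance fun E v hE => by
      haveI := finite_residueField v
      haveI := hE
      exact finite_H1_step E v

theorem ell_sub_specialIndex_eq_of_le {D E : Divisor K F} (h : D ≤ E) :
    (ell E : ℤ) - specialIndex E - Divisor.degree E =
      (ell D : ℤ) - specialIndex D - Divisor.degree D :=
  divisor_induction_up
    (P := fun G => (ell G : ℤ) - specialIndex G - Divisor.degree G =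
      (ell D : ℤ) - specialIndex D - Divisor.degree D) h rfl fun G v _ hG => by
      haveI := finite_residueField v
      have h1 := ell_step G v
      have h2 := specialIndex_step G v
      rw [map_add, Divisor.degree_single]
      omega

/-- Riemann–Roch, repartition form, any constant field. -/
theorem ell_sub_specialIndex (D : Divisor K F) :
    (ell D : ℤ) - specialIndex D =
      Divisor.degree D + ell (0 : Divisor K F) - genusFF K F := by
  have h1 := ell_sub_specialIndex_eq_of_le (le_divisorMax_left D 0)
  have h2 := ell_sub_specialIndex_eq_of_le (le_divisorMax_right D 0)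
  rw [map_zero, specialIndex_zero] at h2
  omega

theorem exists_specialIndex_eq_zero :
    ∃ d : ℤ, ∀ D : Divisor K F, d ≤ Divisor.degree D → specialIndex D = 0 := by
  obtain ⟨D₀, hD₀⟩ := exists_sup_principal_eq_top (K := K) (F := F)
  refine ⟨Divisor.degree D₀ + genusFF K F + 1, fun D hD => ?_⟩
  have h := ell_sub_specialIndex (D - D₀)
  rw [map_sub] at h
  obtain ⟨f, hf, hfmem⟩ := exists_ne_zero_of_ell_pos (D := D - D₀) (by omega)
  have hle : D₀ ≤ D + divisorOf f := fun v => by
    have := effective_of_mem hf hfmem v
    simp only [Finsupp.coe_zero, Pi.zero_apply, Finsupp.add_apply, Finsupp.sub_apply] at this ⊢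
    omega
  have htop : repartitionsOf (D + divisorOf f) ⊔ principalRepartitions K F = ⊤ :=
    eq_top_iff.mpr (hD₀ ▸ sup_le_sup_right (repartitionsOf_mono hle) _)
  have hsub : Subsingleton (H1 (D + divisorOf f)) :=
    Submodule.Quotient.subsingleton_iff.mpr htop
  have hzero : specialIndex (D + divisorOf f) = 0 := Module.finrank_zero_of_subsingleton
  have h1 := ell_sub_specialIndex D
  have h2 := ell_sub_specialIndex (D + divisorOf f)
  rw [map_add, degree_divisorOf, add_zero, ell_add_divisorOf D hf] at h2
  omega

theorem one_mem_riemannRochSpace_zero : (1 : F) ∈ riemannRochSpace (0 : Divisor K F) :=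
  mem_riemannRochSpace_iff.mpr fun v => Or.inr (by simp)

theorem one_le_ell_zero : 1 ≤ ell (0 : Divisor K F) :=
  Module.finrank_pos_iff_exists_ne_zero.mpr
    ⟨⟨1, one_mem_riemannRochSpace_zero⟩, fun h => one_ne_zero (congrArg Subtype.val h)⟩

theorem ell_zero_le_deg (P : Place K F) : ell (0 : Divisor K F) ≤ P.deg := by
  obtain ⟨g, hg⟩ := exists_injective_zero_residue P
  haveI := finite_residueField P
  exact LinearMap.finrank_le_finrank_of_injective hg

theorem ell_zero [IsAlgClosed K] : ell (0 : Divisor K F) = 1 := by
  obtain ⟨P⟩ := exists_place (K := K) (F := F)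
  have h := ell_zero_le_deg P
  rw [deg_eq_one P] at h
  exact le_antisymm h one_le_ell_zero

theorem riemannRochSpace_zero [IsAlgClosed K] :
    riemannRochSpace (0 : Divisor K F) = Submodule.span K {(1 : F)} := by
  refine (Submodule.eq_of_le_of_finrank_le ?_ ?_).symm
  · rw [Submodule.span_singleton_le_iff_mem]
    exact one_mem_riemannRochSpace_zero
  · rw [finrank_span_singleton (one_ne_zero), ← ell, ell_zero]

/-- Riemann–Roch, repartition form, algebraically closed constants. -/
theorem riemann_roch [IsAlgClosed K] (D : Divisor K F) :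
    (ell D : ℤ) - specialIndex D = Divisor.degree D + 1 - genusFF K F := by
  rw [ell_sub_specialIndex, ell_zero]
  norm_num

theorem riemann_inequality [IsAlgClosed K] (D : Divisor K F) :
    Divisor.degree D + 1 - genusFF K F ≤ ell D := by
  have h := riemann_roch D
  omega

/-- A function with a pole exactly at `P`. -/
theorem exists_unique_pole (P : Place K F) :
    ∃ f : F, Transcendental K f ∧ ∀ v : Place K F, v.ord f < 0 ↔ v = P := by
  obtain ⟨d, hd⟩ := exists_specialIndex_eq_zero (K := K) (F := F)
  have hdeg := deg_pos P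
  set m : ℕ := d.toNat + genusFF K F + 1
  have hdegm : Divisor.degree (Finsupp.single P (m : ℤ) : Divisor K F) = m * P.deg :=
    Divisor.degree_single P m
  have hm : (m : ℤ) ≤ m * P.deg := le_mul_of_one_le_right (by omega) (by exact_mod_cast hdeg)
  have hi := hd (Finsupp.single P (m : ℤ)) (by omega)
  have hrr := ell_sub_specialIndex (Finsupp.single P (m : ℤ) : Divisor K F)
  obtain ⟨f, hfm, hf0⟩ : ∃ f ∈ riemannRochSpace (Finsupp.single P (m : ℤ) : Divisor K F),
      f ∉ riemannRochSpace (0 : Divisor K F) := by
    by_contra hcon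
    push Not at hcon
    have := Submodule.finrank_mono (fun f hf => hcon f hf)
    unfold ell at hrr
    omega
  have hne : f ≠ 0 := fun h => hf0 (h ▸ Submodule.zero_mem _)
  have hother : ∀ v, v ≠ P → 0 ≤ v.ord f := fun v hv => by
    simpa [Finsupp.single_eq_of_ne hv] using
      (mem_riemannRochSpace_iff.mp hfm v).resolve_left hne
  have hP : P.ord f < 0 := by
    by_contra hcon
    refine hf0 (mem_riemannRochSpace_iff.mpr fun v => Or.inr ?_)
    rcases eq_or_ne v P with rfl | hv
    · simpa using not_lt.mp hcon
    · simpa using hother v hv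
  refine ⟨f, fun halg => (ne_of_lt hP) (ord_eq_zero_of_isAlgebraic P halg), fun v => ⟨fun h => ?_,
    fun h => h ▸ hP⟩⟩
  by_contra hv
  exact absurd h (not_lt.mpr (hother v hv))

end Fermat.Agent.Curve

namespace Fermat.Agent.Curve

variable {K F : Type*} [Field K] [Field F] [Algebra K F]

theorem genusFF_adjoin {x : F} (hx : Transcendental K x) : genusFF K K⟮x⟯ = 0 := by
  haveI := isFunctionField1_adjoin hx
  set g := IntermediateField.AdjoinSimple.gen K x
  have hg : Transcendental K g := transcendental_gen hx
  have hn : Module.finrank K⟮g⟯ K⟮x⟯ = 1 := by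
    rw [adjoin_gen_eq_top (K := K) x]
    exact IntermediateField.finrank_top
  have hB : Divisor.degree (poleDivisor (K := K) g) = 1 := by
    rw [degree_poleDivisor hg, hn]; rfl
  obtain ⟨C, hC, hgrow⟩ := exists_growth hg
  obtain ⟨P, hP⟩ := exists_place_ord_neg hg
  have hPdeg : (P.deg : ℤ) ≤ 1 := by
    rw [← hB]
    have hle : Finsupp.single P (1 : ℤ) ≤ poleDivisor g := fun v => by
      classical
      rw [Finsupp.single_apply, poleDivisor_apply]
      split <;> rename_i h
      · subst h; omega
      · exact le_max_right _ _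
    have := degree_nonneg_of_le (sub_nonneg.mpr hle)
    rw [map_sub, Divisor.degree_single, one_mul] at this
    omega
  have h0 : ell (0 : Divisor K K⟮x⟯) = 1 :=
    le_antisymm ((ell_zero_le_deg P).trans (by omega)) one_le_ell_zero
  obtain ⟨d, hd⟩ := exists_specialIndex_eq_zero (K := K) (F := K⟮x⟯)
  set l := d.toNat
  have hdegD : Divisor.degree (l • poleDivisor (K := K) g) = l := by
    rw [map_nsmul, hB, nsmul_one]
  have hi := hd (l • poleDivisor g) (by omega)
  have hrr := ell_sub_specialIndex (l • poleDivisor (K := K) g)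
  have hlow : l + 1 ≤ ell (l • poleDivisor (K := K) g) := by
    have hpow : LinearIndependent K fun i : ℕ => g ^ i := by
      have := (Polynomial.basisMonomials K).linearIndependent.map'
        (Polynomial.aeval g).toLinearMap
        (LinearMap.ker_eq_bot.mpr (transcendental_iff_injective.mp hg))
      simpa [Function.comp_def] using this
    have hg0 : g ≠ 0 := fun h => hg (h ▸ isAlgebraic_zero)
    have hmem : ∀ i : Fin (l + 1), g ^ (i : ℕ) ∈ riemannRochSpace (l • poleDivisor (K := K) g) := by
      intro i
      rw [mem_riemannRochSpace_iff]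
      intro v
      right
      rw [ord_pow, Finsupp.smul_apply, poleDivisor_apply, nsmul_eq_mul]
      have hi' : ((i : ℕ) : ℤ) ≤ (l : ℤ) := by exact_mod_cast Nat.lt_succ_iff.mp i.2
      have h1 : ((i : ℕ) : ℤ) * max (-v.ord g) 0 ≤ (l : ℤ) * max (-v.ord g) 0 :=
        mul_le_mul_of_nonneg_right hi' (le_max_right _ _)
      have h2 : -(((i : ℕ) : ℤ) * v.ord g) ≤ ((i : ℕ) : ℤ) * max (-v.ord g) 0 := by
        rw [← mul_neg]
        exact mul_le_mul_of_nonneg_left (le_max_left _ _) (Int.natCast_nonneg _)
      omega
    have hli := LinearIndependent.of_comp (Submodule.subtype _)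
      (v := fun i => (⟨_, hmem i⟩ : riemannRochSpace (l • poleDivisor (K := K) g)))
      (hpow.comp (fun i : Fin (l + 1) => (i : ℕ)) Fin.val_injective)
    have := hli.fintype_card_le_finrank
    rwa [Fintype.card_fin] at this
  omega

end Fermat.Agent.Curve

end
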