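import Fermat.Agent.Curve.FibreBasis
import Fermat.Agent.Curve.RiemannRoch
import Fermat.Prelude.Def_AlgebraicCurve_Correspondence
import Mathlib.RingTheory.Trace.Basic
import Mathlib.RingTheory.Norm.Basic
import Mathlib.LinearAlgebra.Charpoly.ToMatrix
import Mathlib.LinearAlgebra.Matrix.Charpoly.Basic
import Mathlib.LinearAlgebra.Matrix.Block

/-!
# Finite extensions of function fields: fibres, norm, trace

Owner: helper40.
-/

set_option autoImplicit false
set_option linter.style.haveILetI false

noncomputable section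

open IntermediateField AlgebraicCurve Polynomial

namespace Fermat.Agent.Curve

variable {K F F' : Type*} [Field K] [Field F] [Field F'] [Algebra K F] [Algebra K F']
  [Algebra F F'] [IsScalarTower K F F'] [IsFunctionField1 K F] [IsFunctionField1 K F']
  [FiniteDimensional F F']

/-- `Σ e f = n`, with no separability assumption. -/
instance instSumRamificationInertia : SumRamificationInertia K F F' :=
  ⟨fun Q => sum_ramificationIndex_mul_inertiaDeg_eq Q⟩

theorem inertiaDeg_eq_one [IsAlgClosed K] (w : Place K F') : w.inertiaDeg F = 1 := by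
  have h := w.deg_restrict_mul_inertiaDeg (F := F)
  rwa [deg_eq_one (w.restrict F), deg_eq_one w, one_mul] at h

theorem sum_ramificationIndex_eq_finrank [IsAlgClosed K] (Q : Place K F) :
    ∑ w ∈ Q.fiber F', w.ramificationIndex F = Module.finrank F F' := by
  have h := sum_ramificationIndex_mul_inertiaDeg_eq (F' := F') Q
  simp only [inertiaDeg_eq_one, Nat.cast_one, mul_one] at h
  exact_mod_cast h

theorem fiber_nonempty (Q : Place K F) : (Q.fiber F').Nonempty := by
  by_contra h
  have h' := sum_ramificationIndex_mul_inertiaDeg_eq (F' := F') Q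
  rw [Finset.not_nonempty_iff_eq_empty.mp h, Finset.sum_empty] at h'
  exact Module.finrank_pos.ne' (by exact_mod_cast h'.symm : Module.finrank F F' = 0)

/-- A basis of `F'/F` spanning the semilocal ring over `Q` as an `O_Q`-module. -/
theorem exists_localBasis (Q : Place K F) :
    ∃ b : Module.Basis (Fin (Module.finrank F F')) F F',
      ∀ z : F', (∀ w ∈ Q.fiber F', z ∈ w.toValuationSubring) ↔
        ∀ i, b.repr z i ∈ Q.toValuationSubring := by
  obtain ⟨b, hown, hoff, hlocal, -⟩ := exists_adaptedBasis (F' := F') Q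
  have hb : ∀ i, ∀ w ∈ Q.fiber F', OrdGE w 0 (b i) := fun i w hw => by
    by_cases h : w = (i.1 : Place K F')
    · subst h; exact (hown i).mono (by omega)
    · exact (hoff i w hw h).mono (by omega)
  refine ⟨b.reindex (b.indexEquiv (Module.finBasis F F')), fun z => ⟨fun hz i => ?_, fun hz w hw => ?_⟩⟩
  · rw [Module.Basis.repr_reindex_apply]
    exact (ordGE_zero_iff_mem Q).mp
      (hlocal z (fun w hw => (ordGE_zero_iff_mem w).mpr (hz w hw)) _)
  · rw [← b.sum_repr z, ← ordGE_zero_iff_mem]
    refine OrdGE.sum _ fun i _ => ?_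
    have hi := hz (b.indexEquiv (Module.finBasis F F') i)
    rw [Module.Basis.repr_reindex_apply, Equiv.symm_apply_apply, ← ordGE_zero_iff_mem] at hi
    rw [Algebra.smul_def]
    simpa using (ordGE_algebraMap_of_restrict (Place.mem_fiber.mp hw) hi).mul (hb i w hw)

omit [IsFunctionField1 K F] [IsScalarTower K F F'] [IsFunctionField1 K F'] [Algebra K F'] in
/-- A matrix with integral entries has integral determinant. -/
theorem ordGE_det {ι : Type*} [Fintype ι] [DecidableEq ι] (Q : Place K F) (N : Matrix ι ι F)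
    (hN : ∀ i l, OrdGE Q 0 (N i l)) : OrdGE Q 0 N.det := by
  rw [ordGE_zero_iff_mem]
  let N₀ : Matrix ι ι Q.toValuationSubring := fun i l => ⟨N i l, (ordGE_zero_iff_mem Q).mp (hN i l)⟩
  have h : N.det = Q.toValuationSubring.subtype N₀.det := by
    rw [RingHom.map_det]; rfl
  rw [h]
  exact (N₀.det).2

/-- An integral element acts by an integral matrix on an adapted basis. -/
theorem exists_integral_matrix (Q : Place K F) {z : F'} (hz : ∀ w ∈ Q.fiber F', OrdGE w 0 z) :
    ∃ (b : Module.Basis (FibreIndex F' Q) F F'), ∀ i l, OrdGE Q 0 (b.repr (z * b l) i) := by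
  obtain ⟨b, hown, hoff, hlocal, -⟩ := exists_adaptedBasis (F' := F') Q
  refine ⟨b, fun i l => hlocal _ (fun w hw => ?_) i⟩
  by_cases h : w = (l.1 : Place K F')
  · subst h; exact ((hz _ hw).mul (hown l)).mono (by omega)
  · exact ((hz _ hw).mul (hoff l w hw h)).mono (by omega)

theorem ordGE_norm (Q : Place K F) {z : F'} (hz : ∀ w ∈ Q.fiber F', OrdGE w 0 z) :
    OrdGE Q 0 (Algebra.norm F z) := by
  classical
  obtain ⟨b, hb⟩ := exists_integral_matrix Q hz
  rw [Algebra.norm_eq_matrix_det b]
  refine ordGE_det Q _ fun i l => ?_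
  rw [Algebra.leftMulMatrix_eq_repr_mul]
  exact hb i l

theorem inertiaDeg_le_ord_norm (Q : Place K F) {w : Place K F'} (hw : w ∈ Q.fiber F') {π : F'}
    (hπ : π ≠ 0) (h1 : w.ord π = 1) (h0 : ∀ w' ∈ Q.fiber F', w' ≠ w → w'.ord π = 0) :
    (w.inertiaDeg F : ℤ) ≤ Q.ord (Algebra.norm F π) := by
  classical
  obtain ⟨b, hown, hoff, hlocal, hkey⟩ := exists_adaptedBasis (F' := F') Q
  obtain ⟨t, ht0, ht1⟩ := exists_uniformizer Q
  have hπ0 : ∀ w' ∈ Q.fiber F', OrdGE w' 0 π := fun w' hw' => ordGE_of_le_ord (by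
    by_cases h : w' = w
    · subst h; omega
    · rw [h0 w' hw' h])
  have hbl : ∀ l, ∀ w' ∈ Q.fiber F', OrdGE w' 0 (b l) := fun l w' hw' => by
    by_cases h : w' = (l.1 : Place K F')
    · subst h; exact (hown l).mono (by omega)
    · exact (hoff l w' hw' h).mono (by omega)
  let d : FibreIndex F' Q → F := fun i => if i.1 = ⟨w, hw⟩ ∧ (i.2.1 : ℕ) = 0 then t else 1
  have hd0 : ∀ i, d i ≠ 0 := fun i => by simp only [d]; split_ifs <;> simp [ht0]
  have hdord : ∀ i, Q.ord (d i) = if i.1 = ⟨w, hw⟩ ∧ (i.2.1 : ℕ) = 0 then 1 else 0 := fun i => by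
    simp only [d]; split_ifs <;> simp [ht1]
  have hrow : ∀ i l, OrdGE Q 0 ((d i)⁻¹ * Algebra.leftMulMatrix b π i l) := by
    intro i l
    have hx : ∀ w' ∈ Q.fiber F', OrdGE w' 0 (π * b l) := fun w' hw' =>
      ((hπ0 w' hw').mul (hbl l w' hw')).mono (by omega)
    rw [Algebra.leftMulMatrix_eq_repr_mul]
    obtain ⟨w', j, k⟩ := i
    by_cases hc : w' = ⟨w, hw⟩ ∧ (j : ℕ) = 0
    · obtain ⟨rfl, hj⟩ := hc
      have h := hkey _ hx ⟨w, hw⟩ 1
        (((ordGE_of_le_ord (show (1 : ℤ) ≤ w.ord π by omega)).mul (hbl l w hw)).mono (by simp))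
        j k (by omega)
      simp only [d, hj, and_self, if_true]
      exact ((ordGE_of_le_ord (show -(1 : ℤ) ≤ Q.ord t⁻¹ by rw [Q.ord_inv]; omega)).mul h).mono
        (by omega)
    · simp only [d, if_neg hc, inv_one, one_mul]
      exact hlocal _ hx _
  have hM : Algebra.leftMulMatrix b π =
      Matrix.of fun i l => d i * ((d i)⁻¹ * Algebra.leftMulMatrix b π i l) := by
    ext i l
    rw [Matrix.of_apply, ← mul_assoc, mul_inv_cancel₀ (hd0 i), one_mul]
  have hne : Algebra.norm F π ≠ 0 := Algebra.norm_ne_zero_iff.mpr hπ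
  rw [Algebra.norm_eq_matrix_det b, hM, Matrix.det_mul_column] at hne ⊢
  obtain ⟨hp, hdet⟩ := mul_ne_zero_iff.mp hne
  rw [Q.ord_mul hp hdet, ord_prod Q _ _ fun i _ => hd0 i]
  have hsum : ∑ i, Q.ord (d i) = (w.inertiaDeg F : ℤ) := by
    have h0' : 0 < w.ramificationIndex F := w.ramificationIndex_pos
    simp only [hdord]
    rw [Fintype.sum_sigma, Finset.sum_eq_single (⟨w, hw⟩ : Q.fiber F'), Fintype.sum_prod_type,
      Finset.sum_eq_single (⟨0, h0'⟩ : Fin (w.ramificationIndex F))]
    · simp
    · intro j _ hj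
      exact Finset.sum_eq_zero fun k _ => if_neg fun h => hj (Fin.ext h.2)
    · simp
    · intro w' _ hw'
      exact Finset.sum_eq_zero fun i _ => if_neg fun h => hw' h.1
    · simp
  rw [hsum]
  exact le_add_of_nonneg_right ((ordGE_det Q _ hrow).le_ord hdet)

omit [IsFunctionField1 K F] [IsFunctionField1 K F'] [Algebra K F'] [IsScalarTower K F F'] in
theorem ord_norm_mul (Q : Place K F) {x y : F'} (hx : x ≠ 0) (hy : y ≠ 0) :
    Q.ord (Algebra.norm F (x * y)) = Q.ord (Algebra.norm F x) + Q.ord (Algebra.norm F y) := by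
  rw [map_mul, Q.ord_mul (Algebra.norm_ne_zero_iff.mpr hx) (Algebra.norm_ne_zero_iff.mpr hy)]

omit [IsFunctionField1 K F] [IsFunctionField1 K F'] [Algebra K F'] [IsScalarTower K F F'] in
theorem ord_norm_inv (Q : Place K F) {x : F'} (hx : x ≠ 0) :
    Q.ord (Algebra.norm F x⁻¹) = -Q.ord (Algebra.norm F x) := by
  have h := ord_norm_mul Q hx (inv_ne_zero hx)
  rw [mul_inv_cancel₀ hx, map_one, Q.ord_one] at h
  omega

omit [IsFunctionField1 K F] [IsFunctionField1 K F'] [Algebra K F'] [IsScalarTower K F F'] in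
theorem ord_norm_zpow (Q : Place K F) {x : F'} (hx : x ≠ 0) (m : ℤ) :
    Q.ord (Algebra.norm F (x ^ m)) = m * Q.ord (Algebra.norm F x) := by
  cases m with
  | ofNat n => simp [ord_pow]
  | negSucc n =>
    rw [zpow_negSucc, ord_norm_inv Q (pow_ne_zero _ hx), map_pow, ord_pow, Int.negSucc_eq]
    push_cast
    ring

omit [IsFunctionField1 K F] [IsFunctionField1 K F'] [Algebra K F'] [IsScalarTower K F F'] in
theorem ord_norm_prod (Q : Place K F) {ι : Type*} (s : Finset ι) (x : ι → F')
    (hx : ∀ i ∈ s, x i ≠ 0) :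
    Q.ord (Algebra.norm F (∏ i ∈ s, x i)) = ∑ i ∈ s, Q.ord (Algebra.norm F (x i)) := by
  rw [map_prod, ord_prod Q s _ fun i hi => Algebra.norm_ne_zero_iff.mpr (hx i hi)]

theorem ord_norm (Q : Place K F) {f : F'} (hf : f ≠ 0) :
    Q.ord (Algebra.norm F f) = ∑ w ∈ Q.fiber F', (w.inertiaDeg F : ℤ) * w.ord f := by
  classical
  choose π hπ0 hπ using fun w : Place K F' =>
    exists_forall_ord_eq (Q.fiber F') (fun w' => if w' = w then (1 : ℤ) else 0)
  set g : F' → ℤ := fun x => Q.ord (Algebra.norm F x) with hg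
  have hdec : ∀ x : F', x ≠ 0 → g x = ∑ w ∈ Q.fiber F', w.ord x * g (π w) := by
    intro x hx
    set P := ∏ w ∈ Q.fiber F', π w ^ w.ord x with hP
    have hfac : ∀ w ∈ Q.fiber F', π w ^ w.ord x ≠ 0 := fun w _ => zpow_ne_zero _ (hπ0 w)
    have hP0 : P ≠ 0 := Finset.prod_ne_zero_iff.mpr hfac
    have hu : ∀ w' ∈ Q.fiber F', w'.ord (x / P) = 0 := by
      intro w' hw'
      rw [ord_div w' hx hP0, hP, ord_prod w' _ _ hfac, Finset.sum_eq_single_of_mem w' hw']
      · rw [w'.ord_zpow, hπ w' w' hw', if_pos rfl, mul_one, sub_self]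
      · intro w _ hne
        rw [w'.ord_zpow, hπ w w' hw', if_neg hne.symm, mul_zero]
    have hu0 : x / P ≠ 0 := div_ne_zero hx hP0
    have hgu : g (x / P) = 0 := by
      have h1 := (ordGE_norm (F := F) Q (z := x / P) fun w hw =>
        ordGE_of_le_ord (by rw [hu w hw])).le_ord (Algebra.norm_ne_zero_iff.mpr hu0)
      have h2 := (ordGE_norm (F := F) Q (z := (x / P)⁻¹) fun w hw =>
        ordGE_of_le_ord (by rw [w.ord_inv, hu w hw, neg_zero])).le_ord
        (Algebra.norm_ne_zero_iff.mpr (inv_ne_zero hu0))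
      rw [ord_norm_inv Q hu0] at h2
      simp only [hg]
      omega
    have h := ord_norm_mul Q hu0 hP0
    rw [div_mul_cancel₀ x hP0] at h
    simp only [hg] at hgu ⊢
    rw [h, hgu, zero_add, hP, ord_norm_prod Q _ _ hfac]
    exact Finset.sum_congr rfl fun w _ => ord_norm_zpow Q (hπ0 w) _
  obtain ⟨t, ht0, ht1⟩ := exists_uniformizer Q
  have hge : ∀ w ∈ Q.fiber F', (w.inertiaDeg F : ℤ) ≤ g (π w) := fun w hw =>
    inertiaDeg_le_ord_norm Q hw (hπ0 w) (by simp [hπ w w hw])
      (fun w' hw' hne => by rw [hπ w w' hw', if_neg hne])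
  have hsum : ∑ w ∈ Q.fiber F', (w.ramificationIndex F : ℤ) * (g (π w) - w.inertiaDeg F) = 0 := by
    have h := hdec (algebraMap F F' t) (by simpa using ht0)
    simp only [hg, Algebra.norm_algebraMap, ord_pow, ht1, mul_one] at h
    simp only [mul_sub, Finset.sum_sub_distrib, sum_ramificationIndex_mul_inertiaDeg_eq Q, sub_eq_zero]
    rw [h]
    refine Finset.sum_congr rfl fun w hw => ?_
    rw [w.ord_restrict, Place.mem_fiber.mp hw, ht1, mul_one]
  rw [show Q.ord (Algebra.norm F f) = g f from rfl, hdec f hf]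
  refine Finset.sum_congr rfl fun w hw => ?_
  have hpos : (0 : ℤ) < w.ramificationIndex F := by exact_mod_cast w.ramificationIndex_pos
  have h := (Finset.sum_eq_zero_iff_of_nonneg fun w' hw' =>
    mul_nonneg (by positivity) (by linarith [hge w' hw'])).mp hsum w hw
  rw [sub_eq_zero.mp ((mul_eq_zero.mp h).resolve_left hpos.ne'), mul_comm]

theorem pushforwardNormFormula : Divisor.PushforwardNormFormula K F F' := by
  classical
  intro f hf D hD v
  rw [Divisor.pushforward_apply, ord_norm v hf, ← Finset.sum_filter]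
  refine (Finset.sum_congr rfl fun w _ => by rw [hD w, mul_comm]).trans
    (Finset.sum_subset (fun w hw => Place.mem_fiber.mpr (Finset.mem_filter.mp hw).2)
      fun w hw hnot => ?_)
  have : D w = 0 := by
    by_contra h
    exact hnot (Finset.mem_filter.mpr ⟨Finsupp.mem_support_iff.mpr h, Place.mem_fiber.mp hw⟩)
  rw [← hD w, this, mul_zero]

theorem trace_mem (Q : Place K F) {z : F'} (hz : ∀ w ∈ Q.fiber F', z ∈ w.toValuationSubring) :
    Algebra.trace F F' z ∈ Q.toValuationSubring := by
  classical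
  obtain ⟨b, hb⟩ := exists_integral_matrix Q fun w hw => (ordGE_zero_iff_mem w).mpr (hz w hw)
  rw [Algebra.trace_eq_matrix_trace b, Matrix.trace]
  refine Q.toValuationSubring.toSubring.sum_mem fun i _ => ?_
  rw [Matrix.diag_apply, Algebra.leftMulMatrix_eq_repr_mul]
  exact (ordGE_zero_iff_mem Q).mp (hb i i)

omit [IsFunctionField1 K F] [IsScalarTower K F F'] [IsFunctionField1 K F'] [Algebra K F'] in
theorem charpoly_mulLeft_eq {ι : Type*} [Fintype ι] [DecidableEq ι] (b : Module.Basis ι F F')
    (z : F') :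
    LinearMap.charpoly (LinearMap.mulLeft F z) = (Algebra.leftMulMatrix b z).charpoly := by
  rw [← LinearMap.charpoly_toMatrix (LinearMap.mulLeft F z) b]
  congr 1

theorem charpoly_coeff_mem (Q : Place K F) {z : F'}
    (hz : ∀ w ∈ Q.fiber F', z ∈ w.toValuationSubring) (i : ℕ) :
    (LinearMap.charpoly (LinearMap.mulLeft F z)).coeff i ∈ Q.toValuationSubring := by
  classical
  obtain ⟨b, hb⟩ := exists_integral_matrix Q fun w hw => (ordGE_zero_iff_mem w).mpr (hz w hw)
  let M₀ : Matrix (FibreIndex F' Q) (FibreIndex F' Q) Q.toValuationSubring := fun i l =>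
    ⟨b.repr (z * b l) i, (ordGE_zero_iff_mem Q).mp (hb i l)⟩
  have hM : Algebra.leftMulMatrix b z = M₀.map Q.toValuationSubring.subtype := by
    ext i l; exact Algebra.leftMulMatrix_eq_repr_mul ..
  rw [charpoly_mulLeft_eq b, hM, Matrix.charpoly_map, Polynomial.coeff_map]
  exact (M₀.charpoly.coeff i).2

section Eval

variable [IsAlgClosed K]

omit [Algebra K F'] [Algebra F F'] [IsScalarTower K F F'] [IsFunctionField1 K F'] [FiniteDimensional F F']

theorem evalAt_eq {Q : Place K F} {f : F} {c : K} (h : OrdGE Q 1 (f - algebraMap K F c)) :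
    evalAt Q f = c := by
  have hf : f ∈ Q.toValuationSubring := by
    rw [← sub_add_cancel f (algebraMap K F c)]
    exact add_mem ((ordGE_zero_iff_mem Q).mp (h.mono (by omega))) (Q.algebraMap_mem' c)
  have h' : OrdGE Q 1 (f - algebraMap K F (evalAt Q f)) :=
    (ordGE_iff Q).mpr ((evalAt_spec Q hf).imp id fun h => by omega)
  have hd := h'.sub h
  rw [sub_sub_sub_cancel_left, ← map_sub] at hd
  by_contra hne
  have := hd.le_ord ((_root_.map_ne_zero _).mpr (sub_ne_zero.mpr (Ne.symm hne)))
  rw [ord_algebraMap] at this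
  omega

/-- Evaluation at a place, as a ring homomorphism. -/
theorem exists_residueHom (Q : Place K F) :
    ∃ φ : Q.toValuationSubring →+* K,
      (∀ a, φ a = evalAt Q (a : F)) ∧ ∀ a, φ a = 0 ↔ OrdGE Q 1 (a : F) := by
  haveI := finite_residueField Q
  let e : K ≃+* Q.ResidueField := RingEquiv.ofBijective (algebraMap K Q.ResidueField)
    (IsAlgClosed.algebraMap_bijective_of_isIntegral (k := K) (K := Q.ResidueField))
  refine ⟨e.symm.toRingHom.comp (IsLocalRing.residue _), fun a => Eq.symm (evalAt_eq ?_),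
    fun a => ?_⟩
  · have h : IsLocalRing.residue _
        (a - algebraMap K Q.toValuationSubring (e.symm (IsLocalRing.residue _ a))) = 0 := by
      rw [map_sub, sub_eq_zero]
      exact (e.apply_symm_apply _).symm
    exact (residue_eq_zero_iff Q _).mp h
  · show e.symm (IsLocalRing.residue _ a) = 0 ↔ _
    rw [map_eq_zero_iff _ e.symm.injective, residue_eq_zero_iff]

end Eval

open scoped Classical in
/-- Multiplication by an integral element reduces to a triangular matrix with diagonal entries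
the values of the element at the places of the fibre. -/
theorem exists_triangular_reduction [IsAlgClosed K] (Q : Place K F) {z : F'}
    (hz : ∀ w ∈ Q.fiber F', z ∈ w.toValuationSubring) :
    ∃ (b : Module.Basis (FibreIndex F' Q) F F') (φ : Q.toValuationSubring →+* K)
      (M₀ : Matrix (FibreIndex F' Q) (FibreIndex F' Q) Q.toValuationSubring),
      (∀ a, φ a = evalAt Q (a : F)) ∧
      Algebra.leftMulMatrix b z = M₀.map Q.toValuationSubring.subtype ∧
      ∀ i l, (i.2.1 : ℕ) ≤ l.2.1 →
        φ (M₀ i l) = if i = l then evalAt (l.1 : Place K F') z else 0 := by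
  classical
  obtain ⟨b, hown, hoff, hlocal, hkey⟩ := exists_adaptedBasis (F' := F') Q
  obtain ⟨φ, hφ, hφ0⟩ := exists_residueHom Q
  have hbl : ∀ l, ∀ w' ∈ Q.fiber F', OrdGE w' 0 (b l) := fun l w' hw' => by
    by_cases h : w' = (l.1 : Place K F')
    · subst h; exact (hown l).mono (by omega)
    · exact (hoff l w' hw' h).mono (by omega)
  have hzb : ∀ l, ∀ w ∈ Q.fiber F', OrdGE w 0 (z * b l) := fun l w hw =>
    (((ordGE_zero_iff_mem w).mpr (hz w hw)).mul (hbl l w hw)).mono (by omega)
  refine ⟨b, φ, fun i l => ⟨b.repr (z * b l) i, (ordGE_zero_iff_mem Q).mp (hlocal _ (hzb l) i)⟩,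
    hφ, by ext i l; exact Algebra.leftMulMatrix_eq_repr_mul .., fun i l hij => ?_⟩
  set a : K := evalAt (l.1 : Place K F') z
  set x : F' := (z - algebraMap K F' a) * b l
  have hza : ∀ w ∈ Q.fiber F', OrdGE w 0 (z - algebraMap K F' a) := fun w hw =>
    ((ordGE_zero_iff_mem w).mpr (hz w hw)).sub (ordGE_algebraMap w a)
  have hx0 : ∀ w ∈ Q.fiber F', OrdGE w 0 x := fun w hw =>
    ((hza w hw).mul (hbl l w hw)).mono (by omega)
  have hxl : OrdGE (l.1 : Place K F') ((l.2.1 : ℕ) + 1 : ℕ) x :=
    (((ordGE_iff (l.1 : Place K F')).mpr ((evalAt_spec _ (hz _ l.1.2)).imp id fun h => by omega) :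
      OrdGE (l.1 : Place K F') 1 _).mul (hown l)).mono (by push_cast; omega)
  have hxi : OrdGE Q 1 (b.repr x i) := by
    obtain ⟨w, j, k⟩ := i
    by_cases hwl : w = l.1
    · subst hwl
      exact hkey x hx0 _ _ hxl j k (by simp only at hij; omega)
    · exact hkey x hx0 w _ (((hza w.1 w.2).mul
        (hoff l w.1 w.2 fun h => hwl (Subtype.ext h))).mono (by omega)) j k j.isLt
  have hrepr : b.repr (z * b l) i = b.repr x i + if i = l then algebraMap K F a else 0 := by
    have hx : z * b l = x + algebraMap K F a • b l := by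
      rw [Algebra.smul_def, ← IsScalarTower.algebraMap_apply, ← add_mul, sub_add_cancel]
    rw [hx, map_add, map_smul, b.repr_self, Finsupp.add_apply, Finsupp.smul_apply,
      Finsupp.single_apply, smul_eq_mul, mul_ite, mul_one, mul_zero]
    simp only [eq_comm (a := l)]
  let r : Q.toValuationSubring := ⟨b.repr x i, (ordGE_zero_iff_mem Q).mp (hxi.mono (by omega))⟩
  have hr : φ r = 0 := (hφ0 r).mpr hxi
  have hconst : φ (algebraMap K Q.toValuationSubring a) = a := by
    rw [hφ]; exact evalAt_eq (by simpa using ordGE_zero (v := Q) 1)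
  simp only
  split_ifs with h
  · calc φ _ = φ (r + algebraMap K Q.toValuationSubring a) :=
          congrArg φ (Subtype.ext (hrepr.trans (by rw [if_pos h]; simp [r])))
      _ = a := by rw [map_add, hr, hconst, zero_add]
  · calc φ _ = φ r := congrArg φ (Subtype.ext (hrepr.trans (by rw [if_neg h, add_zero])))
      _ = 0 := hr

omit [IsFunctionField1 K F] in
theorem prod_fibreIndex {M : Type*} [CommMonoid M] {Q : Place K F} (g : Place K F' → M)
    (h1 : ∀ w : Place K F', w.inertiaDeg F = 1) :
    ∏ i : FibreIndex F' Q, g (i.1 : Place K F') =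
      ∏ w ∈ Q.fiber F', g w ^ w.ramificationIndex F := by
  rw [Fintype.prod_sigma, ← Finset.prod_coe_sort (Q.fiber F')]
  exact Finset.prod_congr rfl fun w _ => by simp [h1]

/-- Triangularity with respect to `(j, tie-break)`. -/
theorem charpoly_det_trace_of_reduction [IsAlgClosed K] (Q : Place K F)
    (a : Place K F' → K) (M : Matrix (FibreIndex F' Q) (FibreIndex F' Q) K)
    [DecidableEq (FibreIndex F' Q)]
    (hM : ∀ i l, (i.2.1 : ℕ) ≤ l.2.1 → M i l = if i = l then a (l.1 : Place K F') else 0) :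
    M.charpoly = ∏ w ∈ Q.fiber F', (X - C (a w)) ^ w.ramificationIndex F ∧
      M.det = ∏ w ∈ Q.fiber F', a w ^ w.ramificationIndex F ∧
      M.trace = ∑ w ∈ Q.fiber F', (w.ramificationIndex F : K) * a w := by
  have h1 : ∀ w : Place K F', w.inertiaDeg F = 1 := inertiaDeg_eq_one
  have hdiag : ∀ i, M i i = a (i.1 : Place K F') := fun i => by simp [hM i i le_rfl]
  letI : LinearOrder (FibreIndex F' Q) := LinearOrder.lift'
    (fun i => toLex ((i.2.1 : ℕ), Fintype.equivFin (FibreIndex F' Q) i))
    (fun i l h => (Fintype.equivFin _).injective (congrArg (fun p => (ofLex p).2) h))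
  have hup : M.transpose.IsUpperTriangular := by
    intro i l hli
    have h : toLex ((l.2.1 : ℕ), Fintype.equivFin (FibreIndex F' Q) l) <
        toLex ((i.2.1 : ℕ), Fintype.equivFin (FibreIndex F' Q) i) := hli
    rw [Matrix.transpose_apply, hM l i (by rcases Prod.Lex.toLex_lt_toLex.mp h with h | h <;> omega),
      if_neg]
    rintro rfl
    exact lt_irrefl _ h
  refine ⟨?_, ?_, ?_⟩
  · rw [← M.charpoly_transpose, Matrix.charpoly_of_isUpperTriangular _ hup]
    simp only [Matrix.transpose_apply, hdiag]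
    exact prod_fibreIndex (fun w => X - C (a w)) h1
  · rw [← M.det_transpose, Matrix.det_of_isUpperTriangular hup]
    simp only [Matrix.transpose_apply, hdiag]
    exact prod_fibreIndex a h1
  · rw [Matrix.trace, Fintype.sum_sigma, ← Finset.sum_coe_sort (Q.fiber F')]
    exact Finset.sum_congr rfl fun w _ => by simp [hdiag, h1]

/-- The characteristic polynomial evaluated at a place. -/
theorem evalAt_charpoly_coeff [IsAlgClosed K] (Q : Place K F) {z : F'}
    (hz : ∀ w ∈ Q.fiber F', z ∈ w.toValuationSubring) (i : ℕ) :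
    evalAt Q ((LinearMap.charpoly (LinearMap.mulLeft F z)).coeff i) =
      (∏ w ∈ Q.fiber F', (X - C (evalAt w z)) ^ w.ramificationIndex F).coeff i := by
  classical
  obtain ⟨b, φ, M₀, hφ, hM, htri⟩ := exists_triangular_reduction Q hz
  rw [charpoly_mulLeft_eq b, hM, Matrix.charpoly_map, Polynomial.coeff_map, ValuationSubring.subtype_apply, ← hφ,
    ← Polynomial.coeff_map, ← Matrix.charpoly_map,
    (charpoly_det_trace_of_reduction Q (fun w => evalAt w z) (M₀.map φ) htri).1]

theorem evalAt_norm [IsAlgClosed K] (Q : Place K F) {z : F'}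
    (hz : ∀ w ∈ Q.fiber F', z ∈ w.toValuationSubring) :
    evalAt Q (Algebra.norm F z) = ∏ w ∈ Q.fiber F', evalAt w z ^ w.ramificationIndex F := by
  classical
  obtain ⟨b, φ, M₀, hφ, hM, htri⟩ := exists_triangular_reduction Q hz
  rw [Algebra.norm_eq_matrix_det b, hM, ← RingHom.mapMatrix_apply, ← RingHom.map_det,
    ValuationSubring.subtype_apply, ← hφ, RingHom.map_det, RingHom.mapMatrix_apply,
    (charpoly_det_trace_of_reduction Q (fun w => evalAt w z) (M₀.map φ) htri).2.1]

theorem evalAt_trace [IsAlgClosed K] (Q : Place K F) {z : F'}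
    (hz : ∀ w ∈ Q.fiber F', z ∈ w.toValuationSubring) :
    evalAt Q (Algebra.trace F F' z) =
      ∑ w ∈ Q.fiber F', (w.ramificationIndex F : K) * evalAt w z := by
  classical
  obtain ⟨b, φ, M₀, hφ, hM, htri⟩ := exists_triangular_reduction Q hz
  rw [Algebra.trace_eq_matrix_trace b, hM,
    ← (charpoly_det_trace_of_reduction Q (fun w => evalAt w z) (M₀.map φ) htri).2.2,
    ← AddMonoidHom.map_trace, ValuationSubring.subtype_apply, ← hφ]
  exact AddMonoidHom.map_trace φ.toAddMonoidHom M₀

end Fermat.Agent.Curve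

namespace Fermat.Agent.Curve

variable {K F F' : Type*} [Field K] [Field F] [Field F'] [Algebra K F] [Algebra K F']
  [IsFunctionField1 K F] [IsFunctionField1 K F']

theorem finiteAlong (φ : F →ₐ[K] F') : FiniteAlong K φ := by
  letI := algebraAlong φ
  haveI := isScalarTower_along φ
  show Module.Finite F F'
  obtain ⟨x, hx, -⟩ := IsFunctionField1.exists_transcendental' (K := K) (F := F)
  haveI : FiniteDimensional K⟮φ x⟯ F' := finiteDimensional_adjoin (transcendental_map (F' := F') hx)
  have hle : K⟮φ x⟯ ≤ φ.fieldRange := by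
    rw [adjoin_simple_le_iff]; exact ⟨x, rfl⟩
  letI : Algebra K⟮φ x⟯ φ.fieldRange := (IntermediateField.inclusion hle).toRingHom.toAlgebra
  haveI : IsScalarTower K⟮φ x⟯ φ.fieldRange F' := IsScalarTower.of_algebraMap_eq fun _ => rfl
  haveI : Module.Finite φ.fieldRange F' := Module.Finite.right K⟮φ x⟯ φ.fieldRange F'
  let e : φ.fieldRange ≃+* F :=
    ((AlgEquiv.ofInjectiveField φ).toRingEquiv).symm
  refine Module.Finite.of_equiv_equiv e (RingEquiv.refl F') (RingHom.ext fun y => ?_)
  obtain ⟨a, rfl⟩ := e.symm.surjective y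
  simp only [RingHom.comp_apply, RingEquiv.coe_toRingHom, RingEquiv.apply_symm_apply]
  rfl

theorem isIntegralAlong (φ : F →ₐ[K] F') : φ.toRingHom.IsIntegral := by
  letI := algebraAlong φ
  haveI : Module.Finite F F' := finiteAlong φ
  exact fun x => Algebra.IsIntegral.isIntegral (R := F) x

theorem fundamentalIdentityAlong (φ : F →ₐ[K] F') (hφ : φ.toRingHom.IsIntegral) :
    FundamentalIdentityAlong K φ hφ := by
  letI := algebraAlong φ
  haveI := isScalarTower_along φ
  haveI : Module.Finite F F' := finiteAlong φ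
  show FundamentalIdentity K F F'
  exact instFundamentalIdentityOfSumRamificationInertia

theorem normFormulaAlong (φ : F →ₐ[K] F') (hfin : FiniteAlong K φ) :
    NormFormulaAlong K φ hfin := by
  letI := algebraAlong φ
  haveI := isScalarTower_along φ
  haveI : Module.Finite F F' := hfin
  exact pushforwardNormFormula

end Fermat.Agent.Curve

end
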