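import Fermat.Agent.Curve.Basic
import Mathlib.RingTheory.Valuation.LocalSubring
import Mathlib.RingTheory.Bezout
import Mathlib.Algebra.Polynomial.RingDivision

/-!
# Places: elementary lemmas, discreteness, existence

Owner: helper36.
-/

noncomputable section

namespace Fermat.Agent.Curve

open AlgebraicCurve IsLocalRing

variable {K F : Type*} [Field K] [Field F] [Algebra K F] (v : Place K F)

theorem exists_uniformizer : ∃ t : F, t ≠ 0 ∧ v.ord t = 1 := by
  obtain ⟨π, hπ⟩ := IsDiscreteValuationRing.exists_irreducible v.toValuationSubring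
  exact ⟨π, by simpa using hπ.ne_zero, v.ord_coe_irreducible hπ⟩

theorem mem_iff_ord_nonneg_of_ne_zero {f : F} (hf : f ≠ 0) : f ∈ v.toValuationSubring ↔ 0 ≤ v.ord f := by
  obtain ⟨π, hπ⟩ := IsDiscreteValuationRing.exists_irreducible v.toValuationSubring
  obtain ⟨u, hu⟩ := v.exists_unit_mul_zpow hf hπ
  constructor
  · intro hm
    obtain ⟨n, w, hw⟩ := IsDiscreteValuationRing.eq_unit_mul_pow_irreducible
      (x := (⟨f, hm⟩ : v.toValuationSubring)) (by simpa [Subtype.ext_iff] using hf) hπ
    have h := congrArg Subtype.val hw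
    push_cast at h
    rw [h, ← zpow_natCast, v.ord_unit_smul_zpow w hπ (n : ℤ)]
    omega
  · intro h
    rw [hu, show v.ord f = (((v.ord f).toNat : ℕ) : ℤ) from (Int.toNat_of_nonneg h).symm,
      zpow_natCast]
    exact mul_mem (u : v.toValuationSubring).2 (pow_mem π.2 _)

theorem ord_nonneg_of_mem {f : F} (hf : f ∈ v.toValuationSubring) : 0 ≤ v.ord f := by
  rcases eq_or_ne f 0 with rfl | h
  · simp
  · exact (mem_iff_ord_nonneg_of_ne_zero v h).mp hf

theorem mem_of_ord_nonneg {f : F} (h : 0 ≤ v.ord f) : f ∈ v.toValuationSubring := by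
  rcases eq_or_ne f 0 with rfl | hf
  · exact zero_mem _
  · exact (mem_iff_ord_nonneg_of_ne_zero v hf).mpr h

theorem mem_iff_eq_zero_or_ord_nonneg {f : F} : f ∈ v.toValuationSubring ↔ f = 0 ∨ 0 ≤ v.ord f :=
  ⟨fun h => Or.inr (ord_nonneg_of_mem v h),
    fun h => h.elim (fun h => h ▸ zero_mem _) (mem_of_ord_nonneg v)⟩

theorem mem_iff_ord_nonneg {f : F} : f ∈ v.toValuationSubring ↔ 0 ≤ v.ord f :=
  ⟨ord_nonneg_of_mem v, mem_of_ord_nonneg v⟩

theorem ord_div {f g : F} (hf : f ≠ 0) (hg : g ≠ 0) : v.ord (f / g) = v.ord f - v.ord g := by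
  rw [div_eq_mul_inv, v.ord_mul hf (inv_ne_zero hg), v.ord_inv]; ring

theorem ord_pow (f : F) (n : ℕ) : v.ord (f ^ n) = n * v.ord f := by
  rw [← zpow_natCast, v.ord_zpow]

theorem ord_neg (f : F) : v.ord (-f) = v.ord f := by
  simp [Place.ord, Valuation.map_neg]

theorem ord_sub_comm (f g : F) : v.ord (f - g) = v.ord (g - f) := by
  rw [← ord_neg v (f - g), neg_sub]

theorem ord_algebraMap (a : K) : v.ord (algebraMap K F a) = 0 := by
  rcases eq_or_ne a 0 with rfl | ha
  · simp
  · have h1 := ord_nonneg_of_mem v (v.algebraMap_mem' a)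
    have h2 := ord_nonneg_of_mem v (v.algebraMap_mem' a⁻¹)
    rw [map_inv₀, v.ord_inv] at h2
    omega

/-- `f = 0` or `n ≤ ord f`. -/
def OrdGE (n : ℤ) (f : F) : Prop := v.adicValuation f ≤ WithZero.exp (-n)

theorem ordGE_iff {n : ℤ} {f : F} : OrdGE v n f ↔ f = 0 ∨ n ≤ v.ord f := by
  unfold OrdGE
  rcases eq_or_ne f 0 with rfl | hf
  · simp
  · have he : v.adicValuation f = WithZero.exp (-v.ord f) := by
      unfold Place.ord
      rw [neg_neg, WithZero.exp_log (v.adicValuation_ne_zero hf)]
    rw [he, WithZero.exp_le_exp, neg_le_neg_iff, or_iff_right hf]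

variable {v}

theorem OrdGE.le_ord {n : ℤ} {f : F} (h : OrdGE v n f) (hf : f ≠ 0) : n ≤ v.ord f :=
  ((ordGE_iff v).mp h).resolve_left hf

theorem ordGE_zero (n : ℤ) : OrdGE v n 0 := (ordGE_iff v).mpr (Or.inl rfl)

theorem ordGE_of_le_ord {n : ℤ} {f : F} (h : n ≤ v.ord f) : OrdGE v n f :=
  (ordGE_iff v).mpr (Or.inr h)

theorem OrdGE.mono {m n : ℤ} {f : F} (h : OrdGE v n f) (hmn : m ≤ n) : OrdGE v m f :=
  h.trans (WithZero.exp_le_exp.mpr (by omega))

theorem OrdGE.add {n : ℤ} {f g : F} (hf : OrdGE v n f) (hg : OrdGE v n g) : OrdGE v n (f + g) :=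
  (Valuation.map_add _ _ _).trans (max_le hf hg)

theorem OrdGE.neg {n : ℤ} {f : F} (hf : OrdGE v n f) : OrdGE v n (-f) := by
  simpa [OrdGE, Valuation.map_neg] using hf

theorem OrdGE.sub {n : ℤ} {f g : F} (hf : OrdGE v n f) (hg : OrdGE v n g) : OrdGE v n (f - g) := by
  simpa [sub_eq_add_neg] using hf.add hg.neg

theorem OrdGE.mul {m n : ℤ} {f g : F} (hf : OrdGE v m f) (hg : OrdGE v n g) :
    OrdGE v (m + n) (f * g) := by
  show v.adicValuation (f * g) ≤ _
  rw [map_mul, neg_add, WithZero.exp_add]
  exact mul_le_mul' hf hg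

theorem OrdGE.sum {n : ℤ} {ι : Type*} (s : Finset ι) {f : ι → F}
    (h : ∀ i ∈ s, OrdGE v n (f i)) : OrdGE v n (∑ i ∈ s, f i) := by
  classical
  induction s using Finset.induction_on with
  | empty => simpa using ordGE_zero n
  | insert i s hi ih =>
    rw [Finset.sum_insert hi]
    exact (h i (by simp)).add (ih fun j hj => h j (by simp [hj]))

variable (v)

theorem ordGE_zero_iff_mem {f : F} : OrdGE v 0 f ↔ f ∈ v.toValuationSubring := by
  rw [ordGE_iff, mem_iff_eq_zero_or_ord_nonneg]

theorem ordGE_algebraMap (a : K) : OrdGE v 0 (algebraMap K F a) :=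
  (ordGE_zero_iff_mem v).mpr (v.algebraMap_mem' a)

theorem min_ord_le_ord_add {f g : F} (h : f + g ≠ 0) : min (v.ord f) (v.ord g) ≤ v.ord (f + g) :=
  (OrdGE.add (ordGE_of_le_ord (min_le_left _ _)) (ordGE_of_le_ord (min_le_right _ _))).le_ord h

theorem add_ne_zero_and_ord_add_eq {f g : F} {n : ℤ} (hf : f ≠ 0) (hn : v.ord f = n)
    (hg : OrdGE v (n + 1) g) : f + g ≠ 0 ∧ v.ord (f + g) = n := by
  have hne : f + g ≠ 0 := by
    intro h
    have hfg : f = -g := eq_neg_of_add_eq_zero_left h
    have : n + 1 ≤ v.ord f := (hfg ▸ hg.neg).le_ord hf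
    omega
  refine ⟨hne, le_antisymm ?_ ?_⟩
  · by_contra hlt
    push_neg at hlt
    have h1 : OrdGE v (n + 1) (f + g) := ordGE_of_le_ord (by omega)
    have h2 := h1.sub hg
    rw [add_sub_cancel_right] at h2
    have := h2.le_ord hf
    omega
  · exact ((ordGE_of_le_ord hn.ge).add (hg.mono (by omega))).le_ord hne

theorem ord_add_eq_of_lt {f g : F} (hf : f ≠ 0) (h : v.ord f < v.ord g) :
    v.ord (f + g) = v.ord f :=
  (add_ne_zero_and_ord_add_eq v hf rfl ((ordGE_iff v).mpr (Or.inr (by omega)))).2

theorem ord_prod {ι : Type*} (s : Finset ι) (f : ι → F) (hf : ∀ i ∈ s, f i ≠ 0) :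
    v.ord (∏ i ∈ s, f i) = ∑ i ∈ s, v.ord (f i) := by
  classical
  induction s using Finset.induction_on with
  | empty => simp
  | insert i s hi ih =>
    rw [Finset.prod_insert hi, Finset.sum_insert hi,
      v.ord_mul (hf i (by simp)) (Finset.prod_ne_zero_iff.mpr fun j hj => hf j (by simp [hj])),
      ih fun j hj => hf j (by simp [hj])]

theorem exists_ord_eq (n : ℤ) : ∃ t : F, t ≠ 0 ∧ v.ord t = n := by
  obtain ⟨t, ht, h1⟩ := exists_uniformizer v
  exact ⟨t ^ n, zpow_ne_zero _ ht, by rw [v.ord_zpow, h1, mul_one]⟩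

theorem sub_ne_zero_iff_of_ordGE {f g : F} {n : ℤ} (hf : f ≠ 0) (hn : v.ord f = n)
    (hg : OrdGE v (n + 1) (g - f)) : g ≠ 0 ∧ v.ord g = n := by
  have h := add_ne_zero_and_ord_add_eq v hf hn hg
  rwa [add_sub_cancel] at h

theorem residue_eq_zero_iff (a : v.toValuationSubring) :
    IsLocalRing.residue v.toValuationSubring a = 0 ↔ OrdGE v 1 (a : F) := by
  rw [IsLocalRing.residue_eq_zero_iff, IsLocalRing.mem_maximalIdeal, mem_nonunits_iff,
    ← v.adicValuation_coe_eq_one_iff, ordGE_iff]
  rcases eq_or_ne (a : F) 0 with h | h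
  · simp [h]
  · have hnn := ord_nonneg_of_mem v a.2
    rw [or_iff_right h]
    constructor
    · intro hne
      by_contra hlt
      apply hne
      have h0 : v.ord (a : F) = 0 := by omega
      rw [Place.ord, neg_eq_zero] at h0
      rw [← WithZero.exp_log (v.adicValuation_ne_zero h), h0, WithZero.exp_zero]
    · intro h1 he
      rw [Place.ord, he] at h1
      simp at h1

theorem isUnit_iff_ord_eq_zero (a : v.toValuationSubring) :
    IsUnit a ↔ (a : F) ≠ 0 ∧ v.ord (a : F) = 0 := by
  constructor
  · intro h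
    refine ⟨by simpa using h.ne_zero, ?_⟩
    simpa using v.ord_coe_unit h.unit
  · rintro ⟨h0, h⟩
    by_contra hu
    have := (residue_eq_zero_iff v a).mp
      ((IsLocalRing.residue_eq_zero_iff a).mpr (by simpa [IsLocalRing.mem_maximalIdeal] using hu))
    have := this.le_ord h0
    omega

theorem finiteResidue_deg_pos (h : Module.Finite K v.ResidueField) : 0 < v.deg :=
  haveI := h
  Module.finrank_pos

/-- A nonzero element algebraic over `K` has order `0` at each place. -/
theorem ord_eq_zero_of_isAlgebraic {f : F} (hf : IsAlgebraic K f) : v.ord f = 0 := by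
  rcases eq_or_ne f 0 with rfl | hf0
  · simp
  have key : ∀ g : F, IsAlgebraic K g → g ∈ v.toValuationSubring := by
    intro g hg
    have hint : IsIntegral v.toValuationSubring g :=
      (isAlgebraic_iff_isIntegral.mp hg).tower_top
    obtain ⟨y, hy⟩ := IsIntegrallyClosed.isIntegral_iff.mp hint
    exact hy ▸ y.2
  have h1 := ord_nonneg_of_mem v (key f hf)
  have h2 := ord_nonneg_of_mem v (key _ hf.inv)
  rw [v.ord_inv] at h2
  omega

theorem transcendental_of_ord_ne_zero {f : F} (hf : v.ord f ≠ 0) : Transcendental K f :=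
  fun h => hf (ord_eq_zero_of_isAlgebraic v h)

theorem transcendental_uniformizer {f : F} (hf : v.ord f = 1) : Transcendental K f :=
  transcendental_of_ord_ne_zero v (by omega)

/-- Places are maximal: an inclusion of valuation rings is an equality. -/
theorem eq_of_toValuationSubring_le {v w : Place K F} (h : v.toValuationSubring ≤ w.toValuationSubring) :
    v = w := by
  by_contra hne
  have hnle : ¬ w.toValuationSubring ≤ v.toValuationSubring := fun h' =>
    hne (Place.ext (le_antisymm h h'))
  obtain ⟨y, hyw, hyv⟩ := SetLike.not_le_iff_exists.mp hnle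
  have hy0 : y ≠ 0 := by rintro rfl; exact hyv (zero_mem _)
  have hyo : v.ord y ≤ -1 := by
    have := (mem_iff_ord_nonneg v).not.mp hyv
    omega
  apply w.ne_top'
  refine SetLike.ext fun z => ⟨fun _ => trivial, fun _ => ?_⟩
  rcases eq_or_ne z 0 with rfl | hz
  · exact zero_mem _
  set N : ℕ := (-v.ord z).toNat
  have hmem : z / y ^ N ∈ w.toValuationSubring := by
    refine h (mem_of_ord_nonneg v ?_)
    rw [ord_div v hz (pow_ne_zero _ hy0), ord_pow]
    rcases le_or_gt 0 (v.ord z) with h0 | h0
    · simp [N, Int.toNat_of_nonpos (show -v.ord z ≤ 0 by omega), h0]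
    · have hN : (N : ℤ) = -v.ord z := Int.toNat_of_nonneg (by omega)
      rw [hN]
      nlinarith
  have hz' : z = (z / y ^ N) * y ^ N := (div_mul_cancel₀ z (pow_ne_zero _ hy0)).symm
  rw [hz']
  exact mul_mem hmem (pow_mem hyw _)

theorem place_ext_ord {v w : Place K F} (h : ∀ f : F, 0 ≤ v.ord f → 0 ≤ w.ord f) : v = w :=
  eq_of_toValuationSubring_le fun f hf => mem_of_ord_nonneg w (h f (ord_nonneg_of_mem v hf))

theorem mem_maximalIdeal_iff {v : Place K F} {f : v.toValuationSubring} :
    f ∈ IsLocalRing.maximalIdeal v.toValuationSubring ↔ (f : F) = 0 ∨ 0 < v.ord (f : F) := by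
  rw [← IsLocalRing.residue_eq_zero_iff, Fermat.Agent.Curve.residue_eq_zero_iff, ordGE_iff]
  exact or_congr_right (by omega)

theorem exists_mem_not_mem {v w : Place K F} (h : v ≠ w) :
    ∃ f : F, f ∈ v.toValuationSubring ∧ f ∉ w.toValuationSubring :=
  SetLike.not_le_iff_exists.mp fun hle => h (eq_of_toValuationSubring_le hle)

section Discrete

open IntermediateField Polynomial

omit v in
/-- At a valuation ring containing `K`, in which `t` is a nonzero nonunit, every nonzero element of
`K⟮t⟯` has the value of an integral power of `t`. -/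
theorem exists_valuation_eq_zpow (A : ValuationSubring F) (hK : ∀ a : K, algebraMap K F a ∈ A)
    {t : F} (ht : A.valuation t < 1) {c : F} (hc : c ∈ K⟮t⟯) (hc0 : c ≠ 0) :
    ∃ m : ℤ, A.valuation c = A.valuation t ^ m := by
  have htA : t ∈ A := (A.valuation_le_one_iff t).mp ht.le
  have hunit : ∀ a : K, a ≠ 0 → A.valuation (algebraMap K F a) = 1 := fun a ha => by
    refine le_antisymm ((A.valuation_le_one_iff _).mpr (hK a)) ?_
    have h := (A.valuation_le_one_iff _).mpr (hK a⁻¹)
    rwa [map_inv₀, map_inv₀, inv_le_one₀ (by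
      rw [zero_lt_iff, Valuation.ne_zero_iff]; simpa using ha)] at h
  have hpoly : ∀ q : K[X], aeval t q ∈ A := fun q => by
    induction q using Polynomial.induction_on' with
    | add p r hp hr => rw [map_add]; exact add_mem hp hr
    | monomial n a => rw [aeval_monomial]; exact mul_mem (hK a) (pow_mem htA n)
  have key : ∀ q : K[X], aeval t q ≠ 0 → ∃ m : ℤ, A.valuation (aeval t q) = A.valuation t ^ m := by
    intro q hq
    have hq0 : q ≠ 0 := by rintro rfl; simp at hq
    obtain ⟨r, hr, hndvd⟩ := Polynomial.exists_eq_pow_rootMultiplicity_mul_and_not_dvd q hq0 0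
    refine ⟨q.rootMultiplicity 0, ?_⟩
    rw [C_0, sub_zero] at hr hndvd
    have hr0 : r.coeff 0 ≠ 0 := fun h => hndvd (X_dvd_iff.mpr h)
    have h1 : A.valuation (aeval t r) = 1 := by
      have hdec : aeval t r = aeval t r.divX * t + algebraMap K F (r.coeff 0) := by
        conv_lhs => rw [← Polynomial.divX_mul_X_add r]
        simp
      have hlt : A.valuation (aeval t r.divX * t) < 1 := by
        rw [map_mul]
        exact lt_of_le_of_lt (mul_le_of_le_one_left' ((A.valuation_le_one_iff _).mpr (hpoly _))) ht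
      rw [hdec, Valuation.map_add_eq_of_lt_right _ (by rwa [hunit _ hr0]), hunit _ hr0]
    conv_lhs => rw [hr]
    rw [map_mul, map_pow, aeval_X, map_mul, map_pow, h1, mul_one, zpow_natCast]
  obtain ⟨p, q, rfl⟩ := (mem_adjoin_simple_iff K c).mp hc
  obtain ⟨hp, hq⟩ := div_ne_zero_iff.mp hc0
  obtain ⟨m, hm⟩ := key p hp
  obtain ⟨n, hn⟩ := key q hq
  refine ⟨m - n, ?_⟩
  rcases eq_or_ne t 0 with rfl | ht0
  · have h0 : ∀ (r : K[X]) (k : ℤ), aeval (0 : F) r ≠ 0 →
        A.valuation (aeval (0 : F) r) = A.valuation 0 ^ k → k = 0 := fun r k hr hk => by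
      by_contra hk0
      rw [map_zero, zero_zpow k hk0, Valuation.zero_iff] at hk
      exact hr hk
    rw [map_div₀, hm, hn, h0 p m hp hm, h0 q n hq hn]
    simp
  · rw [map_div₀, hm, hn, zpow_sub₀ ((Valuation.ne_zero_iff _).mpr ht0)]

omit v in
/-- A chain of divisors of `t` in a valuation ring containing `K` is no longer than `[F : K⟮t⟯]`. -/
theorem chain_length_le_finrank (A : ValuationSubring F) (hK : ∀ a : K, algebraMap K F a ∈ A)
    {t : F} (ht0 : t ≠ 0) (ht : A.valuation t < 1) [FiniteDimensional K⟮t⟯ F] {N : ℕ}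
    (x : Fin N → F) (hmono : StrictMono fun i => A.valuation (x i))
    (hlow : ∀ i, A.valuation t < A.valuation (x i)) (hup : ∀ i, A.valuation (x i) ≤ 1) :
    N ≤ Module.finrank K⟮t⟯ F := by
  classical
  suffices h : LinearIndependent K⟮t⟯ x by simpa using h.fintype_card_le_finrank
  rw [Fintype.linearIndependent_iff]
  intro g hg i
  by_contra hi
  set vt := A.valuation t
  have hvt : 0 < vt := zero_lt_iff.mpr ((Valuation.ne_zero_iff _).mpr ht0)
  have hinj : ∀ a b : Fin N, g a ≠ 0 → g b ≠ 0 →
      A.valuation (g a • x a) = A.valuation (g b • x b) → a = b := by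
    intro a b ha hb hab
    obtain ⟨m, hm⟩ := exists_valuation_eq_zpow A hK ht (g a).2 (by simpa using ha)
    obtain ⟨n, hn⟩ := exists_valuation_eq_zpow A hK ht (g b).2 (by simpa using hb)
    rw [IntermediateField.smul_def, IntermediateField.smul_def, smul_eq_mul, smul_eq_mul,
      map_mul, map_mul, hm, hn] at hab
    have key : ∀ (a b : Fin N) (m n : ℤ), m < n →
        vt ^ n * A.valuation (x b) < vt ^ m * A.valuation (x a) := by
      intro a b m n hmn
      calc vt ^ n * A.valuation (x b) ≤ vt ^ n * 1 := mul_le_mul_right (hup b) _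
        _ ≤ vt ^ (m + 1) := by
            rw [mul_one]
            exact zpow_le_zpow_right_of_le_one₀ hvt ht.le (by omega)
        _ = vt ^ m * vt := by rw [zpow_add_one₀ hvt.ne']
        _ < vt ^ m * A.valuation (x a) := by
            exact mul_lt_mul_of_pos_left (hlow a) (zpow_pos hvt m)
    rcases lt_trichotomy m n with h | rfl | h
    · exact absurd hab.symm (key a b m n h).ne
    · exact hmono.injective (mul_left_cancel₀ (zpow_ne_zero m hvt.ne') hab)
    · exact absurd hab (key b a n m h).ne
  obtain ⟨j, hj, hmax⟩ := Finset.exists_max_image (Finset.univ.filter fun a => g a ≠ 0)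
    (fun a => A.valuation (g a • x a)) ⟨i, by simpa using hi⟩
  simp only [Finset.mem_filter, Finset.mem_univ, true_and] at hj hmax
  have hjpos : 0 < A.valuation (g j • x j) := by
    rw [IntermediateField.smul_def, smul_eq_mul, map_mul]
    exact mul_pos (zero_lt_iff.mpr ((Valuation.ne_zero_iff _).mpr (by simpa using hj)))
      (hvt.trans (hlow j))
  have h := Valuation.map_sum_eq_of_lt A.valuation (f := fun a => g a • x a) (j := j)
    (Finset.mem_univ j) (fun a ha => by
      simp only [Finset.mem_sdiff, Finset.mem_singleton] at ha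
      rcases eq_or_ne (g a) 0 with h0 | h0
      · simpa [h0] using hjpos
      · exact lt_of_le_of_ne (hmax a h0) fun h => ha.2 (hinj a j h0 hj h))
  rw [hg, map_zero] at h
  exact hjpos.ne h

omit v in
/-- Every valuation subring of a function field that contains the constants is principal. -/
theorem isPrincipalIdealRing_valuationSubring [IsFunctionField1 K F] (A : ValuationSubring F)
    (hK : ∀ a : K, algebraMap K F a ∈ A) : IsPrincipalIdealRing A := by
  suffices h : WfDvdMonoid A from ((IsBezout.TFAE (R := A)).out 3 1).mp h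
  refine ⟨wellFounded_iff_isEmpty_descending_chain.mpr ⟨fun ⟨f, hf⟩ => ?_⟩⟩
  have hne : ∀ n, f (n + 1) ≠ 0 := fun n => (hf n).1
  have hlt : ∀ n, A.valuation (f (n + 1) : F) < A.valuation (f (n + 2) : F) := by
    intro n
    obtain ⟨-, z, hz, hfz⟩ := hf (n + 1)
    have hv : A.valuation (z : F) < 1 :=
      (A.valuation_lt_one_iff z).mp ((IsLocalRing.mem_maximalIdeal z).mpr hz)
    rw [show (f (n + 1) : F) = (f (n + 2) : F) * (z : F) from congrArg Subtype.val hfz, map_mul]
    exact mul_lt_of_lt_one_right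
      (zero_lt_iff.mpr ((Valuation.ne_zero_iff _).mpr (by simpa using hne (n + 1)))) hv
  have hmono : StrictMono fun n => A.valuation (f (n + 1) : F) := strictMono_nat_of_lt_succ hlt
  set t : F := (f 1 : F) with ht
  have ht1 : A.valuation t < 1 := lt_of_lt_of_le (hlt 0) (A.valuation_le_one _)
  have ht0 : t ≠ 0 := by simpa [ht] using hne 0
  have htr : Transcendental K t := by
    intro halg
    have hint : IsIntegral A t⁻¹ := by
      letI : Algebra K A := ((algebraMap K F).codRestrict A.toSubring hK).toAlgebra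
      haveI : IsScalarTower K A F := IsScalarTower.of_algebraMap_eq fun _ => rfl
      exact (isAlgebraic_iff_isIntegral.mp halg.inv).tower_top
    obtain ⟨y, hy⟩ := IsIntegrallyClosed.isIntegral_iff.mp hint
    have h2 : A.valuation t⁻¹ ≤ 1 := hy ▸ A.valuation_le_one y
    rw [map_inv₀, inv_le_one₀ (zero_lt_iff.mpr ((Valuation.ne_zero_iff _).mpr ht0))] at h2
    exact not_le.mpr ht1 h2
  haveI := finiteDimensional_adjoin htr
  have := chain_length_le_finrank A hK ht0 ht1
    (fun i : Fin (Module.finrank K⟮t⟯ F + 1) => (f ((i : ℕ) + 2) : F))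
    (fun a b hab => hmono (Nat.succ_lt_succ hab))
    (fun i => hmono (Nat.succ_pos (i : ℕ))) (fun i => A.valuation_le_one _)
  omega

omit v in
/-- Every nontrivial valuation subring containing the constants is a place. -/
def placeOfValuationSubring [IsFunctionField1 K F] (A : ValuationSubring F)
    (hK : ∀ a : K, algebraMap K F a ∈ A) (hne : A ≠ ⊤) : Place K F :=
  ⟨A, hK, hne, isPrincipalIdealRing_valuationSubring A hK⟩

omit v in
theorem exists_place_ord_pos [IsFunctionField1 K F] {f : F} (hf : Transcendental K f) :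
    ∃ v : Place K F, 0 < v.ord f := by
  set R := Algebra.adjoin K ({f} : Set F)
  set fR : R.toSubring := ⟨f, Algebra.self_mem_adjoin_singleton K f⟩
  have hne : Ideal.span {fR} ≠ ⊤ := by
    intro h
    obtain ⟨g, hg⟩ := isUnit_iff_exists_inv.mp (Ideal.span_singleton_eq_top.mp h)
    obtain ⟨p, hp⟩ : ∃ p : K[X], aeval f p = (g : F) := by
      have hg2 : (g : F) ∈ Algebra.adjoin K ({f} : Set F) := g.2
      rwa [Algebra.adjoin_singleton_eq_range_aeval] at hg2
    have hz : aeval f (X * p - 1) = 0 := by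
      rw [map_sub, map_mul, aeval_X, hp, map_one, sub_eq_zero]
      exact congrArg Subtype.val hg
    have h0 := transcendental_iff.mp hf _ hz
    have := congrArg (coeff · 0) h0
    simp at this
  obtain ⟨B, hB, hI⟩ := Ideal.image_subset_nonunits_valuationSubring _ hne
  have hfB : f ∈ B.nonunits := hI ⟨fR, Ideal.subset_span rfl, rfl⟩
  have hf0 : f ≠ 0 := fun h => hf (h ▸ isAlgebraic_zero)
  have hlt : B.valuation f < 1 := B.mem_nonunits_iff.mp hfB
  have hne' : B ≠ ⊤ := by
    rintro rfl
    have h : (⊤ : ValuationSubring F).valuation f⁻¹ ≤ 1 :=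
      (ValuationSubring.valuation_le_one_iff _ _).mpr trivial
    rw [map_inv₀, inv_le_one₀ (zero_lt_iff.mpr ((Valuation.ne_zero_iff _).mpr hf0))] at h
    exact not_le.mpr hlt h
  refine ⟨placeOfValuationSubring B (fun a => hB (R.algebraMap_mem a)) hne', ?_⟩
  have hnot : f⁻¹ ∉ B := fun h => by
    have h2 := (B.valuation_le_one_iff _).mpr h
    rw [map_inv₀, inv_le_one₀ (zero_lt_iff.mpr ((Valuation.ne_zero_iff _).mpr hf0))] at h2
    exact not_le.mpr hlt h2
  by_contra hle
  apply hnot
  refine mem_of_ord_nonneg (placeOfValuationSubring B (fun a => hB (R.algebraMap_mem a)) hne') ?_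
  rw [Place.ord_inv]
  omega

omit v in
theorem exists_place_ord_neg [IsFunctionField1 K F] {f : F} (hf : Transcendental K f) :
    ∃ v : Place K F, v.ord f < 0 := by
  obtain ⟨v, hv⟩ := exists_place_ord_pos (K := K) (f := f⁻¹)
    (fun h => hf (by simpa using h.inv))
  exact ⟨v, by rw [v.ord_inv] at hv; omega⟩

omit v in
theorem isAlgebraic_of_forall_ord_nonneg [IsFunctionField1 K F] {f : F}
    (h : ∀ v : Place K F, 0 ≤ v.ord f) : IsAlgebraic K f := by
  by_contra hf
  obtain ⟨v, hv⟩ := exists_place_ord_neg (K := K) hf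
  exact absurd (h v) (by omega)

omit v in
/-- `f` is integral over a subring iff it is integral at all places containing that subring. -/
theorem isIntegral_adjoin_iff [IsFunctionField1 K F] (s : Set F) (f : F) :
    IsIntegral (Algebra.adjoin K s) f ↔
      ∀ v : Place K F, (∀ x ∈ s, x ∈ v.toValuationSubring) → f ∈ v.toValuationSubring := by
  constructor
  · intro hint v hv
    have hle : Algebra.adjoin K s ≤ Subalgebra.mk v.toValuationSubring.toSubsemiring
        (fun a => v.algebraMap_mem' a) := Algebra.adjoin_le hv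
    let φ : Algebra.adjoin K s →+* v.toValuationSubring :=
      (Algebra.adjoin K s).val.toRingHom.codRestrict v.toValuationSubring.toSubring fun a => hle a.2
    letI : Algebra (Algebra.adjoin K s) v.toValuationSubring := φ.toAlgebra
    haveI : IsScalarTower (Algebra.adjoin K s) v.toValuationSubring F :=
      IsScalarTower.of_algebraMap_eq fun _ => rfl
    obtain ⟨y, hy⟩ := IsIntegrallyClosed.isIntegral_iff.mp
      (hint.tower_top : IsIntegral v.toValuationSubring f)
    exact hy ▸ y.2
  · intro h
    by_contra hf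
    set R := (integralClosure (Algebra.adjoin K s) F).toSubring
    haveI : IsIntegrallyClosedIn R F :=
      inferInstanceAs (IsIntegrallyClosedIn (integralClosure (Algebra.adjoin K s) F) F)
    obtain ⟨V, hV, hfV⟩ := R.exists_le_valuationSubring_of_isIntegrallyClosedIn (x := f) hf
    have hmem : ∀ a ∈ Algebra.adjoin K s, a ∈ V := fun a ha =>
      hV (algebraMap_mem (integralClosure (Algebra.adjoin K s) F) (⟨a, ha⟩ : Algebra.adjoin K s))
    exact hfV (h (placeOfValuationSubring V (fun a => hmem _ (algebraMap_mem _ a))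
      (fun htop => hfV (htop ▸ trivial))) fun x hx => hmem x (Algebra.subset_adjoin hx))

end Discrete

section Restrict

variable {E F' : Type*} [Field E] [Field F'] [Algebra K E] [Algebra K F'] [Algebra E F']
  [IsScalarTower K E F'] [Algebra.IsIntegral E F']

theorem ordGE_algebraMap_of_restrict {w : Place K F'} {v : Place K E} (h : w.restrict E = v)
    {n : ℤ} {c : E} (hc : OrdGE v n c) :
    OrdGE w (w.ramificationIndex E * n) (algebraMap E F' c) := by
  rcases eq_or_ne c 0 with rfl | h0
  · simpa using ordGE_zero _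
  · refine ordGE_of_le_ord ?_
    rw [w.ord_restrict c, h]
    exact mul_le_mul_of_nonneg_left (hc.le_ord h0) (by positivity)

theorem restrict_eq_iff {w : Place K F'} {v : Place K E} :
    w.restrict E = v ↔ ∀ c ∈ v.toValuationSubring, algebraMap E F' c ∈ w.toValuationSubring := by
  constructor
  · rintro rfl c hc
    exact hc
  · intro h
    exact (eq_of_toValuationSubring_le (v := v) (w := w.restrict E) fun c hc => h c hc).symm

end Restrict

end Fermat.Agent.Curve
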