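import Fermat.Agent.Curve.Fibre

/-!
# Functoriality of places, push-forward and pull-back

Towers, `π_* π^* = n`, the algebraically closed case, divisors of functions, isomorphisms.

Owner: helper40.
-/

set_option autoImplicit false
set_option linter.style.haveILetI false
set_option linter.unusedSectionVars false

noncomputable section

open IntermediateField AlgebraicCurve

namespace Fermat.Agent.Curve

section Tower

variable {K F F' F'' : Type*} [Field K] [Field F] [Field F'] [Field F'']
  [Algebra K F] [Algebra K F'] [Algebra K F''] [Algebra F F'] [Algebra F' F''] [Algebra F F'']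
  [IsScalarTower K F F'] [IsScalarTower K F' F''] [IsScalarTower K F F'']
  [IsScalarTower F F' F'']
  [Algebra.IsIntegral F F'] [Algebra.IsIntegral F' F''] [Algebra.IsIntegral F F'']

theorem restrict_restrict (w : Place K F'') : (w.restrict F').restrict F = w.restrict F := by
  ext f
  simp only [Place.restrict_toValuationSubring, ValuationSubring.mem_comap,
    ← IsScalarTower.algebraMap_apply]

theorem ramificationIndex_tower (w : Place K F'') :
    w.ramificationIndex F = w.ramificationIndex F' * (w.restrict F').ramificationIndex F := by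
  obtain ⟨t, ht0, ht1⟩ := exists_uniformizer (w.restrict F)
  have h1 := w.ord_restrict (F := F) t
  rw [ht1, mul_one, IsScalarTower.algebraMap_apply F F' F'', w.ord_restrict (F := F'),
    (w.restrict F').ord_restrict (F := F), restrict_restrict, ht1, mul_one] at h1
  exact_mod_cast h1.symm

theorem inertiaDeg_tower [IsFunctionField1 K F] (w : Place K F'') :
    w.inertiaDeg F = (w.restrict F').inertiaDeg F * w.inertiaDeg F' := by
  have h1 := w.deg_restrict_mul_inertiaDeg (F := F)
  have h2 := w.deg_restrict_mul_inertiaDeg (F := F')
  have h3 := (w.restrict F').deg_restrict_mul_inertiaDeg (F := F)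
  rw [restrict_restrict] at h3
  rw [← h2, ← h3, mul_assoc] at h1
  exact Nat.eq_of_mul_eq_mul_left (deg_pos (w.restrict F)) h1

theorem pullback_pullback [HasPrincipalDivisors K F'] [HasPrincipalDivisors K F'']
    (D : Divisor K F) :
    Divisor.pullback F'' (Divisor.pullback F' D) = Divisor.pullback F'' D := by
  ext w
  rw [Divisor.pullback_apply, Divisor.pullback_apply, Divisor.pullback_apply, restrict_restrict,
    ramificationIndex_tower (F := F) (F' := F') w]
  push_cast; ring

theorem pushforward_pushforward [IsFunctionField1 K F] (D : Divisor K F'') :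
    Divisor.pushforward F (Divisor.pushforward F' D) = Divisor.pushforward F D := by
  induction D using Finsupp.induction with
  | zero => simp
  | single_add w n D _ _ ih =>
    simp only [map_add, Divisor.pushforward_single, ih, restrict_restrict,
      inertiaDeg_tower (F := F) (F' := F') w]
    congr 2
    push_cast
    ring

end Tower

section Finite

variable {K F F' : Type*} [Field K] [Field F] [Field F'] [Algebra K F] [Algebra K F']
  [Algebra F F'] [IsScalarTower K F F'] [IsFunctionField1 K F] [IsFunctionField1 K F']
  [FiniteDimensional F F']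

theorem pushforward_pullback (D : Divisor K F) :
    Divisor.pushforward F (Divisor.pullback F' D) = (Module.finrank F F' : ℤ) • D := by
  induction D using Finsupp.induction with
  | zero => simp
  | single_add v n D _ _ ih =>
    rw [map_add, map_add, ih, smul_add, Divisor.pullback_single, map_sum, Finsupp.smul_single,
      smul_eq_mul, ← sum_ramificationIndex_mul_inertiaDeg_eq (F' := F') v, Finset.sum_mul,
      Finsupp.single_finsetSum]
    congr 1
    refine Finset.sum_congr rfl fun w hw => ?_
    rw [Divisor.pushforward_single, Place.mem_fiber.mp hw]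
    congr 1; ring

theorem pullback_divisorOf (f : F) :
    Divisor.pullback F' (divisorOf (K := K) f) = divisorOf (algebraMap F F' f) := by
  ext w
  rw [Divisor.pullback_apply, divisorOf_apply, divisorOf_apply, Place.ord_restrict]

theorem pushforward_divisorOf {f : F'} (hf : f ≠ 0) :
    Divisor.pushforward F (divisorOf (K := K) f) = divisorOf (Algebra.norm F f) :=
  Finsupp.ext fun v =>
    (pushforwardNormFormula f hf (divisorOf f) (fun w => divisorOf_apply f w) v).trans
      (divisorOf_apply _ v).symm

theorem pushforward_eq_mapRestrict [IsAlgClosed K] (D : Divisor K F') :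
    Divisor.pushforward F D = Divisor.mapRestrict F D := by
  induction D using Finsupp.induction with
  | zero => simp
  | single_add w n D _ _ ih =>
    simp [map_add, ih, inertiaDeg_eq_one]

theorem pushforward_single_of_isAlgClosed [IsAlgClosed K] (w : Place K F') (n : ℤ) :
    Divisor.pushforward F (Finsupp.single w n) = Finsupp.single (w.restrict F) n := by
  simp [inertiaDeg_eq_one]

end Finite

section Along

variable {K F F' F'' : Type*} [Field K] [Field F] [Field F'] [Field F'']
  [Algebra K F] [Algebra K F'] [Algebra K F'']
  [IsFunctionField1 K F] [IsFunctionField1 K F'] [IsFunctionField1 K F'']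
  (φ : F →ₐ[K] F') (hφ : φ.toRingHom.IsIntegral)
  (ψ : F' →ₐ[K] F'') (hψ : ψ.toRingHom.IsIntegral)

theorem restrictAlong_comp (hc : (ψ.comp φ).toRingHom.IsIntegral) (w : Place K F'') :
    (w.restrictAlong ψ hψ).restrictAlong φ hφ = w.restrictAlong (ψ.comp φ) hc :=
  Place.ext rfl

theorem ramificationIndexAlong_comp (w : Place K F'') :
    w.ramificationIndexAlong (ψ.comp φ) =
      w.ramificationIndexAlong ψ * (w.restrictAlong ψ hψ).ramificationIndexAlong φ := by
  letI := algebraAlong φ
  letI := algebraAlong ψ
  letI := algebraAlong (ψ.comp φ)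
  haveI := isScalarTower_along φ
  haveI := isScalarTower_along ψ
  haveI := isScalarTower_along (ψ.comp φ)
  haveI : Algebra.IsIntegral F F' := ⟨isIntegralAlong φ⟩
  haveI : Algebra.IsIntegral F' F'' := ⟨hψ⟩
  haveI : Algebra.IsIntegral F F'' := ⟨isIntegralAlong (ψ.comp φ)⟩
  haveI : IsScalarTower F F' F'' := IsScalarTower.of_algebraMap_eq fun _ => rfl
  exact ramificationIndex_tower (F := F) (F' := F') w

theorem inertiaDegAlong_comp (hc : (ψ.comp φ).toRingHom.IsIntegral) (w : Place K F'') :
    w.inertiaDegAlong (ψ.comp φ) hc =
      (w.restrictAlong ψ hψ).inertiaDegAlong φ hφ * w.inertiaDegAlong ψ hψ := by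
  letI := algebraAlong φ
  letI := algebraAlong ψ
  letI := algebraAlong (ψ.comp φ)
  haveI := isScalarTower_along φ
  haveI := isScalarTower_along ψ
  haveI := isScalarTower_along (ψ.comp φ)
  haveI : Algebra.IsIntegral F F' := ⟨hφ⟩
  haveI : Algebra.IsIntegral F' F'' := ⟨hψ⟩
  haveI : Algebra.IsIntegral F F'' := ⟨hc⟩
  haveI : IsScalarTower F F' F'' := IsScalarTower.of_algebraMap_eq fun _ => rfl
  exact inertiaDeg_tower (F := F) (F' := F') w

theorem pullbackAlong_comp (hc : (ψ.comp φ).toRingHom.IsIntegral) (D : Divisor K F) :
    Divisor.pullbackAlong ψ hψ (Divisor.pullbackAlong φ hφ D) =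
      Divisor.pullbackAlong (ψ.comp φ) hc D := by
  ext w
  rw [Divisor.pullbackAlong_apply, Divisor.pullbackAlong_apply, Divisor.pullbackAlong_apply,
    restrictAlong_comp φ hφ ψ hψ hc, ramificationIndexAlong_comp φ ψ hψ]
  push_cast; ring

theorem pushforwardAlong_comp (hc : (ψ.comp φ).toRingHom.IsIntegral) (D : Divisor K F'') :
    Divisor.pushforwardAlong φ hφ (Divisor.pushforwardAlong ψ hψ D) =
      Divisor.pushforwardAlong (ψ.comp φ) hc D := by
  induction D using Finsupp.induction with
  | zero => simp
  | single_add w n D _ _ ih =>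
    simp only [map_add, Divisor.pushforwardAlong_single, ih, restrictAlong_comp φ hφ ψ hψ hc,
      inertiaDegAlong_comp φ hφ ψ hψ hc]
    congr 2
    push_cast
    ring

theorem pushforwardAlong_pullbackAlong (D : Divisor K F) :
    Divisor.pushforwardAlong φ hφ (Divisor.pullbackAlong φ hφ D) =
      (finrankAlong K φ : ℤ) • D := by
  letI := algebraAlong φ
  haveI := isScalarTower_along φ
  haveI : Module.Finite F F' := finiteAlong φ
  exact pushforward_pullback D

theorem pullbackAlong_divisorOf (f : F) :
    Divisor.pullbackAlong φ hφ (divisorOf (K := K) f) = divisorOf (φ f) := by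
  letI := algebraAlong φ
  haveI := isScalarTower_along φ
  haveI : Module.Finite F F' := finiteAlong φ
  exact pullback_divisorOf f

theorem inertiaDegAlong_eq_one [IsAlgClosed K] (w : Place K F') : w.inertiaDegAlong φ hφ = 1 := by
  letI := algebraAlong φ
  haveI := isScalarTower_along φ
  haveI : Module.Finite F F' := finiteAlong φ
  exact inertiaDeg_eq_one w

theorem pushforwardAlong_single_of_isAlgClosed [IsAlgClosed K] (w : Place K F') (n : ℤ) :
    Divisor.pushforwardAlong φ hφ (Finsupp.single w n) =
      Finsupp.single (w.restrictAlong φ hφ) n := by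
  rw [Divisor.pushforwardAlong_single, inertiaDegAlong_eq_one φ hφ w, Nat.cast_one, mul_one]

theorem sum_ramificationIndexAlong_mul_inertiaDegAlong (P : Place K F) :
    ∑ w ∈ Place.fiberAlong φ hφ P,
        (w.ramificationIndexAlong φ : ℤ) * (w.inertiaDegAlong φ hφ : ℤ) = finrankAlong K φ := by
  letI := algebraAlong φ
  haveI := isScalarTower_along φ
  haveI : Module.Finite F F' := finiteAlong φ
  exact sum_ramificationIndex_mul_inertiaDeg_eq (F' := F') P

theorem sum_ramificationIndexAlong [IsAlgClosed K] (P : Place K F) :
    ∑ w ∈ Place.fiberAlong φ hφ P, w.ramificationIndexAlong φ = finrankAlong K φ := by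
  letI := algebraAlong φ
  haveI := isScalarTower_along φ
  haveI : Module.Finite F F' := finiteAlong φ
  exact sum_ramificationIndex_eq_finrank P

/-- A correspondence at one point, as a sum over a fibre. -/
theorem correspondence_single [IsAlgClosed K] (χ : F →ₐ[K] F') (hχ : χ.toRingHom.IsIntegral)
    (P : Place K F) (n : ℤ) :
    Divisor.correspondence φ χ hφ hχ (Finsupp.single P n) =
      ∑ w ∈ Place.fiberAlong φ hφ P,
        Finsupp.single (w.restrictAlong χ hχ) (n * w.ramificationIndexAlong φ) := by
  rw [Divisor.correspondence_apply, Divisor.pullbackAlong_single, map_sum]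
  simp only [pushforwardAlong_single_of_isAlgClosed]

end Along

section Iso

variable {K F G : Type*} [Field K] [Field F] [Field G] [Algebra K F] [Algebra K G]

theorem isIntegral_algEquiv (e : F ≃ₐ[K] G) : e.toAlgHom.toRingHom.IsIntegral :=
  RingHom.IsIntegral.of_finite (RingHom.Finite.of_surjective _ e.surjective)

/-- Places along an isomorphism. -/
def placeComap (e : F ≃ₐ[K] G) : Place K G ≃ Place K F where
  toFun w := w.restrictAlong e.toAlgHom (isIntegral_algEquiv e)
  invFun v := v.restrictAlong e.symm.toAlgHom (isIntegral_algEquiv e.symm)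
  left_inv w := Place.ext (SetLike.ext fun x => by
    show e (e.symm x) ∈ w.toValuationSubring ↔ x ∈ w.toValuationSubring
    rw [e.apply_symm_apply])
  right_inv v := Place.ext (SetLike.ext fun x => by
    show e.symm (e x) ∈ v.toValuationSubring ↔ x ∈ v.toValuationSubring
    rw [e.symm_apply_apply])

theorem mem_placeComap_iff (e : F ≃ₐ[K] G) (w : Place K G) (x : F) :
    x ∈ (placeComap e w).toValuationSubring ↔ e x ∈ w.toValuationSubring := Iff.rfl

theorem ord_placeComap (e : F ≃ₐ[K] G) (w : Place K G) (x : F) :
    (placeComap e w).ord x = w.ord (e x) := by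
  obtain ⟨t, ht0, ht1⟩ := exists_uniformizer w
  have h : ∀ y : F, w.ord (e y) =
      (w.ramificationIndexAlong e.toAlgHom : ℤ) * (placeComap e w).ord y := fun y =>
    Place.ord_restrictAlong e.toAlgHom (isIntegral_algEquiv e) w y
  have h1 := h (e.symm t)
  rw [e.apply_symm_apply, ht1] at h1
  rcases Int.mul_eq_one_iff_eq_one_or_neg_one.mp h1.symm with ⟨ha, -⟩ | ⟨ha, -⟩
  · rw [h x, ha, one_mul]
  · omega

theorem isFunctionField1_of_algEquivAlong (e : F ≃ₐ[K] G) [IsFunctionField1 K F] :
    IsFunctionField1 K G := by
  letI := algebraAlong e.toAlgHom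
  haveI := isScalarTower_along e.toAlgHom
  haveI : FiniteDimensional F G :=
    Module.Finite.of_surjective (Algebra.linearMap F G) e.surjective
  exact IsFunctionField1.of_finite K F G

theorem deg_placeComap [IsFunctionField1 K F] (e : F ≃ₐ[K] G) (w : Place K G) :
    (placeComap e w).deg = w.deg := by
  haveI := isFunctionField1_of_algEquivAlong e
  letI := algebraAlong e.toAlgHom
  haveI := isScalarTower_along e.toAlgHom
  haveI : FiniteDimensional F G :=
    Module.Finite.of_surjective (Algebra.linearMap F G) e.surjective
  have hn : Module.finrank F G = 1 :=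
    (LinearEquiv.ofBijective (Algebra.linearMap F G) e.bijective).finrank_eq.symm.trans
      (Module.finrank_self F)
  have hle := Finset.single_le_sum (f := fun u : Place K G =>
      (u.ramificationIndex F : ℤ) * (u.inertiaDeg F : ℤ)) (fun _ _ => by positivity)
    (Place.restrict_mem_fiber (F := F) w)
  rw [sum_ramificationIndex_mul_inertiaDeg_eq, hn] at hle
  have hf : w.inertiaDeg F ≤ 1 := by
    have := w.ramificationIndex_pos (F := F)
    push_cast at hle
    have : (w.inertiaDeg F : ℤ) ≤ 1 := le_trans (le_mul_of_one_le_left (by positivity)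
      (by exact_mod_cast this)) hle
    exact_mod_cast this
  have h := w.deg_restrict_mul_inertiaDeg (F := F)
  have hpos := deg_pos w
  show (w.restrict F).deg = w.deg
  interval_cases hw : w.inertiaDeg F
  · omega
  · omega

end Iso

end Fermat.Agent.Curve

end
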