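import Fermat.Prelude.Def_AlgebraicCurve_IsCurveOver
import Fermat.Prelude.Def_AlgebraicCurve_Repartitions
import Fermat.Prelude.Def_AlgebraicCurve_DivisorPushPull
import Mathlib.FieldTheory.IntermediateField.Adjoin.Basic
import Mathlib.RingTheory.Algebraic.Integral
import Mathlib.FieldTheory.IntermediateField.Algebraic
import Mathlib.RingTheory.Adjoin.Polynomial.Bivariate

/-!
# Function fields of one variable: the standing hypothesis

`IsFunctionField1 K F`: `F` is finite over `K⟮x⟯` for some `x` transcendental over `K`.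
The whole library `Fermat.Agent.Curve.*` works under this hypothesis.
-/

set_option autoImplicit false
set_option linter.style.haveILetI false

noncomputable section

open IntermediateField AlgebraicCurve

namespace Fermat.Agent.Curve

/-- `F` is a function field of one variable over `K`. -/
class IsFunctionField1 (K F : Type*) [Field K] [Field F] [Algebra K F] : Prop where
  exists_transcendental' : ∃ x : F, Transcendental K x ∧ FiniteDimensional K⟮x⟯ F

variable {K F : Type*} [Field K] [Field F] [Algebra K F]

theorem IsFunctionField1.of_finite_adjoin {x : F} (hx : Transcendental K x)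
    (h : FiniteDimensional K⟮x⟯ F) : IsFunctionField1 K F :=
  ⟨⟨x, hx, h⟩⟩

/-- A function field is finite over `K⟮y⟯` for every transcendental `y`. -/
theorem finiteDimensional_adjoin [IsFunctionField1 K F] {y : F} (hy : Transcendental K y) :
    FiniteDimensional K⟮y⟯ F := by
  obtain ⟨x, hx, hfd⟩ := IsFunctionField1.exists_transcendental' (K := K) (F := F)
  have hxy : IsAlgebraic K⟮y⟯ x :=
    isAlgebraic_adjoin_iff.mpr (.adjoin_singleton hx hy
      (isAlgebraic_adjoin_iff.mp (Algebra.IsAlgebraic.isAlgebraic y)))
  haveI : FiniteDimensional K⟮y⟯ K⟮y⟯⟮x⟯ :=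
    adjoin.finiteDimensional (isAlgebraic_iff_isIntegral.mp hxy)
  haveI : FiniteDimensional K⟮y⟯⟮x⟯ F := by
    have hle : K⟮x⟯ ≤ (K⟮y⟯⟮x⟯).restrictScalars K := by
      rw [adjoin_simple_le_iff, mem_restrictScalars]
      exact mem_adjoin_simple_self _ x
    letI : Algebra K⟮x⟯ K⟮y⟯⟮x⟯ := (IntermediateField.inclusion hle).toRingHom.toAlgebra
    haveI : IsScalarTower K⟮x⟯ K⟮y⟯⟮x⟯ F := IsScalarTower.of_algebraMap_eq fun _ => rfl
    exact Module.Finite.right K⟮x⟯ K⟮y⟯⟮x⟯ F
  exact Module.Finite.trans K⟮y⟯⟮x⟯ F

/-- An element algebraic over `K`, seen in a bigger field, stays algebraic; transcendence is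
inherited along field embeddings. -/
theorem transcendental_map {F' : Type*} [Field F'] [Algebra K F'] [Algebra F F']
    [IsScalarTower K F F'] {x : F} (hx : Transcendental K x) :
    Transcendental K (algebraMap F F' x) :=
  (transcendental_algebraMap_iff (algebraMap F F').injective).mpr hx

/-- A finite extension of a function field is a function field. -/
theorem IsFunctionField1.of_finite (K F F' : Type*) [Field K] [Field F] [Field F'] [Algebra K F]
    [Algebra K F'] [Algebra F F'] [IsScalarTower K F F'] [IsFunctionField1 K F]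
    [FiniteDimensional F F'] : IsFunctionField1 K F' := by
  obtain ⟨x, hx, hfd⟩ := IsFunctionField1.exists_transcendental' (K := K) (F := F)
  refine ⟨⟨algebraMap F F' x, transcendental_map hx, ?_⟩⟩
  have hmem : algebraMap F F' x ∈ K⟮algebraMap F F' x⟯ := mem_adjoin_simple_self _ _
  let g : K⟮x⟯ →ₐ[K] K⟮algebraMap F F' x⟯ :=
    ((IsScalarTower.toAlgHom K F F').comp K⟮x⟯.val).codRestrict
      K⟮algebraMap F F' x⟯.toSubalgebra (fun z => by
        have hle : K⟮x⟯ ≤ K⟮algebraMap F F' x⟯.comap (IsScalarTower.toAlgHom K F F') := by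
          rw [adjoin_simple_le_iff]; exact hmem
        exact hle z.2)
  letI : Algebra K⟮x⟯ K⟮algebraMap F F' x⟯ := g.toRingHom.toAlgebra
  haveI : IsScalarTower K⟮x⟯ K⟮algebraMap F F' x⟯ F' :=
    IsScalarTower.of_algebraMap_eq fun _ => rfl
  haveI : FiniteDimensional K⟮x⟯ F' := Module.Finite.trans F F'
  exact Module.Finite.right K⟮x⟯ K⟮algebraMap F F' x⟯ F'

/-- The generator of `K⟮x⟯`. -/
theorem transcendental_gen {x : F} (hx : Transcendental K x) :
    Transcendental K (IntermediateField.AdjoinSimple.gen K x) := by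
  rw [← transcendental_algebraMap_iff (A := F) (algebraMap K⟮x⟯ F).injective]
  exact hx

/-- `K⟮x⟯` is generated by its generator. -/
theorem adjoin_gen_eq_top (x : F) :
    (K⟮IntermediateField.AdjoinSimple.gen K x⟯ : IntermediateField K K⟮x⟯) = ⊤ := by
  apply IntermediateField.map_injective K⟮x⟯.val
  rw [adjoin_map, ← AlgHom.fieldRange_eq_map, IntermediateField.fieldRange_val]
  simp

/-- `K⟮x⟯` is a function field for transcendental `x`. -/
theorem isFunctionField1_adjoin {x : F} (hx : Transcendental K x) : IsFunctionField1 K K⟮x⟯ := by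
  refine ⟨⟨IntermediateField.AdjoinSimple.gen K x, transcendental_gen hx, ?_⟩⟩
  have htop := adjoin_gen_eq_top (K := K) x
  rw [htop]
  exact Module.Finite.top_left _ _

end Fermat.Agent.Curve

end
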