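import Fermat.Prelude.Def_ModularCurve_CanonicalDivisor
import Mathlib.RingTheory.Nakayama
import Mathlib.FieldTheory.Perfect

/-!
# Local theory of differentials at a place

`v.differentials` is the `O_v`-submodule of `Ω[F⁄K]` spanned by `D a`, `a ∈ O_v`.
If it is finitely generated and the residue field is separable over `K`, it is `O_v • D t` for
every `t` with `ord_v t = 1`.
-/

set_option autoImplicit false
set_option linter.style.haveILetI false

noncomputable section

open KaehlerDifferential AlgebraicCurve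

namespace Fermat.Agent.Curve

variable {K F : Type*} [Field K] [Field F] [Algebra K F] (v : Place K F)

theorem place_mem_iff {a : F} : a ∈ v.toValuationSubring ↔ a = 0 ∨ 0 ≤ v.ord a := by
  rcases eq_or_ne a 0 with rfl | ha
  · simp [zero_mem]
  obtain ⟨π, hπ⟩ := IsDiscreteValuationRing.exists_irreducible v.toValuationSubring
  constructor
  · intro h
    obtain ⟨n, u, hu⟩ := IsDiscreteValuationRing.eq_unit_mul_pow_irreducible
      (x := (⟨a, h⟩ : v.toValuationSubring)) (by simpa [Subtype.ext_iff] using ha) hπ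
    have hu' : a = ((u : v.toValuationSubring) : F) * ((π : F) ^ (n : ℤ)) := by
      rw [zpow_natCast]; simpa using congrArg Subtype.val hu
    right
    rw [hu', v.ord_unit_smul_zpow u hπ]
    exact Int.natCast_nonneg n
  · rintro (h | h)
    · exact absurd h ha
    obtain ⟨u, hu⟩ := v.exists_unit_mul_zpow ha hπ
    obtain ⟨n, hn⟩ := Int.eq_ofNat_of_zero_le h
    rw [hu, hn, zpow_natCast]
    exact mul_mem (u : v.toValuationSubring).2 (pow_mem π.2 n)

theorem place_ord_coe_nonneg (a : v.toValuationSubring) : 0 ≤ v.ord (a : F) := by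
  rcases (place_mem_iff v).mp a.2 with h | h
  · simp [h]
  · exact h

theorem place_ne_zero_of_ord_ne_zero {a : F} (h : v.ord a ≠ 0) : a ≠ 0 := by
  rintro rfl; simp at h

theorem place_irreducible_of_ord_one {t : F} (ht : v.ord t = 1) :
    ∃ π : v.toValuationSubring, Irreducible π ∧ (π : F) = t := by
  have ht0 : t ≠ 0 := place_ne_zero_of_ord_ne_zero v (by omega)
  obtain ⟨π, hπ⟩ := IsDiscreteValuationRing.exists_irreducible v.toValuationSubring
  obtain ⟨u, hu⟩ := v.exists_unit_mul_zpow ht0 hπ
  rw [ht, zpow_one] at hu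
  exact ⟨(u : v.toValuationSubring) * π, (irreducible_units_mul u).mpr hπ, hu.symm⟩

theorem place_exists_ord_one : ∃ t : F, v.ord t = 1 := by
  obtain ⟨π, hπ⟩ := IsDiscreteValuationRing.exists_irreducible v.toValuationSubring
  exact ⟨π, v.ord_coe_irreducible hπ⟩

/-- The `O_v`-module spanned by the differentials of elements of `O_v`. -/
def differentials : Submodule v.toValuationSubring Ω[F⁄K] :=
  Submodule.span v.toValuationSubring (Set.range fun a : v.toValuationSubring => D K F (a : F))

variable {v}

theorem D_mem_differentials (a : v.toValuationSubring) :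
    D K F (a : F) ∈ differentials v :=
  Submodule.subset_span ⟨a, rfl⟩

theorem smul_valuationSubring_eq (a : v.toValuationSubring) (ω : Ω[F⁄K]) :
    a • ω = (a : F) • ω := (algebraMap_smul F a ω).symm

/-- If `O_v`-differentials are finitely generated and the residue field is separable, then every
uniformiser `t` generates them. -/
theorem differentials_eq_span_D [Algebra.IsSeparable K v.ResidueField]
    (hfg : (differentials v).FG) {t : F} (ht : v.ord t = 1) :
    differentials v = Submodule.span v.toValuationSubring {D K F t} := by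
  obtain ⟨π, hπ, rfl⟩ := place_irreducible_of_ord_one v ht
  refine le_antisymm ?_ (Submodule.span_le.mpr (by simpa using D_mem_differentials π))
  refine Submodule.le_of_le_smul_of_le_jacobson_bot
    (I := IsLocalRing.maximalIdeal v.toValuationSubring) hfg
    (IsLocalRing.maximalIdeal_le_jacobson _) ?_
  refine Submodule.span_le.mpr ?_
  rintro - ⟨a, rfl⟩
  -- a separable equation of the residue of `a`
  set r := IsLocalRing.residue v.toValuationSubring a with hr
  set P := minpoly K r with hP
  have hsep : P.Separable := Algebra.IsSeparable.isSeparable K r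
  have hres : ∀ Q : Polynomial K,
      IsLocalRing.residue v.toValuationSubring (Polynomial.aeval a Q) = Polynomial.aeval r Q := by
    intro Q
    exact (Polynomial.aeval_algHom_apply
      ((IsScalarTower.toAlgHom K v.toValuationSubring v.ResidueField)) a Q).symm
  have hroot : Polynomial.aeval a P ∈ IsLocalRing.maximalIdeal v.toValuationSubring := by
    rw [← IsLocalRing.residue_eq_zero_iff, hres]
    exact minpoly.aeval K r
  have hunit : IsUnit (Polynomial.aeval a P.derivative) := by
    rw [← IsLocalRing.notMem_maximalIdeal, ← IsLocalRing.residue_eq_zero_iff, hres]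
    exact Polynomial.Separable.aeval_derivative_ne_zero hsep (minpoly.aeval K r)
  rw [hπ.maximalIdeal_eq, Ideal.mem_span_singleton] at hroot
  obtain ⟨b, hb⟩ := hroot
  obtain ⟨u, hu⟩ := hunit
  have hbF : Polynomial.aeval (a : F) P = (π : F) * (b : F) := by
    have := congrArg (IsScalarTower.toAlgHom K v.toValuationSubring F) hb
    rw [← Polynomial.aeval_algHom_apply] at this
    simpa using this
  have huF : Polynomial.aeval (a : F) P.derivative = ((u : v.toValuationSubring) : F) := by
    have := congrArg (IsScalarTower.toAlgHom K v.toValuationSubring F) hu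
    rw [← Polynomial.aeval_algHom_apply] at this
    simpa using this.symm
  have key : (u : v.toValuationSubring) • D K F (a : F)
      = b • D K F (π : F) + π • D K F (b : F) := by
    have := congrArg (D K F) hbF
    rw [Derivation.map_aeval, huF, Derivation.leibniz] at this
    simp only [smul_valuationSubring_eq]
    rw [this]
    abel
  have : D K F (a : F) = ((↑u⁻¹ : v.toValuationSubring) * b) • D K F (π : F)
      + π • ((↑u⁻¹ : v.toValuationSubring) • D K F (b : F)) := by
    rw [mul_smul, smul_comm π, ← smul_add, ← key, smul_smul, Units.inv_mul, one_smul]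
  show D K F (a : F) ∈ _
  rw [this]
  refine add_mem (Submodule.mem_sup_left
    (Submodule.smul_mem _ _ (Submodule.mem_span_singleton_self _))) (Submodule.mem_sup_right ?_)
  exact Submodule.smul_mem_smul (hπ.maximalIdeal_eq ▸ Ideal.mem_span_singleton_self π)
    (Submodule.smul_mem _ _ (D_mem_differentials b))

section Coordinates

variable [Algebra.IsSeparable K v.ResidueField] (hfg : (differentials v).FG)
include hfg

theorem exists_coe_smul_D {t : F} (ht : v.ord t = 1) (a : v.toValuationSubring) :
    ∃ c : v.toValuationSubring, D K F (a : F) = (c : F) • D K F t := by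
  have h := D_mem_differentials a
  rw [differentials_eq_span_D hfg ht, Submodule.mem_span_singleton] at h
  obtain ⟨c, hc⟩ := h
  exact ⟨c, by rw [← smul_valuationSubring_eq, hc]⟩

theorem span_D_eq_top_of_ord_one {t : F} (ht : v.ord t = 1) :
    Submodule.span F {D K F t} = ⊤ := by
  rw [eq_top_iff, ← KaehlerDifferential.span_range_derivation, Submodule.span_le]
  rintro - ⟨z, rfl⟩
  have hmem : ∀ a ∈ v.toValuationSubring, D K F a ∈ Submodule.span F {D K F t} := by
    intro a ha
    obtain ⟨c, hc⟩ := exists_coe_smul_D hfg ht ⟨a, ha⟩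
    exact hc ▸ Submodule.smul_mem _ _ (Submodule.mem_span_singleton_self _)
  rcases v.toValuationSubring.mem_or_inv_mem z with hz | hz
  · exact hmem z hz
  · rw [SetLike.mem_coe, ← inv_inv z, Derivation.leibniz_inv]
    exact Submodule.smul_mem _ _ (hmem _ hz)

theorem dCoordGenerates_of_fg : v.DCoordGenerates :=
  ⟨span_D_eq_top_of_ord_one hfg (v.ord_coe_irreducible
    (IsDiscreteValuationRing.exists_irreducible v.toValuationSubring).choose_spec)⟩

theorem D_ne_zero_of_ord_one [Nontrivial Ω[F⁄K]] {t : F} (ht : v.ord t = 1) :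
    D K F t ≠ 0 := by
  intro h0
  obtain ⟨ω, hω⟩ := exists_ne (0 : Ω[F⁄K])
  have hmem : ω ∈ Submodule.span F {D K F t} := by
    rw [span_D_eq_top_of_ord_one hfg ht]; exact Submodule.mem_top
  rw [h0, Submodule.span_zero_singleton] at hmem
  exact hω hmem

variable [Nontrivial Ω[F⁄K]]

/-- The coefficient of `D t` with respect to the distinguished coordinate is a unit. -/
theorem ord_differentialCoeff_D {t : F} (ht : v.ord t = 1) :
    v.differentialCoeff (D K F t) ≠ 0 ∧ v.ord (v.differentialCoeff (D K F t)) = 0 := by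
  haveI := dCoordGenerates_of_fg hfg
  obtain ⟨π, hπ, hπt⟩ := place_irreducible_of_ord_one v ht
  obtain ⟨π₀, hπ₀, hd⟩ : ∃ π₀ : v.toValuationSubring,
      Irreducible π₀ ∧ v.dCoord = D K F (π₀ : F) :=
    ⟨_, (IsDiscreteValuationRing.exists_irreducible v.toValuationSubring).choose_spec, rfl⟩
  have h0 : v.ord (π₀ : F) = 1 := v.ord_coe_irreducible hπ₀
  obtain ⟨c, hc⟩ := exists_coe_smul_D hfg ht π₀
  obtain ⟨c', hc'⟩ := exists_coe_smul_D hfg h0 π
  rw [hπt] at hc'
  have hcoef : v.differentialCoeff (D K F t) = (c' : F) :=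
    v.differentialCoeff_unique (hd ▸ hc')
  rw [hc, smul_smul] at hc'
  have hcc : (c' : F) * (c : F) = 1 := by
    by_contra hne
    apply D_ne_zero_of_ord_one hfg ht
    have : ((c' : F) * (c : F) - 1) • D K F t = 0 := by rw [sub_smul, one_smul, ← hc', sub_self]
    exact (smul_eq_zero.mp this).resolve_left (sub_ne_zero.mpr hne)
  rw [hcoef]
  have hc'0 : (c' : F) ≠ 0 := left_ne_zero_of_mul_eq_one hcc
  refine ⟨hc'0, ?_⟩
  have h := congrArg v.ord hcc
  rw [v.ord_mul hc'0 (right_ne_zero_of_mul_eq_one hcc), v.ord_one] at h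
  have := place_ord_coe_nonneg v c
  have := place_ord_coe_nonneg v c'
  omega

/-- `ord_v (f dt) = ord_v f` for every uniformiser `t`. -/
theorem ordDifferential_smul_D {t : F} (ht : v.ord t = 1) (f : F) :
    v.ordDifferential (f • D K F t) = v.ord f := by
  haveI := dCoordGenerates_of_fg hfg
  obtain ⟨h1, h2⟩ := ord_differentialCoeff_D hfg ht
  rw [Place.ordDifferential, v.differentialCoeff_smul]
  rcases eq_or_ne f 0 with rfl | hf
  · simp
  · rw [v.ord_mul hf h1, h2, add_zero]

omit [Nontrivial Ω[F⁄K]] in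
theorem exists_smul_D_eq {t : F} (ht : v.ord t = 1) (ω : Ω[F⁄K]) :
    ∃ f : F, f • D K F t = ω := by
  rw [← Submodule.mem_span_singleton, span_D_eq_top_of_ord_one hfg ht]
  exact Submodule.mem_top

theorem ordDifferential_smul_of_fg {c : F} (hc : c ≠ 0) {ω : Ω[F⁄K]} (hω : ω ≠ 0) :
    v.ordDifferential (c • ω) = v.ord c + v.ordDifferential ω := by
  obtain ⟨t, ht⟩ := place_exists_ord_one v
  obtain ⟨f, rfl⟩ := exists_smul_D_eq hfg ht ω
  have hf : f ≠ 0 := by rintro rfl; simp at hω
  rw [smul_smul, ordDifferential_smul_D hfg ht, ordDifferential_smul_D hfg ht, v.ord_mul hc hf]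

/-- A differential is regular at `v` iff it lies in the span of `D O_v`. -/
theorem mem_differentials_iff {ω : Ω[F⁄K]} :
    ω ∈ differentials v ↔ ω = 0 ∨ 0 ≤ v.ordDifferential ω := by
  obtain ⟨t, ht⟩ := place_exists_ord_one v
  obtain ⟨f, rfl⟩ := exists_smul_D_eq hfg ht ω
  rw [ordDifferential_smul_D hfg ht, differentials_eq_span_D hfg ht,
    Submodule.mem_span_singleton, smul_eq_zero,
    or_iff_left (D_ne_zero_of_ord_one hfg ht), ← place_mem_iff]
  constructor
  · rintro ⟨c, hc⟩
    rw [smul_valuationSubring_eq] at hc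
    have : f = (c : F) := by
      by_contra hne
      apply D_ne_zero_of_ord_one hfg ht
      have : (f - (c : F)) • D K F t = 0 := by rw [sub_smul, hc, sub_self]
      exact (smul_eq_zero.mp this).resolve_left (sub_ne_zero.mpr hne)
    exact this ▸ c.2
  · exact fun h => ⟨⟨f, h⟩, smul_valuationSubring_eq _ _⟩

omit [Nontrivial Ω[F⁄K]] in
/-- Explicit form of `D f` at a place: with `f = u t ^ n`, `D f = (u' t ^ n + n u t ^ (n-1)) D t`. -/
theorem exists_D_eq {t : F} (ht : v.ord t = 1) {f : F} (hf : f ≠ 0) :
    ∃ u c : v.toValuationSubring, IsUnit u ∧ f = (u : F) * t ^ v.ord f ∧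
      D K F f = (t ^ (v.ord f - 1) * ((v.ord f : F) * (u : F) + (c : F) * t)) • D K F t := by
  obtain ⟨π, hπ, rfl⟩ := place_irreducible_of_ord_one v ht
  obtain ⟨u, hu⟩ := v.exists_unit_mul_zpow hf hπ
  obtain ⟨c, hc⟩ := exists_coe_smul_D hfg (v.ord_coe_irreducible hπ) (u : v.toValuationSubring)
  refine ⟨u, c, u.isUnit, hu, ?_⟩
  have ht0 : (π : F) ≠ 0 := by simpa using hπ.ne_zero
  set n := v.ord f
  rw [hu, Derivation.leibniz, Derivation.leibniz_zpow, hc, ← Int.cast_smul_eq_zsmul F n]
  simp only [smul_smul, ← add_smul]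
  congr 1
  have hn : (π : F) ^ n = (π : F) ^ (n - 1) * (π : F) := by
    rw [← zpow_add_one₀ ht0, sub_add_cancel]
  rw [hn]
  ring

/-- `ord_v (df) = ord_v f - 1` if `ord_v f` is non-zero in `K`. -/
theorem ordDifferential_D {f : F} (hn : (v.ord f : K) ≠ 0) :
    D K F f ≠ 0 ∧ v.ordDifferential (D K F f) = v.ord f - 1 := by
  have hf : f ≠ 0 := by rintro rfl; simp at hn
  obtain ⟨t, ht⟩ := place_exists_ord_one v
  obtain ⟨π, hπ, rfl⟩ := place_irreducible_of_ord_one v ht
  obtain ⟨u, c, hu, -, hD⟩ := exists_D_eq hfg ht hf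
  have hw : IsUnit ((v.ord f : v.toValuationSubring) * u + c * π) := by
    rw [← IsLocalRing.notMem_maximalIdeal]
    intro hmem
    have hmem' : (v.ord f : v.toValuationSubring) * u ∈
        IsLocalRing.maximalIdeal v.toValuationSubring := by
      have := Ideal.sub_mem _ hmem (Ideal.mul_mem_left _ c
        (hπ.maximalIdeal_eq ▸ Ideal.mem_span_singleton_self π))
      simpa using this
    rw [← IsLocalRing.residue_eq_zero_iff, map_mul, map_intCast, mul_eq_zero] at hmem'
    rcases hmem' with h | h
    · exact hn ((algebraMap K v.ResidueField).injective (by rwa [map_intCast, map_zero]))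
    · exact IsLocalRing.notMem_maximalIdeal.mpr hu ((IsLocalRing.residue_eq_zero_iff u).mp h)
  obtain ⟨w, hw'⟩ := hw
  have hw'' : (v.ord f : F) * (u : F) + (c : F) * (π : F) = ((w : v.toValuationSubring) : F) := by
    rw [hw']; push_cast; ring
  have hπ0 : (π : F) ≠ 0 := by simpa using hπ.ne_zero
  have hne : (π : F) ^ (v.ord f - 1) * ((v.ord f : F) * (u : F) + (c : F) * (π : F)) ≠ 0 := by
    rw [hw'']
    exact mul_ne_zero (zpow_ne_zero _ hπ0) (by simp)
  refine ⟨hD ▸ smul_ne_zero hne (D_ne_zero_of_ord_one hfg ht), ?_⟩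
  rw [hD, ordDifferential_smul_D hfg ht, hw'', mul_comm, v.ord_unit_smul_zpow w hπ]

/-- `ord_v (df) ≥ ord_v f - 1`. -/
theorem ordDifferential_D_ge {f : F} (hD0 : D K F f ≠ 0) :
    v.ord f - 1 ≤ v.ordDifferential (D K F f) := by
  have hf : f ≠ 0 := by rintro rfl; simp at hD0
  obtain ⟨t, ht⟩ := place_exists_ord_one v
  obtain ⟨π, hπ, rfl⟩ := place_irreducible_of_ord_one v ht
  obtain ⟨u, c, -, -, hD⟩ := exists_D_eq hfg ht hf
  rw [hD] at hD0 ⊢
  obtain ⟨h1, -⟩ := smul_ne_zero_iff.mp hD0
  obtain ⟨h2, h3⟩ := mul_ne_zero_iff.mp h1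
  rw [ordDifferential_smul_D hfg ht, v.ord_mul h2 h3, v.ord_zpow, ht, mul_one]
  have : 0 ≤ v.ord ((v.ord f : F) * (u : F) + (c : F) * (π : F)) := by
    simpa using place_ord_coe_nonneg v ((v.ord f : v.toValuationSubring) * u + c * π)
  omega

end Coordinates

end Fermat.Agent.Curve
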