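import Mathlib.RingTheory.Etale.Kaehler
import Mathlib.RingTheory.Etale.Field
import Mathlib.RingTheory.Kaehler.Polynomial
import Mathlib.FieldTheory.SeparablyGenerated
import Mathlib.FieldTheory.IntermediateField.Adjoin.Algebra
import Mathlib.RingTheory.AlgebraicIndependent.Adjoin

/-!
# Separating elements and Kähler differentials of function fields of one variable

If `a` is a separating transcendence basis of `F/K`, then `D a` is a basis of `Ω[F⁄K]`.
-/

set_option autoImplicit false
set_option linter.style.haveILetI false

noncomputable section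

open scoped IntermediateField TensorProduct

namespace Fermat.Agent.Curve

variable (K : Type*) {F : Type*} [Field K] [Field F] [Algebra K F]

/-- `x` is a separating element of `F/K`: `x` is transcendental and `F` is a finite separable
extension of `K(x)`. -/
structure IsSeparatingElement (x : F) : Prop where
  transcendental : Transcendental K x
  finiteDimensional : FiniteDimensional K⟮x⟯ F
  isSeparable : Algebra.IsSeparable K⟮x⟯ F

variable {K}

/-- The differentials of a separating transcendence basis form a basis of `Ω[F⁄K]`. -/
theorem exists_basis_kaehler_of_separating {ι : Type*} {a : ι → F}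
    (ha : AlgebraicIndependent K a)
    (hsep : Algebra.IsSeparable (IntermediateField.adjoin K (Set.range a)) F) :
    ∃ b : Module.Basis ι F Ω[F⁄K], ∀ i, b i = KaehlerDifferential.D K F (a i) := by
  classical
  set L := IntermediateField.adjoin K (Set.range a) with hL
  let g : ι → L := fun i => ⟨a i, IntermediateField.subset_adjoin K _ ⟨i, rfl⟩⟩
  let f : MvPolynomial ι K →ₐ[K] L := MvPolynomial.aeval g
  have hf : (L.val).comp f = MvPolynomial.aeval a := by
    ext i; simp [f, g]
  letI : Algebra (MvPolynomial ι K) L := f.toRingHom.toAlgebra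
  letI : Algebra (MvPolynomial ι K) F := (MvPolynomial.aeval a).toRingHom.toAlgebra
  haveI : IsScalarTower K (MvPolynomial ι K) L :=
    IsScalarTower.of_algebraMap_eq fun c => (f.commutes c).symm
  haveI : IsScalarTower K (MvPolynomial ι K) F :=
    IsScalarTower.of_algebraMap_eq fun c => ((MvPolynomial.aeval a).commutes c).symm
  haveI : IsScalarTower (MvPolynomial ι K) L F :=
    IsScalarTower.of_algebraMap_eq fun p => (AlgHom.congr_fun hf p).symm
  have hinj : Function.Injective f := by
    intro p q h
    apply ha
    rw [← hf]
    exact congrArg L.val h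
  haveI : FaithfulSMul (MvPolynomial ι K) L :=
    (faithfulSMul_iff_algebraMap_injective _ _).mpr hinj
  haveI : IsFractionRing (MvPolynomial ι K) L := IsFractionRing.of_field _ _ fun z => by
    obtain ⟨r, hr, s, hs, hz⟩ := IntermediateField.mem_adjoin_iff_div.mp z.2
    rw [Algebra.adjoin_range_eq_range_aeval] at hr hs
    obtain ⟨p, rfl⟩ := hr
    obtain ⟨q, rfl⟩ := hs
    refine ⟨p, q, Subtype.ext ?_⟩
    rw [hz, ← hf]
    rfl
  haveI : Algebra.FormallyEtale (MvPolynomial ι K) L :=
    Algebra.FormallyEtale.of_isLocalization (nonZeroDivisors _)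
  haveI : Algebra.FormallyEtale L F := Algebra.FormallyEtale.of_isSeparable L F
  haveI : Algebra.FormallyEtale (MvPolynomial ι K) F :=
    Algebra.FormallyEtale.comp _ L _
  refine ⟨((KaehlerDifferential.mvPolynomialBasis K ι).baseChange F).map
    (KaehlerDifferential.tensorKaehlerEquivOfFormallyEtale K (MvPolynomial ι K) F), fun i => ?_⟩
  rw [Module.Basis.map_apply, Module.Basis.baseChange_apply,
    KaehlerDifferential.tensorKaehlerEquivOfFormallyEtale_apply,
    KaehlerDifferential.mapBaseChange_tmul, one_smul, KaehlerDifferential.mvPolynomialBasis_apply,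
    KaehlerDifferential.map_D]
  congr 1
  exact MvPolynomial.aeval_X a i

namespace IsSeparatingElement

variable {x : F}

theorem exists_basis (hx : IsSeparatingElement K x) :
    ∃ b : Module.Basis Unit F Ω[F⁄K], b () = KaehlerDifferential.D K F x := by
  have hrange : Set.range (fun _ : Unit => x) = {x} := Set.range_const
  have hsep : Algebra.IsSeparable (IntermediateField.adjoin K (Set.range fun _ : Unit => x)) F := by
    rw [hrange]; exact hx.isSeparable
  have hind : AlgebraicIndependent K (fun _ : Unit => x) :=
    algebraicIndependent_unique_type_iff.mpr hx.transcendental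
  obtain ⟨b, hb⟩ := exists_basis_kaehler_of_separating hind hsep
  exact ⟨b, hb ()⟩

theorem D_ne_zero (hx : IsSeparatingElement K x) : KaehlerDifferential.D K F x ≠ 0 := by
  obtain ⟨b, hb⟩ := hx.exists_basis
  exact hb ▸ b.ne_zero ()

theorem span_D_eq_top (hx : IsSeparatingElement K x) :
    Submodule.span F {KaehlerDifferential.D K F x} = ⊤ := by
  obtain ⟨b, hb⟩ := hx.exists_basis
  have h : Set.range b = {KaehlerDifferential.D K F x} := by
    ext w; simp [← hb, Unique.exists_iff, eq_comm]
  rw [← h, b.span_eq]

theorem exists_eq_smul_D (hx : IsSeparatingElement K x) (ω : Ω[F⁄K]) :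
    ∃ f : F, f • KaehlerDifferential.D K F x = ω := by
  rw [← Submodule.mem_span_singleton, hx.span_D_eq_top]
  exact Submodule.mem_top

theorem kaehler_free_rank_one (hx : IsSeparatingElement K x) :
    Module.Free F Ω[F⁄K] ∧ Module.finrank F Ω[F⁄K] = 1 := by
  obtain ⟨b, -⟩ := hx.exists_basis
  exact ⟨Module.Free.of_basis b, by rw [Module.finrank_eq_card_basis b, Fintype.card_unit]⟩

theorem essFiniteType (hx : IsSeparatingElement K x) : Algebra.EssFiniteType K F := by
  haveI := hx.finiteDimensional
  haveI : Algebra.EssFiniteType K K⟮x⟯ :=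
    IntermediateField.essFiniteType_iff.mpr (by
      simpa using IntermediateField.fg_adjoin_finset (F := K) ({x} : Finset F))
  exact Algebra.EssFiniteType.comp K K⟮x⟯ F

theorem inv (hx : IsSeparatingElement K x) : IsSeparatingElement K x⁻¹ := by
  have h : K⟮x⁻¹⟯ = K⟮x⟯ := by
    apply le_antisymm <;> rw [IntermediateField.adjoin_simple_le_iff]
    · exact inv_mem (IntermediateField.mem_adjoin_simple_self K x)
    · simpa using inv_mem (IntermediateField.mem_adjoin_simple_self K x⁻¹)
  refine ⟨?_, h ▸ hx.finiteDimensional, h ▸ hx.isSeparable⟩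
  intro hal
  exact hx.transcendental (by simpa using hal.inv)

end IsSeparatingElement

/-- Over a perfect field, a finitely generated extension whose module of differentials has
rank one has a separating element. -/
theorem exists_isSeparatingElement [PerfectField K] [Algebra.EssFiniteType K F]
    (h : Module.finrank F Ω[F⁄K] = 1) : ∃ x : F, IsSeparatingElement K x := by
  obtain ⟨s, hs, hsep⟩ := exists_isTranscendenceBasis_and_isSeparable_of_perfectField K F
  have hrange : Set.range ((↑) : s → F) = (s : Set F) := by ext; simp
  have hsep' : Algebra.IsSeparable (IntermediateField.adjoin K (Set.range ((↑) : s → F))) F := by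
    rw [hrange]; exact hsep
  obtain ⟨b, -⟩ := exists_basis_kaehler_of_separating hs.1 hsep'
  rw [Module.finrank_eq_card_basis b, Fintype.card_coe, Finset.card_eq_one] at h
  obtain ⟨x, rfl⟩ := h
  rw [Finset.coe_singleton] at hsep
  haveI := hsep
  haveI : Algebra.EssFiniteType K⟮x⟯ F := Algebra.EssFiniteType.of_comp K K⟮x⟯ F
  haveI : Algebra.FormallyUnramified K⟮x⟯ F := Algebra.FormallyUnramified.of_isSeparable _ _
  exact ⟨x, hs.1.transcendental ⟨x, Finset.mem_singleton_self x⟩,
    Algebra.FormallyUnramified.finite_of_free _ _, hsep⟩

end Fermat.Agent.Curve
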