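import Fermat.Agent.Curve.DiffFinite
import Fermat.Agent.Curve.Differential
import Fermat.Agent.Curve.Separating

/-!
# Finite generation of the local module of differentials
-/

set_option autoImplicit false

noncomputable section

open IntermediateField KaehlerDifferential

namespace Fermat.Agent.Curve

open AlgebraicCurve

variable {K F : Type*} [Field K] [Field F] [Algebra K F]

theorem smul_mem_submodule_of_mem (v : Place K F)
    {N : Submodule v.toValuationSubring Ω[F⁄K]} {c : F}
    (hc : c ∈ v.toValuationSubring) {m : Ω[F⁄K]} (hm : m ∈ N) : c • m ∈ N := by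
  have h := N.smul_mem (⟨c, hc⟩ : v.toValuationSubring) hm
  rwa [smul_valuationSubring_eq] at h

/-- If every element of `O_v` is a quotient of polynomials in `S ⊆ O_v` with denominator invertible
at `v`, then the differentials of `S` span the differentials of `O_v`. -/
theorem differentials_eq_span_of_quotients (v : Place K F) {S : Set F}
    (hS : ∀ s ∈ S, s ∈ v.toValuationSubring)
    (hq : ∀ u ∈ v.toValuationSubring, ∃ a b : F, a ∈ Algebra.adjoin K S ∧
      b ∈ Algebra.adjoin K S ∧ b ≠ 0 ∧ v.ord b = 0 ∧ u = a / b) :
    differentials v = Submodule.span v.toValuationSubring (D K F '' S) := by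
  have key : ∀ a ∈ Algebra.adjoin K S, a ∈ v.toValuationSubring ∧
      D K F a ∈ Submodule.span v.toValuationSubring (D K F '' S) := by
    intro a ha
    induction ha using Algebra.adjoin_induction with
    | mem s hs => exact ⟨hS s hs, Submodule.subset_span ⟨s, hs, rfl⟩⟩
    | algebraMap c => exact ⟨v.algebraMap_mem' c, by simp⟩
    | add _ _ _ _ h₁ h₂ => exact ⟨add_mem h₁.1 h₂.1, by rw [map_add]; exact add_mem h₁.2 h₂.2⟩
    | mul _ _ _ _ h₁ h₂ =>
      refine ⟨mul_mem h₁.1 h₂.1, ?_⟩
      rw [Derivation.leibniz]
      exact add_mem (smul_mem_submodule_of_mem v h₁.1 h₂.2)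
        (smul_mem_submodule_of_mem v h₂.1 h₁.2)
  refine le_antisymm (Submodule.span_le.mpr ?_)
    (Submodule.span_le.mpr (by rintro _ ⟨s, hs, rfl⟩; exact D_mem_differentials ⟨s, hS s hs⟩))
  rintro _ ⟨⟨u, hu⟩, rfl⟩
  obtain ⟨a, b, ha, hb, -, hb0, rfl⟩ := hq u hu
  obtain ⟨ha1, ha2⟩ := key a ha
  obtain ⟨hb1, hb2⟩ := key b hb
  show D K F (a / b) ∈ _
  rw [Derivation.leibniz_div]
  have hinv : b⁻¹ ∈ v.toValuationSubring :=
    (place_mem_iff v).mpr (Or.inr (by rw [v.ord_inv, hb0]; simp))
  exact smul_mem_submodule_of_mem v (pow_mem hinv 2)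
    (sub_mem (smul_mem_submodule_of_mem v hb1 ha2) (smul_mem_submodule_of_mem v ha1 hb2))

/-- A uniform finite set of generators for the differentials at all places where `x` is
regular. -/
theorem exists_finset_differentials_eq_span {x : F} (hx : IsSeparatingElement K x) :
    ∃ S : Finset F, ∀ v : Place K F, x ∈ v.toValuationSubring →
      (∀ s ∈ S, s ∈ v.toValuationSubring) ∧
      differentials v = Submodule.span v.toValuationSubring (D K F '' (S : Set F)) := by
  have := hx.finiteDimensional
  have := hx.isSeparable
  obtain ⟨S, hS⟩ := exists_finset_adjoin_eq_quotients x hx.transcendental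
  exact ⟨S, fun v hv => ⟨(hS v hv).1,
    differentials_eq_span_of_quotients v (hS v hv).1 (hS v hv).2⟩⟩

/-- The differentials of a valuation ring of a separably generated function field are finitely
generated. -/
theorem differentials_fg {x : F} (hx : IsSeparatingElement K x) (v : Place K F) :
    (differentials v).FG := by
  classical
  suffices ∃ S : Finset F,
      differentials v = Submodule.span v.toValuationSubring (D K F '' (S : Set F)) by
    obtain ⟨S, hS⟩ := this
    exact ⟨S.image (D K F), by rw [hS, Finset.coe_image]⟩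
  rcases v.toValuationSubring.mem_or_inv_mem x with h | h
  · obtain ⟨S, hS⟩ := exists_finset_differentials_eq_span hx
    exact ⟨S, (hS v h).2⟩
  · obtain ⟨S, hS⟩ := exists_finset_differentials_eq_span hx.inv
    exact ⟨S, (hS v h).2⟩

end Fermat.Agent.Curve
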