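import Fermat.Agent.Curve.Separating
import Fermat.Agent.Curve.DiffFG
import Fermat.Prelude.Def_AlgebraicCurve_IsCurveOver
import Fermat.Prelude.Def_AlgebraicCurve_CanonicalDivisor

/-!
# Existence of canonical divisors
-/

set_option autoImplicit false
set_option linter.style.haveILetI false

noncomputable section

open KaehlerDifferential AlgebraicCurve

namespace Fermat.Agent.Curve

variable {K F : Type*} [Field K] [Field F] [Algebra K F]

section IsCurveOver

variable [IsCurveOver K F] [PerfectField K]

instance isSeparable_residueField (v : Place K F) : Algebra.IsSeparable K v.ResidueField :=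
  haveI := IsCurveOver.finiteResidue (K := K) v
  haveI := Algebra.IsIntegral.of_finite K v.ResidueField
  inferInstance

variable [Algebra.EssFiniteType K F]

variable (K F) in
theorem exists_separatingElement : ∃ x : F, IsSeparatingElement K x :=
  exists_isSeparatingElement IsCurveOver.finrank_kaehler

theorem differentials_fg_of_isCurveOver (v : Place K F) : (differentials v).FG :=
  differentials_fg (exists_separatingElement K F).choose_spec v

instance dCoordGenerates (v : Place K F) : v.DCoordGenerates :=
  dCoordGenerates_of_fg (differentials_fg_of_isCurveOver v)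

theorem ordDifferential_smul {v : Place K F} {c : F} (hc : c ≠ 0) {ω : Ω[F⁄K]} (hω : ω ≠ 0) :
    v.ordDifferential (c • ω) = v.ord c + v.ordDifferential ω :=
  ordDifferential_smul_of_fg (differentials_fg_of_isCurveOver v) hc hω

omit [PerfectField K] [Algebra.EssFiniteType K F] in
theorem finite_ord_ne_zero_of_hasPrincipalDivisors (f : F) : {v : Place K F | v.ord f ≠ 0}.Finite := by
  rcases eq_or_ne f 0 with rfl | hf
  · simp
  obtain ⟨E, hE, -⟩ := HasPrincipalDivisors.exists_divisor (K := K) f hf
  exact E.support.finite_toSet.subset fun v hv => by simpa [hE v] using hv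

/-- `ord_v (dx)` vanishes for almost all places. -/
theorem IsSeparatingElement.finite_ordDifferential_ne_zero {x : F}
    (hx : IsSeparatingElement K x) :
    {v : Place K F | v.ordDifferential (D K F x) ≠ 0}.Finite := by
  classical
  obtain ⟨s, hs⟩ := exists_finset_differentials_eq_span hx
  choose c hc using fun g : F => hx.exists_eq_smul_D (D K F g)
  refine ((finite_ord_ne_zero_of_hasPrincipalDivisors x).union
    (s.finite_toSet.biUnion fun g _ => finite_ord_ne_zero_of_hasPrincipalDivisors (c g))).subset fun v hv => ?_
  simp only [Set.mem_union, Set.mem_ofPred_eq, Set.mem_iUnion, Finset.mem_coe, exists_prop]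
  by_contra h
  push Not at h
  apply hv
  obtain ⟨h1, h2⟩ := h
  have hxv : x ∈ v.toValuationSubring := (place_mem_iff v).mpr (Or.inr h1.ge)
  obtain ⟨-, hspan⟩ := hs v hxv
  have hle : differentials v ≤ Submodule.span v.toValuationSubring {D K F x} := by
    rw [hspan, Submodule.span_le]
    rintro - ⟨g, hg, rfl⟩
    rw [SetLike.mem_coe, Submodule.mem_span_singleton]
    exact ⟨⟨c g, (place_mem_iff v).mpr (Or.inr (h2 g hg).ge)⟩, by
      rw [smul_valuationSubring_eq]; exact hc g⟩
  obtain ⟨t, ht⟩ := place_exists_ord_one v
  have htv : t ∈ v.toValuationSubring := (place_mem_iff v).mpr (Or.inr (by omega))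
  obtain ⟨e, he⟩ := Submodule.mem_span_singleton.mp (hle (D_mem_differentials ⟨t, htv⟩))
  rw [smul_valuationSubring_eq] at he
  have he0 : (e : F) ≠ 0 := fun h0 => D_ne_zero_of_ord_one (differentials_fg_of_isCurveOver v) ht (by
    simp [h0] at he; exact he.symm)
  have h3 : v.ordDifferential (D K F t) = 0 := by
    rw [← one_smul F (D K F t), ordDifferential_smul_D (differentials_fg_of_isCurveOver v) ht, v.ord_one]
  rw [show D K F ((⟨t, htv⟩ : v.toValuationSubring) : F) = D K F t from rfl] at he
  rw [← he, ordDifferential_smul he0 hx.D_ne_zero] at h3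
  have h4 : 0 ≤ v.ordDifferential (D K F x) :=
    ((mem_differentials_iff (differentials_fg_of_isCurveOver v)).mp
      (D_mem_differentials ⟨x, hxv⟩)).resolve_left hx.D_ne_zero
  have := place_ord_coe_nonneg v e
  omega

/-- Every non-zero differential has a divisor. -/
instance hasCanonicalDivisor : HasCanonicalDivisor (K := K) (F := F) := by
  refine ⟨fun ω hω => ?_⟩
  obtain ⟨x, hx⟩ := exists_separatingElement K F
  obtain ⟨f, rfl⟩ := hx.exists_eq_smul_D ω
  have hf : f ≠ 0 := by rintro rfl; simp at hω
  have hfin : {v : Place K F | v.ordDifferential (f • D K F x) ≠ 0}.Finite :=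
    ((finite_ord_ne_zero_of_hasPrincipalDivisors f).union hx.finite_ordDifferential_ne_zero).subset fun v hv => by
      simp only [Set.mem_union, Set.mem_ofPred_eq] at hv ⊢
      rw [ordDifferential_smul hf hx.D_ne_zero] at hv
      omega
  exact ⟨Finsupp.ofSupportFinite (fun v => v.ordDifferential (f • D K F x)) hfin,
    fun v => rfl⟩

end IsCurveOver

end Fermat.Agent.Curve
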