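import Fermat.Agent.Curve.Degree
import Fermat.Agent.Curve.CanonicalDivisor
import Fermat.Prelude.Def_AlgebraicCurve_CanonicalDivisor

/-!
# Kähler differentials of a function field over an algebraically closed field

Owner: helper37.
-/

set_option autoImplicit false
set_option linter.style.haveILetI false

noncomputable section

open IntermediateField AlgebraicCurve KaehlerDifferential

namespace Fermat.Agent.Curve

variable {K F : Type*} [Field K] [Field F] [Algebra K F]

/-- A function field is essentially of finite type. -/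
instance instEssFiniteType [IsFunctionField1 K F] : Algebra.EssFiniteType K F := by
  obtain ⟨x, -, hfd⟩ := IsFunctionField1.exists_transcendental' (K := K) (F := F)
  haveI : Algebra.EssFiniteType K K⟮x⟯ :=
    essFiniteType_iff.mpr (by simpa using fg_adjoin_finset (F := K) ({x} : Finset F))
  exact Algebra.EssFiniteType.comp K K⟮x⟯ F

open scoped algebraAdjoinAdjoin in
variable (K F) in
theorem exists_isSeparatingElement_of_isFunctionField1 [IsFunctionField1 K F] [PerfectField K] :
    ∃ x : F, IsSeparatingElement K x := by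
  obtain ⟨x, hx, hfd⟩ := IsFunctionField1.exists_transcendental' (K := K) (F := F)
  haveI : Algebra.IsAlgebraic K⟮x⟯ F := Algebra.IsAlgebraic.of_finite _ _
  have hind : AlgebraicIndependent K (fun _ : Unit => x) :=
    algebraicIndependent_unique_type_iff.mpr hx
  have hbase : IsTranscendenceBasis K (fun _ : Unit => x) := by
    rw [hind.isTranscendenceBasis_iff_isAlgebraic, Set.range_const]
    exact Algebra.IsAlgebraic.trans (Algebra.adjoin K {x}) K⟮x⟯ F
  obtain ⟨s, hs, hsep⟩ := exists_isTranscendenceBasis_and_isSeparable_of_perfectField K F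
  have hcard := hs.lift_cardinalMk_eq hbase
  simp only [Cardinal.mk_fintype, Cardinal.lift_natCast, Nat.cast_inj, Fintype.card_coe,
    Fintype.card_unit] at hcard
  obtain ⟨y, rfl⟩ := Finset.card_eq_one.mp hcard
  rw [Finset.coe_singleton] at hsep
  have hy : Transcendental K y := hs.1.transcendental ⟨y, Finset.mem_singleton_self y⟩
  exact ⟨y, hy, finiteDimensional_adjoin hy, hsep⟩

theorem exists_separating [IsFunctionField1 K F] [PerfectField K] :
    ∃ x : F, Transcendental K x ∧ FiniteDimensional K⟮x⟯ F ∧ Algebra.IsSeparable K⟮x⟯ F := by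
  obtain ⟨x, hx⟩ := exists_isSeparatingElement_of_isFunctionField1 K F
  exact ⟨x, hx.transcendental, hx.finiteDimensional, hx.isSeparable⟩

theorem isSeparable_of_D_ne_zero [IsFunctionField1 K F] [PerfectField K] {x : F}
    (hx : D K F x ≠ 0) : Transcendental K x ∧ Algebra.IsSeparable K⟮x⟯ F := by
  have htr : Transcendental K x := by
    intro hal
    apply hx
    have hsep : (minpoly K x).Separable :=
      PerfectField.separable_of_irreducible (minpoly.irreducible hal.isIntegral)
    have h := congrArg (D K F) (minpoly.aeval K x)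
    rw [Derivation.map_aeval, map_zero] at h
    exact (smul_eq_zero.mp h).resolve_left
      (Polynomial.Separable.aeval_derivative_ne_zero hsep (minpoly.aeval K x))
  refine ⟨htr, ?_⟩
  haveI := finiteDimensional_adjoin (K := K) htr
  obtain ⟨y, hy⟩ := exists_isSeparatingElement_of_isFunctionField1 K F
  obtain ⟨c, hc⟩ := hy.exists_eq_smul_D (D K F x)
  have hc0 : c ≠ 0 := by rintro rfl; simp at hc; exact hx hc.symm
  have hspan : ∀ ω : Ω[F⁄K], ∃ f : F, f • D K F x = ω := fun ω => by
    obtain ⟨f, rfl⟩ := hy.exists_eq_smul_D ω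
    exact ⟨f * c⁻¹, by rw [← hc, smul_smul, mul_assoc, inv_mul_cancel₀ hc0, mul_one]⟩
  have hzero : ∀ z : F, D K⟮x⟯ F z = 0 := fun z => by
    obtain ⟨f, hf⟩ := hspan (D K F z)
    have h := congrArg (KaehlerDifferential.map K K⟮x⟯ F F) hf
    rw [map_smul, KaehlerDifferential.map_D, KaehlerDifferential.map_D] at h
    have h0 : D K⟮x⟯ F x = 0 :=
      Derivation.map_algebraMap (D K⟮x⟯ F) (AdjoinSimple.gen K x)
    simp only [Algebra.algebraMap_self, RingHom.id_apply, h0, smul_zero] at h
    exact h.symm
  haveI : Algebra.FormallyUnramified K⟮x⟯ F := by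
    rw [Algebra.formallyUnramified_iff]
    refine subsingleton_of_forall_eq 0 fun ω => ?_
    have hω : ω ∈ Submodule.span F (Set.range (D K⟮x⟯ F)) := by
      rw [KaehlerDifferential.span_range_derivation]; exact Submodule.mem_top
    have hr : Set.range (D K⟮x⟯ F) ⊆ ({0} : Set Ω[F⁄K⟮x⟯]) := by
      rintro - ⟨z, rfl⟩; exact hzero z
    simpa using Submodule.span_mono hr hω
  exact Algebra.FormallyUnramified.isSeparable K⟮x⟯ F

theorem D_ne_zero_of_isSeparable [IsFunctionField1 K F] [PerfectField K] {x : F}
    (hx : Transcendental K x) [Algebra.IsSeparable K⟮x⟯ F] : D K F x ≠ 0 := by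
  exact (IsSeparatingElement.mk hx (finiteDimensional_adjoin hx) inferInstance).D_ne_zero

instance instIsCurveOver [IsFunctionField1 K F] [PerfectField K] : IsCurveOver K F := by
  obtain ⟨x, hx⟩ := exists_isSeparatingElement_of_isFunctionField1 K F
  exact { finiteResidue := fun v => finite_residueField v
          kaehler_free_rank_one := hx.kaehler_free_rank_one }

theorem isFunctionField1_of_essFiniteType [PerfectField K] [IsCurveOver K F]
    [Algebra.EssFiniteType K F] : IsFunctionField1 K F := by
  obtain ⟨x, hx⟩ := exists_separatingElement K F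
  exact .of_finite_adjoin hx.transcendental hx.finiteDimensional

instance instDCoordGenerates [IsFunctionField1 K F] [IsAlgClosed K] (v : Place K F) :
    v.DCoordGenerates := by
  exact dCoordGenerates v

variable [IsFunctionField1 K F] [IsAlgClosed K]

instance instHasCanonicalDivisor : HasCanonicalDivisor (K := K) (F := F) := by
  exact hasCanonicalDivisor

/-- Any uniformiser computes `ordDifferential`. -/
theorem ordDifferential_smul_D_uniformizer (v : Place K F) {t : F} (ht : v.ord t = 1) (f : F) :
    v.ordDifferential (f • D K F t) = v.ord f := by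
  exact ordDifferential_smul_D (differentials_fg_of_isCurveOver v) ht f

theorem D_ne_zero_of_ord_eq_one (v : Place K F) {t : F} (ht : v.ord t = 1) : D K F t ≠ 0 := by
  exact D_ne_zero_of_ord_one (differentials_fg_of_isCurveOver v) ht

theorem ordDifferential_smul_of_ne_zero (v : Place K F) {f : F} (hf : f ≠ 0) {ω : Ω[F⁄K]}
    (hω : ω ≠ 0) : v.ordDifferential (f • ω) = v.ord f + v.ordDifferential ω := by
  exact ordDifferential_smul hf hω

theorem ordDifferential_D_nonneg (v : Place K F) {f : F} (hf : f ∈ v.toValuationSubring) :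
    0 ≤ v.ordDifferential (D K F f) := by
  rcases (mem_differentials_iff (differentials_fg_of_isCurveOver v)).mp
    (D_mem_differentials ⟨f, hf⟩) with h | h
  · rw [show D K F f = 0 from h, Place.ordDifferential, v.differentialCoeff_zero, v.ord_zero]
  · exact h

theorem sub_one_le_ordDifferential_D (v : Place K F) {f : F} (hf : D K F f ≠ 0) :
    v.ord f - 1 ≤ v.ordDifferential (D K F f) := by
  exact ordDifferential_D_ge (differentials_fg_of_isCurveOver v) hf

theorem ordDifferential_D_of_ne_zero (v : Place K F) {f : F} (hf : (v.ord f : K) ≠ 0) :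
    v.ordDifferential (D K F f) = v.ord f - 1 := by
  exact (ordDifferential_D (differentials_fg_of_isCurveOver v) hf).2

theorem ordDifferential_nonneg_iff {v : Place K F} {ω : Ω[F⁄K]} :
    ω ∈ differentials v ↔ 0 ≤ v.ordDifferential ω := by
  rw [mem_differentials_iff (differentials_fg_of_isCurveOver v)]
  refine ⟨?_, Or.inr⟩
  rintro (rfl | h)
  · rw [Place.ordDifferential, v.differentialCoeff_zero, v.ord_zero]
  · exact h

theorem exists_smul_eq_of_ne_zero {ω : Ω[F⁄K]} (hω : ω ≠ 0) (η : Ω[F⁄K]) :
    ∃ f : F, f • ω = η := by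
  obtain ⟨x, hx⟩ := exists_isSeparatingElement_of_isFunctionField1 K F
  obtain ⟨a, rfl⟩ := hx.exists_eq_smul_D ω
  obtain ⟨b, rfl⟩ := hx.exists_eq_smul_D η
  exact ⟨b / a, by rw [smul_smul, div_mul_cancel₀ b (by rintro rfl; simp at hω)]⟩

variable (K F) in
/-- Differentials without poles. -/
def regularDifferentials : Submodule K Ω[F⁄K] where
  carrier := {ω | ∀ v : Place K F, 0 ≤ v.ordDifferential ω}
  zero_mem' v := by
    rw [Place.ordDifferential, v.differentialCoeff_zero, v.ord_zero]
  add_mem' := by
    intro a b ha hb v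
    exact ordDifferential_nonneg_iff.mp
      (add_mem (ordDifferential_nonneg_iff.mpr (ha v)) (ordDifferential_nonneg_iff.mpr (hb v)))
  smul_mem' := by
    intro c a ha v
    refine ordDifferential_nonneg_iff.mp ?_
    rw [← algebraMap_smul v.toValuationSubring c a]
    exact Submodule.smul_mem _ _ (ordDifferential_nonneg_iff.mpr (ha v))

theorem mem_regularDifferentials_iff {ω : Ω[F⁄K]} :
    ω ∈ regularDifferentials K F ↔ ∀ v : Place K F, 0 ≤ v.ordDifferential ω := Iff.rfl

/-- `f ↦ f • ω` identifies `L(div ω)` with the regular differentials. -/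
theorem finrank_regularDifferentials_eq {ω : Ω[F⁄K]} (hω : ω ≠ 0) :
    Module.finrank K (regularDifferentials K F) =
      Module.finrank K (riemannRochSpace (canonicalDivisorOf hω)) := by
  have key : ∀ f : F, f ∈ riemannRochSpace (canonicalDivisorOf hω) ↔
      f • ω ∈ regularDifferentials K F := by
    intro f
    rw [mem_riemannRochSpace_iff, mem_regularDifferentials_iff]
    refine forall_congr' fun v => ?_
    rcases eq_or_ne f 0 with rfl | hf
    · simp [Place.ordDifferential, v.differentialCoeff_zero]
    · rw [or_iff_right hf, ordDifferential_smul hf hω, canonicalDivisorOf_apply]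
      omega
  let φ : riemannRochSpace (canonicalDivisorOf hω) →ₗ[K] regularDifferentials K F :=
    ((((LinearMap.id (R := F) (M := F)).smulRight ω).restrictScalars K).domRestrict
      (riemannRochSpace (canonicalDivisorOf hω))).codRestrict _ fun f => (key f).mp f.2
  refine (LinearEquiv.ofBijective φ ⟨fun f g hfg => ?_, fun η => ?_⟩).finrank_eq.symm
  · have h : (f : F) • ω = (g : F) • ω := congrArg Subtype.val hfg
    have h' : ((f : F) - (g : F)) • ω = 0 := by rw [sub_smul, h, sub_self]
    exact Subtype.ext (sub_eq_zero.mp ((smul_eq_zero.mp h').resolve_right hω))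
  · obtain ⟨f, hf⟩ := exists_smul_eq_of_ne_zero hω (η : Ω[F⁄K])
    exact ⟨⟨f, (key f).mpr (hf ▸ η.2)⟩, Subtype.ext hf⟩

theorem degree_canonicalDivisorOf_eq {ω ω' : Ω[F⁄K]} (hω : ω ≠ 0) (hω' : ω' ≠ 0) :
    Divisor.degree (canonicalDivisorOf hω) = Divisor.degree (canonicalDivisorOf hω') := by
  obtain ⟨c, rfl⟩ := exists_smul_eq_of_ne_zero hω ω'
  have hc : c ≠ 0 := by rintro rfl; simp at hω'
  obtain ⟨E, hE, hE0⟩ := HasPrincipalDivisors.exists_divisor (K := K) c hc
  have hsum : canonicalDivisorOf hω' = E + canonicalDivisorOf hω := Finsupp.ext fun v => by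
    rw [Finsupp.add_apply, canonicalDivisorOf_apply, canonicalDivisorOf_apply, hE v,
      ordDifferential_smul hc hω]
  rw [hsum, map_add, hE0, zero_add]

end Fermat.Agent.Curve

end
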