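import Fermat.Agent.Curve.Degree
import Mathlib.RingTheory.DedekindDomain.IntegralClosure

/-!
# The affine model `integralClosure K[x]` in `F`

`mem_affineModel_iff` (no separability), and for `F/K(x)` separable the bijection
`centreEquiv : {v // x ∈ O_v} ≃ HeightOneSpectrum`, with orders and residue fields.

Owner: helper36.
-/

set_option autoImplicit false
set_option linter.style.haveILetI false

noncomputable section

open IntermediateField AlgebraicCurve IsDedekindDomain

namespace Fermat.Agent.Curve

variable {K F : Type*} [Field K] [Field F] [Algebra K F]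

/-- The normalised order at the place of a height one prime. -/
theorem ord_ofHeightOneSpectrum {R : Type*} [CommRing R] [IsDedekindDomain R] [Algebra R F]
    [IsFractionRing R F] [Algebra K R] [IsScalarTower K R F] (w : HeightOneSpectrum R) (f : F) :
    (Place.ofHeightOneSpectrum (K := K) w : Place K F).ord f
      = -(WithZero.log (w.valuation F f)) := by
  rcases eq_or_ne f 0 with rfl | hf
  · simp
  set P : Place K F := Place.ofHeightOneSpectrum (K := K) w
  let h : F → ℤ := fun g => -(WithZero.log (w.valuation F g))
  have hne : ∀ {g : F}, g ≠ 0 → w.valuation F g ≠ 0 := fun hg => (Valuation.ne_zero_iff _).mpr hg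
  have hmul : ∀ {g g' : F}, g ≠ 0 → g' ≠ 0 → h (g * g') = h g + h g' := fun hg hg' => by
    simp only [h, map_mul, WithZero.log_mul (hne hg) (hne hg')]
    ring
  have hinv : ∀ g : F, h g⁻¹ = -h g := fun g => by simp [h]
  have hmem : ∀ g : F, g ∈ P.toValuationSubring → 0 ≤ h g := fun g hg => by
    rcases eq_or_ne g 0 with rfl | hg0
    · simp [h]
    have hle : w.valuation F g ≤ 1 := hg
    rw [← WithZero.exp_log (hne hg0), ← WithZero.exp_zero, WithZero.exp_le_exp] at hle
    simp only [h]; omega
  obtain ⟨t, ht, ht1⟩ := exists_uniformizer P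
  have hfactor : ∀ g : F, g ≠ 0 → h g = P.ord g * h t := fun g hg => by
    have hu : ∀ u : F, u ≠ 0 → P.ord u = 0 → h u = 0 := fun u hu hu0 => by
      have h1 := hmem u (mem_of_ord_nonneg P hu0.ge)
      have h2 := hmem u⁻¹ (mem_of_ord_nonneg P (by rw [P.ord_inv, hu0]; simp))
      rw [hinv] at h2
      omega
    have htn : t ^ (P.ord g) ≠ 0 := zpow_ne_zero _ ht
    have h0 := hu (g / t ^ (P.ord g)) (div_ne_zero hg htn)
      (by rw [ord_div P hg htn, P.ord_zpow, ht1, mul_one, sub_self])
    have hzp : h (t ^ (P.ord g)) = P.ord g * h t := by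
      simp only [h, map_zpow₀, WithZero.log_zpow, smul_eq_mul]; ring
    rw [← div_mul_cancel₀ g htn, hmul (div_ne_zero hg htn) htn, h0, div_mul_cancel₀ g htn, zero_add,
      hzp]
  obtain ⟨π, hπ⟩ := w.valuation_exists_uniformizer F
  have hπ0 : π ≠ 0 := by
    rintro rfl; rw [map_zero] at hπ; exact WithZero.exp_ne_zero hπ.symm
  have hπ1 : h π = 1 := by simp [h, hπ]
  have ht' : h t = 1 := by
    have htnn := hmem t (mem_of_ord_nonneg P (by omega))
    exact Int.eq_one_of_dvd_one htnn ⟨P.ord π, by rw [mul_comm, ← hfactor π hπ0, hπ1]⟩
  show P.ord f = h f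
  rw [hfactor f hf, ht', mul_one]

variable (K) in
/-- Integral closure of `K[x]` in `F`. -/
abbrev affineModel (x : F) : Subalgebra (Algebra.adjoin K ({x} : Set F)) F :=
  integralClosure (Algebra.adjoin K ({x} : Set F)) F

theorem mem_affineModel_iff [IsFunctionField1 K F] (x : F) {f : F} :
    f ∈ affineModel K x ↔
      ∀ v : Place K F, x ∈ v.toValuationSubring → f ∈ v.toValuationSubring := by
  rw [mem_integralClosure_iff, isIntegral_adjoin_iff]
  simp

theorem mem_affineModel_self (x : F) : x ∈ affineModel K x :=
  (isIntegral_algebraMap (x := (⟨x, Algebra.self_mem_adjoin_singleton K x⟩ :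
      Algebra.adjoin K ({x} : Set F))) : IsIntegral (Algebra.adjoin K ({x} : Set F)) x)

section Separable

variable [IsFunctionField1 K F] {x : F} (hx : Transcendental K x)

open scoped IntermediateField.algebraAdjoinAdjoin

include hx in
theorem isDedekindDomain_affineModel [Algebra.IsSeparable K⟮x⟯ F] : IsDedekindDomain (affineModel K x) := by
  haveI := finiteDimensional_adjoin (K := K) hx
  haveI : IsPrincipalIdealRing (Algebra.adjoin K ({x} : Set F)) := by
    rw [Algebra.adjoin_singleton_eq_range_aeval]
    exact IsPrincipalIdealRing.of_surjective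
      (Polynomial.aeval x).rangeRestrict (AlgHom.rangeRestrict_surjective _)
  exact integralClosure.isDedekindDomain _ K⟮x⟯ F

include hx in
theorem isFractionRing_affineModel : IsFractionRing (affineModel K x) F := by
  haveI := finiteDimensional_adjoin (K := K) hx
  exact integralClosure.isFractionRing_of_finite_extension
    (A := Algebra.adjoin K ({x} : Set F)) K⟮x⟯ F

variable (v : {v : Place K F // x ∈ v.toValuationSubring})

/-- Inclusion of the affine model in the valuation ring of a finite place. -/
def affineModelToPlace : affineModel K x →+* v.1.toValuationSubring :=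
  (algebraMap (affineModel K x) F).codRestrict v.1.toValuationSubring.toSubring
    fun r => (mem_affineModel_iff x).mp r.2 v.1 v.2

@[simp]
theorem coe_affineModelToPlace (r : affineModel K x) :
    (affineModelToPlace v r : F) = (r : F) := rfl

/-- The centre of a finite place on the affine model. -/
def centreIdeal : Ideal (affineModel K x) :=
  (IsLocalRing.maximalIdeal v.1.toValuationSubring).comap (affineModelToPlace v)

theorem mem_centreIdeal_iff {r : affineModel K x} :
    r ∈ centreIdeal v ↔ (r : F) = 0 ∨ 0 < v.1.ord (r : F) := by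
  rw [centreIdeal, Ideal.mem_comap, mem_maximalIdeal_iff]
  rfl

variable [Algebra.IsSeparable K⟮x⟯ F]

include hx in
theorem centreIdeal_ne_bot : centreIdeal v ≠ ⊥ := by
  haveI := isFractionRing_affineModel hx
  intro hbot
  refine v.1.ne_top' (eq_top_iff.mpr fun f _ => ?_)
  obtain ⟨a, b, hb, rfl⟩ := IsFractionRing.div_surjective (A := affineModel K x) f
  have hb0 : (b : F) ≠ 0 := by simpa using nonZeroDivisors.ne_zero hb
  have hb' : b ∉ centreIdeal v := by
    rw [hbot, Ideal.mem_bot]; exact nonZeroDivisors.ne_zero hb
  rw [mem_centreIdeal_iff, not_or, not_lt] at hb'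
  have ha := ord_nonneg_of_mem v.1 ((mem_affineModel_iff x).mp a.2 v.1 v.2)
  refine mem_of_ord_nonneg v.1 ?_
  show 0 ≤ v.1.ord ((a : F) / (b : F))
  rcases eq_or_ne (a : F) 0 with h0 | h0
  · simp [h0]
  · rw [ord_div v.1 h0 hb0]; omega

/-- The centre as a height one prime. -/
def centre : HeightOneSpectrum (affineModel K x) :=
  ⟨centreIdeal v, Ideal.comap_isPrime _ _, centreIdeal_ne_bot hx v⟩

include hx in
/-- The place of the centre is the place. -/
theorem ofHeightOneSpectrum_centre :
    haveI := isDedekindDomain_affineModel hx
    haveI := isFractionRing_affineModel hx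
    (Place.ofHeightOneSpectrum (K := K) (centre hx v) : Place K F) = v.1 := by
  haveI := isDedekindDomain_affineModel hx
  haveI := isFractionRing_affineModel hx
  refine eq_of_toValuationSubring_le ?_
  rw [Place.ofHeightOneSpectrum_toValuationSubring,
    ← HeightOneSpectrum.valuationSubringAtPrime_eq_valuationSubring]
  rintro f ⟨a, s, hs, rfl⟩
  have hs' : ¬((s : F) = 0 ∨ 0 < v.1.ord (s : F)) := fun h => hs ((mem_centreIdeal_iff v).mpr h)
  rw [not_or, not_lt] at hs'
  refine mul_mem ((mem_affineModel_iff x).mp a.2 v.1 v.2) (mem_of_ord_nonneg v.1 ?_)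
  show 0 ≤ v.1.ord (s : F)⁻¹
  rw [v.1.ord_inv]
  omega

include hx in
/-- Finite places correspond to the height one primes of the affine model. -/
def centreEquiv :
    {v : Place K F // x ∈ v.toValuationSubring} ≃ HeightOneSpectrum (affineModel K x) where
  toFun v := centre hx v
  invFun w :=
    haveI := isDedekindDomain_affineModel hx
    haveI := isFractionRing_affineModel hx
    ⟨Place.ofHeightOneSpectrum (K := K) w, by
      show w.valuation F x ≤ 1
      exact w.valuation_le_one (⟨x, mem_affineModel_self x⟩ : affineModel K x)⟩
  left_inv v := Subtype.ext (ofHeightOneSpectrum_centre hx v)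
  right_inv w := by
    haveI := isDedekindDomain_affineModel hx
    haveI := isFractionRing_affineModel hx
    apply HeightOneSpectrum.ext
    ext r
    refine Iff.trans (mem_centreIdeal_iff _) ?_
    rw [ord_ofHeightOneSpectrum]
    rcases eq_or_ne (r : F) 0 with h0 | h0
    · have : r = 0 := Subtype.ext h0
      simp [this]
    · have hne : w.valuation F (r : F) ≠ 0 := (Valuation.ne_zero_iff _).mpr h0
      rw [or_iff_right h0, ← w.valuation_lt_one_iff_mem (K := F)]
      have hiff : w.valuation F (r : F) < 1 ↔ WithZero.log (w.valuation F (r : F)) < 0 := by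
        conv_lhs => rw [← WithZero.exp_log hne, ← WithZero.exp_zero, WithZero.exp_lt_exp]
      refine Iff.trans ?_ hiff.symm
      omega

theorem centreEquiv_apply :
    (centreEquiv hx v).asIdeal = centreIdeal v := rfl

include hx in
theorem ord_eq_neg_log_valuation (f : F) :
    haveI := isDedekindDomain_affineModel hx
    haveI := isFractionRing_affineModel hx
    v.1.ord f = -(WithZero.log ((centre hx v).valuation F f)) := by
  haveI := isDedekindDomain_affineModel hx
  haveI := isFractionRing_affineModel hx
  rw [← ord_ofHeightOneSpectrum (K := K), ofHeightOneSpectrum_centre]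

include hx in
theorem residue_affineModelToPlace_surjective :
    Function.Surjective
      ((IsLocalRing.residue v.1.toValuationSubring).comp (affineModelToPlace v)) := by
  haveI := isDedekindDomain_affineModel hx
  haveI := isFractionRing_affineModel hx
  intro y
  obtain ⟨u, rfl⟩ := IsLocalRing.residue_surjective y
  have hu : (u : F) ∈ HeightOneSpectrum.valuationSubringAtPrime F (centre hx v) := by
    rw [HeightOneSpectrum.valuationSubringAtPrime_eq_valuationSubring,
      ← Place.ofHeightOneSpectrum_toValuationSubring (K := K), ofHeightOneSpectrum_centre hx v]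
    exact u.2
  obtain ⟨a, s, hs, he⟩ := hu
  haveI hmax : (centre hx v).asIdeal.IsMaximal := (centre hx v).isMaximal
  obtain ⟨t, i, hi, hti⟩ := hmax.exists_inv hs
  refine ⟨a * t, ?_⟩
  set φ := (IsLocalRing.residue v.1.toValuationSubring).comp (affineModelToPlace v)
  have hi0 : φ i = 0 := (IsLocalRing.residue_eq_zero_iff _).mpr hi
  have hts : φ t * φ s = 1 := by
    rw [← map_mul, ← add_zero (φ (t * s)), ← hi0, ← map_add, hti, map_one]
  have hus : φ a = IsLocalRing.residue _ u * φ s := by
    show IsLocalRing.residue _ (affineModelToPlace v a)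
      = _ * IsLocalRing.residue _ (affineModelToPlace v s)
    rw [← map_mul]
    refine congrArg _ (Subtype.ext ?_)
    show (a : F) = (u : F) * (s : F)
    have hs0 : (s : F) ≠ 0 := by
      intro h0; exact hs ((mem_centreIdeal_iff v).mpr (Or.inl h0))
    rw [he]
    exact (inv_mul_cancel_right₀ hs0 (a : F)).symm
  rw [map_mul, hus, mul_assoc, mul_comm (φ s), hts, mul_one]

include hx in
/-- The residue field of the centre is the residue field of the place. -/
def residueFieldCentreEquiv :
    (affineModel K x ⧸ centreIdeal v) ≃+* v.1.ResidueField :=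
  (Ideal.quotEquivOfEq (by
      ext r
      rw [RingHom.mem_ker, RingHom.comp_apply, IsLocalRing.residue_eq_zero_iff]
      rfl :
      centreIdeal v = RingHom.ker
        ((IsLocalRing.residue v.1.toValuationSubring).comp (affineModelToPlace v)))).trans
    (RingHom.quotientKerEquivOfSurjective (residue_affineModelToPlace_surjective hx v))

@[simp]
theorem residueFieldCentreEquiv_mk (r : affineModel K x) :
    residueFieldCentreEquiv hx v (Ideal.Quotient.mk _ r)
      = IsLocalRing.residue _ (affineModelToPlace v r) := rfl

end Separable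

end Fermat.Agent.Curve

end
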