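import Fermat.Agent.Curve.RiemannRoch

/-!
# Transport along `K`-isomorphisms, and subfields of function fields

`placeEquiv e`, `ord_placeEquiv`, `divisorEquiv e`, `pic0Equiv e`, `riemannRochSpaceEquiv e D`,
`genusFF_congr e`, and `IsFunctionField1` for isomorphic fields and for intermediate fields.

Owner: helper36.
-/

set_option autoImplicit false
set_option linter.style.haveILetI false

noncomputable section

open IntermediateField AlgebraicCurve

namespace Fermat.Agent.Curve

variable {K F F' : Type*} [Field K] [Field F] [Field F'] [Algebra K F] [Algebra K F']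

/-! ### Intermediate fields -/

theorem isFunctionField1_intermediateField [IsFunctionField1 K F] (E : IntermediateField K F)
    {t : F} (ht : Transcendental K t) (htE : t ∈ E) : IsFunctionField1 K E := by
  haveI := isFunctionField1_adjoin ht
  haveI := finiteDimensional_adjoin (K := K) ht
  have hle : K⟮t⟯ ≤ E := adjoin_simple_le_iff.mpr htE
  letI : Algebra K⟮t⟯ E := (IntermediateField.inclusion hle).toRingHom.toAlgebra
  haveI : IsScalarTower K K⟮t⟯ E := IsScalarTower.of_algebraMap_eq fun _ => rfl
  haveI : IsScalarTower K⟮t⟯ E F := IsScalarTower.of_algebraMap_eq fun _ => rfl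
  haveI : FiniteDimensional K⟮t⟯ E := Module.Finite.of_injective
    ((IsScalarTower.toAlgHom K⟮t⟯ E F).toLinearMap) Subtype.val_injective
  exact IsFunctionField1.of_finite K K⟮t⟯ E

theorem isFunctionField1_of_algEquiv (e : F ≃ₐ[K] F') [IsFunctionField1 K F] :
    IsFunctionField1 K F' := by
  letI : Algebra F F' := e.toRingEquiv.toRingHom.toAlgebra
  haveI : IsScalarTower K F F' := IsScalarTower.of_algebraMap_eq fun a => (e.commutes a).symm
  haveI : FiniteDimensional F F' :=
    Module.Finite.of_surjective (Algebra.linearMap F F') e.surjective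
  exact IsFunctionField1.of_finite K F F'

/-! ### Places -/

variable (e : F ≃ₐ[K] F')

/-- Image of a valuation subring's elements. -/
def placeRingEquiv (A : ValuationSubring F) :
    A ≃+* A.comap e.symm.toRingEquiv.toRingHom where
  toFun a := ⟨e a, by simp⟩
  invFun b := ⟨e.symm b, b.2⟩
  left_inv a := by ext; simp
  right_inv b := by ext; simp
  map_mul' a b := Subtype.ext (map_mul e (a : F) (b : F))
  map_add' a b := Subtype.ext (map_add e (a : F) (b : F))

/-- Transport of a place. -/
def mapPlace (v : Place K F) : Place K F' where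
  toValuationSubring := v.toValuationSubring.comap e.symm.toRingEquiv.toRingHom
  algebraMap_mem' a := by
    have := v.algebraMap_mem' a
    simpa using this
  ne_top' h := by
    refine v.ne_top' (SetLike.ext fun f => ⟨fun _ => trivial, fun _ => ?_⟩)
    have : e f ∈ v.toValuationSubring.comap e.symm.toRingEquiv.toRingHom := by rw [h]; trivial
    simpa using this
  isPrincipalIdealRing' :=
    IsPrincipalIdealRing.of_surjective
      (placeRingEquiv e v.toValuationSubring : v.toValuationSubring →+* _)
      (placeRingEquiv e v.toValuationSubring).surjective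

theorem mem_mapPlace_iff (v : Place K F) {f : F'} :
    f ∈ (mapPlace e v).toValuationSubring ↔ e.symm f ∈ v.toValuationSubring := Iff.rfl

/-- `Place K F ≃ Place K F'`. -/
def placeEquiv : Place K F ≃ Place K F' where
  toFun := mapPlace e
  invFun := mapPlace e.symm
  left_inv v := by
    apply Place.ext
    ext f
    change e.symm (e.symm.symm f) ∈ v.toValuationSubring ↔ _
    simp
  right_inv v := by
    apply Place.ext
    ext f
    change e.symm.symm (e.symm f) ∈ v.toValuationSubring ↔ _
    simp

@[simp]
theorem placeEquiv_apply (v : Place K F) : placeEquiv e v = mapPlace e v := rfl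

theorem ord_mapPlace (v : Place K F) (f : F) : (mapPlace e v).ord (e f) = v.ord f := by
  rcases eq_or_ne f 0 with rfl | hf
  · simp
  obtain ⟨π, hπ⟩ := IsDiscreteValuationRing.exists_irreducible v.toValuationSubring
  obtain ⟨u, hu⟩ := v.exists_unit_mul_zpow hf hπ
  set n := v.ord f
  set ρ : v.toValuationSubring ≃+* (mapPlace e v).toValuationSubring :=
    placeRingEquiv e v.toValuationSubring
  have hπ' : Irreducible (ρ π) := (MulEquiv.irreducible_iff ρ).mpr hπ
  have hu' : IsUnit (ρ (u : v.toValuationSubring)) := u.isUnit.map ρ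
  have key : e f = ((hu'.unit : (mapPlace e v).toValuationSubring) : F')
      * (((ρ π : (mapPlace e v).toValuationSubring) : F') ^ n) := by
    rw [IsUnit.unit_spec, hu, map_mul, map_zpow₀]
    rfl
  rw [key, (mapPlace e v).ord_unit_smul_zpow hu'.unit hπ' n]

theorem ord_placeEquiv (v : Place K F) (f : F) : (placeEquiv e v).ord (e f) = v.ord f :=
  ord_mapPlace e v f

theorem ord_placeEquiv_symm (w : Place K F') (f : F) :
    w.ord (e f) = ((placeEquiv e).symm w).ord f := by
  obtain ⟨v, rfl⟩ := (placeEquiv e).surjective w
  rw [Equiv.symm_apply_apply, ord_placeEquiv]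

/-- Residue fields correspond. -/
def residueFieldEquiv (v : Place K F) : v.ResidueField ≃ₐ[K] (mapPlace e v).ResidueField :=
  AlgEquiv.ofRingEquiv (f := (IsLocalRing.ResidueField.mapEquiv
      (placeRingEquiv e v.toValuationSubring) :
        v.ResidueField ≃+* (mapPlace e v).ResidueField)) fun a => by
    show IsLocalRing.ResidueField.mapEquiv _ (IsLocalRing.residue _ _) = IsLocalRing.residue _ _
    rw [IsLocalRing.ResidueField.mapEquiv_apply, IsLocalRing.ResidueField.map_residue]
    refine congrArg _ (Subtype.ext ?_)
    exact e.commutes a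

@[simp]
theorem deg_mapPlace (v : Place K F) : (mapPlace e v).deg = v.deg :=
  ((residueFieldEquiv e v).toLinearEquiv.finrank_eq).symm

/-! ### Divisors -/

/-- Transport of divisors. -/
def divisorEquiv : Divisor K F ≃+ Divisor K F' := Finsupp.domCongr (placeEquiv e)

theorem divisorEquiv_apply (D : Divisor K F) (w : Place K F') :
    divisorEquiv e D w = D ((placeEquiv e).symm w) := by
  simp [divisorEquiv]

theorem divisorEquiv_apply_mapPlace (D : Divisor K F) (v : Place K F) :
    divisorEquiv e D (mapPlace e v) = D v := by
  rw [divisorEquiv_apply, ← placeEquiv_apply, Equiv.symm_apply_apply]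

theorem divisorEquiv_single (v : Place K F) (n : ℤ) :
    divisorEquiv e (Finsupp.single v n) = Finsupp.single (mapPlace e v) n := by
  simp [divisorEquiv]

@[simp]
theorem degree_divisorEquiv (D : Divisor K F) :
    Divisor.degree (divisorEquiv e D) = Divisor.degree D := by
  induction D using Finsupp.induction with
  | zero => simp
  | single_add v n D _ _ ih =>
    rw [map_add, map_add, map_add, ih, divisorEquiv_single, Divisor.degree_single,
      Divisor.degree_single, deg_mapPlace]

theorem isPrincipal_divisorEquiv_iff (D : Divisor K F) :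
    (divisorEquiv e D).IsPrincipal ↔ D.IsPrincipal := by
  constructor
  · rintro ⟨g, hg, hD⟩
    refine ⟨e.symm g, by simpa using hg, fun v => ?_⟩
    rw [← divisorEquiv_apply_mapPlace e D v, hD, ← ord_mapPlace e v, e.apply_symm_apply]
  · rintro ⟨f, hf, hD⟩
    refine ⟨e f, by simpa using hf, fun w => ?_⟩
    rw [divisorEquiv_apply, hD, ord_placeEquiv_symm]

theorem map_degZero_divisorEquiv :
    (Divisor.degZero (K := K) (F := F)).map (divisorEquiv e).toAddMonoidHom
      = Divisor.degZero (K := K) (F := F') := by
  ext D
  constructor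
  · rintro ⟨E, hE, rfl⟩
    rw [Divisor.mem_degZero]
    simpa using Divisor.mem_degZero.mp hE
  · intro hD
    refine ⟨(divisorEquiv e).symm D, ?_, by simp⟩
    rw [SetLike.mem_coe, Divisor.mem_degZero, ← degree_divisorEquiv e, AddEquiv.apply_symm_apply]
    exact Divisor.mem_degZero.mp hD

/-- Transport of degree-zero divisors. -/
def degZeroEquiv :
    Divisor.degZero (K := K) (F := F) ≃+ Divisor.degZero (K := K) (F := F') :=
  ((divisorEquiv e).addSubgroupMap _).trans (AddEquiv.addSubgroupCongr (map_degZero_divisorEquiv e))

@[simp]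
theorem coe_degZeroEquiv (D : Divisor.degZero (K := K) (F := F)) :
    (degZeroEquiv e D : Divisor K F') = divisorEquiv e D := rfl

/-- Transport of `Pic⁰`. -/
def pic0Equiv : Pic0 K F ≃+ Pic0 K F' :=
  QuotientAddGroup.congr _ _ (degZeroEquiv e) (by
    ext D
    constructor
    · rintro ⟨E, hE, rfl⟩
      exact (isPrincipal_divisorEquiv_iff e E.1).mpr hE
    · intro hD
      refine ⟨(degZeroEquiv e).symm D, ?_, by simp⟩
      refine (isPrincipal_divisorEquiv_iff e _).mp ?_
      show (divisorEquiv e (((degZeroEquiv e).symm D : _) : Divisor K F)).IsPrincipal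
      rw [← coe_degZeroEquiv, AddEquiv.apply_symm_apply]
      exact hD)

@[simp]
theorem pic0Equiv_mk (D : Divisor.degZero (K := K) (F := F)) :
    pic0Equiv e (Pic0.mk D) = Pic0.mk (degZeroEquiv e D) := rfl

/-! ### Riemann–Roch spaces and the genus -/

theorem mem_riemannRochSpace_divisorEquiv (D : Divisor K F) {f : F} :
    e f ∈ riemannRochSpace (divisorEquiv e D) ↔ f ∈ riemannRochSpace D := by
  simp only [mem_riemannRochSpace_iff, EmbeddingLike.map_eq_zero_iff]
  rw [← (placeEquiv e).forall_congr_right]
  simp only [divisorEquiv_apply, Equiv.symm_apply_apply, ord_placeEquiv]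

/-- Transport of `L(D)`. -/
def riemannRochSpaceEquiv (D : Divisor K F) :
    riemannRochSpace D ≃ₗ[K] riemannRochSpace (divisorEquiv e D) where
  toFun f := ⟨e f, (mem_riemannRochSpace_divisorEquiv e D).mpr f.2⟩
  invFun g := ⟨e.symm g, (mem_riemannRochSpace_divisorEquiv e D).mp (by
    rw [e.apply_symm_apply]; exact g.2)⟩
  left_inv f := by ext; simp
  right_inv g := by ext; simp
  map_add' f g := by ext; simp
  map_smul' c f := by ext; simp

theorem ell_divisorEquiv (D : Divisor K F) : ell (divisorEquiv e D) = ell D :=
  (riemannRochSpaceEquiv e D).finrank_eq.symm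

theorem genusFF_congr (e : F ≃ₐ[K] F') [IsFunctionField1 K F] :
    genusFF K F = genusFF K F' := by
  haveI := isFunctionField1_of_algEquiv e
  obtain ⟨d, hd⟩ := exists_specialIndex_eq_zero (K := K) (F := F)
  obtain ⟨d', hd'⟩ := exists_specialIndex_eq_zero (K := K) (F := F')
  obtain ⟨P⟩ := exists_place (K := K) (F := F)
  have hdeg := deg_pos P
  set D : Divisor K F := Finsupp.single P ((d.natAbs + d'.natAbs : ℕ) : ℤ)
  have hD : d ≤ Divisor.degree D ∧ d' ≤ Divisor.degree D := by
    rw [Divisor.degree_single]
    have : ((d.natAbs + d'.natAbs : ℕ) : ℤ) * 1 ≤ ((d.natAbs + d'.natAbs : ℕ) : ℤ) * P.deg :=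
      mul_le_mul_of_nonneg_left (by omega) (by positivity)
    omega
  have h1 := ell_sub_specialIndex D
  have h2 := ell_sub_specialIndex (divisorEquiv e D)
  have h0 : ell (0 : Divisor K F') = ell (0 : Divisor K F) := by
    rw [← ell_divisorEquiv e (0 : Divisor K F), map_zero]
  rw [hd D hD.1] at h1
  rw [hd' _ (by rw [degree_divisorEquiv]; exact hD.2), ell_divisorEquiv, degree_divisorEquiv, h0] at h2
  omega

end Fermat.Agent.Curve

end
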