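import Fermat.Agent.Curve.DiffFG
import Fermat.Prelude.Def_AlgebraicCurve_DivisorPushPull

/-!
# Ramification over `K(x)` and the order of `dx`
-/

set_option autoImplicit false

noncomputable section

open IntermediateField KaehlerDifferential Polynomial

namespace Fermat.Agent.Curve

open AlgebraicCurve

variable {K F : Type*} [Field K] [Field F] [Algebra K F] (v : Place K F)

theorem aeval_mem_valuationSubring {x : F} (hx : x ∈ v.toValuationSubring) (p : K[X]) :
    aeval x p ∈ v.toValuationSubring := by
  induction p using Polynomial.induction_on with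
  | C a => rw [aeval_C]; exact v.algebraMap_mem' a
  | add p q hp hq => rw [map_add]; exact add_mem hp hq
  | monomial n a _ =>
    rw [map_mul, aeval_C, map_pow, aeval_X]
    exact mul_mem (v.algebraMap_mem' a) (pow_mem hx _)

theorem aeval_coe_valuationSubring (X' : v.toValuationSubring) (p : K[X]) :
    aeval (X' : F) p = ((aeval X' p : v.toValuationSubring) : F) :=
  aeval_algebraMap_apply F X' p

theorem residue_aeval (X' : v.toValuationSubring) (p : K[X]) :
    IsLocalRing.residue v.toValuationSubring (aeval X' p) =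
      aeval (IsLocalRing.residue v.toValuationSubring X') p :=
  (aeval_algebraMap_apply v.ResidueField X' p).symm

/-- A polynomial in `x ∈ O_v` not killed by the residue of `x` is a unit at `v`. -/
theorem ord_aeval_eq_zero (X' : v.toValuationSubring) {p : K[X]}
    (hp : aeval (IsLocalRing.residue v.toValuationSubring X') p ≠ 0) :
    aeval (X' : F) p ≠ 0 ∧ v.ord (aeval (X' : F) p) = 0 := by
  rw [← residue_aeval, IsLocalRing.residue_ne_zero_iff_isUnit] at hp
  rw [aeval_coe_valuationSubring]
  exact ⟨by simpa using hp.ne_zero, v.ord_coe_unit hp.unit⟩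

theorem ord_aeval_pos (X' : v.toValuationSubring) {p : K[X]}
    (hp : aeval (IsLocalRing.residue v.toValuationSubring X') p = 0)
    (h0 : aeval (X' : F) p ≠ 0) : 0 < v.ord (aeval (X' : F) p) := by
  rw [← residue_aeval, IsLocalRing.residue_eq_zero_iff, IsLocalRing.mem_maximalIdeal,
    mem_nonunits_iff, ← v.adicValuation_coe_eq_one_iff, ← aeval_coe_valuationSubring] at hp
  refine lt_of_le_of_ne (by rw [aeval_coe_valuationSubring]; exact place_ord_coe_nonneg v _)
    fun h => hp ?_
  have hne := v.adicValuation_ne_zero h0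
  unfold Place.ord at h
  rw [eq_comm, neg_eq_zero] at h
  rw [← WithZero.exp_log hne, h, WithZero.exp_zero]

variable {x : F}

/-- The order at `v` of a nonzero polynomial in `x ∈ O_v` is a multiple of the order of the
minimal polynomial of the residue of `x`. -/
theorem dvd_ord_aeval (hx : Transcendental K x) (hxv : x ∈ v.toValuationSubring)
    (halg : IsIntegral K (IsLocalRing.residue v.toValuationSubring ⟨x, hxv⟩))
    {q : K[X]} (hq : q ≠ 0) :
    v.ord (aeval x (minpoly K (IsLocalRing.residue v.toValuationSubring ⟨x, hxv⟩))) ∣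
      v.ord (aeval x q) := by
  set P := minpoly K (IsLocalRing.residue v.toValuationSubring ⟨x, hxv⟩) with hP
  have hPdeg : 0 < P.degree := minpoly.degree_pos halg
  obtain ⟨k, q₁, hndvd, hq'⟩ :=
    WfDvdMonoid.max_power_factor hq (minpoly.irreducible halg)
  have hP0 : aeval x P ≠ 0 := fun h => (minpoly.ne_zero halg) (by
    by_contra hne; exact hx ⟨P, hne, h⟩)
  have hq1 := ord_aeval_eq_zero v (⟨x, hxv⟩ : v.toValuationSubring) (p := q₁)
    (fun h => hndvd (minpoly.dvd K _ h))
  rw [hq', map_mul, map_pow, v.ord_mul (pow_ne_zero _ hP0) hq1.1, hq1.2, add_zero,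
    ← zpow_natCast, v.ord_zpow]
  exact dvd_mul_left _ _

variable [Algebra.IsIntegral K⟮x⟯ F]

/-- The ramification index over `K(x)` of a place at which `x` is regular is the order of the
minimal polynomial of the residue of `x`, evaluated at `x`. -/
theorem ramificationIndex_eq_ord_aeval_minpoly (hx : Transcendental K x)
    (hxv : x ∈ v.toValuationSubring)
    (halg : IsIntegral K (IsLocalRing.residue v.toValuationSubring ⟨x, hxv⟩)) :
    (v.ramificationIndex K⟮x⟯ : ℤ) =
      v.ord (aeval x (minpoly K (IsLocalRing.residue v.toValuationSubring ⟨x, hxv⟩))) := by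
  set P := minpoly K (IsLocalRing.residue v.toValuationSubring ⟨x, hxv⟩) with hP
  have hP0 : aeval x P ≠ 0 := fun h => hx ⟨P, minpoly.ne_zero halg, h⟩
  have hpos : 0 < v.ord (aeval x P) :=
    ord_aeval_pos v (⟨x, hxv⟩ : v.toValuationSubring) (minpoly.aeval K _) hP0
  refine Int.dvd_antisymm (Int.natCast_nonneg _) hpos.le ?_ ?_
  · have hmem : aeval x P ∈ K⟮x⟯ :=
      algebra_adjoin_le_adjoin K _ (aeval_mem_adjoin_singleton K x)
    have h := v.ramificationIndex_dvd_ord (F := K⟮x⟯) (f := ⟨aeval x P, hmem⟩)
      (fun h => hP0 (congrArg Subtype.val h))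
    exact h
  · obtain ⟨g, hg0, hg⟩ := v.exists_ord_eq_ramificationIndex (F := K⟮x⟯)
    obtain ⟨a, b, hab⟩ := (mem_adjoin_simple_iff K _).mp g.2
    have hg0' : (g : F) ≠ 0 := fun h => hg0 (Subtype.ext h)
    rw [hab] at hg0'
    obtain ⟨ha, hb⟩ := div_ne_zero_iff.mp hg0'
    rw [← hg, show algebraMap K⟮x⟯ F g = (g : F) from rfl, hab, div_eq_mul_inv,
      v.ord_mul ha (inv_ne_zero hb), v.ord_inv]
    exact dvd_add (dvd_ord_aeval v hx hxv halg (fun h => ha (by simp [h])))
      (dvd_ord_aeval v hx hxv halg (fun h => hb (by simp [h]))).neg_right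

theorem ramificationIndex_adjoin_inv (x : F) :
    v.ramificationIndex K⟮x⁻¹⟯ = v.ramificationIndex K⟮x⟯ := by
  have h : K⟮x⁻¹⟯ = K⟮x⟯ := by
    apply le_antisymm <;> rw [adjoin_simple_le_iff]
    · exact inv_mem (mem_adjoin_simple_self K x)
    · simpa using inv_mem (mem_adjoin_simple_self K x⁻¹)
  exact congrArg (fun E : IntermediateField K F => v.ramificationIndex E) h

/-- At a pole of `x` the ramification index over `K(x)` is the pole order. -/
theorem ramificationIndex_eq_neg_ord_of_pole (hx : Transcendental K x) (hpole : v.ord x < 0) :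
    (v.ramificationIndex K⟮x⟯ : ℤ) = -v.ord x := by
  have hint : ∀ E : IntermediateField K F, E = K⟮x⟯ → Algebra.IsIntegral E F := by
    rintro E rfl; assumption
  have : Algebra.IsIntegral K⟮x⁻¹⟯ F := hint _ (by
    apply le_antisymm <;> rw [adjoin_simple_le_iff]
    · exact inv_mem (mem_adjoin_simple_self K x)
    · simpa using inv_mem (mem_adjoin_simple_self K x⁻¹))
  have hy : x⁻¹ ∈ v.toValuationSubring :=
    (place_mem_iff v).mpr (Or.inr (by rw [v.ord_inv]; omega))
  have hy0 : IsLocalRing.residue v.toValuationSubring ⟨x⁻¹, hy⟩ = 0 := by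
    rw [IsLocalRing.residue_eq_zero_iff, IsLocalRing.mem_maximalIdeal, mem_nonunits_iff]
    intro hu
    have := v.ord_coe_unit hu.unit
    rw [IsUnit.unit_spec] at this
    rw [v.ord_inv] at this
    omega
  have h := ramificationIndex_eq_ord_aeval_minpoly v (x := x⁻¹)
    (fun halg => hx (by simpa using halg.inv)) hy (hy0 ▸ isIntegral_zero)
  rw [hy0, minpoly.zero, aeval_X, v.ord_inv, ramificationIndex_adjoin_inv] at h
  exact h

variable [Algebra.IsSeparable K v.ResidueField]

omit [Algebra.IsIntegral K⟮x⟯ F] in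
theorem nontrivial_kaehler_of_separating (hx : IsSeparatingElement K x) :
    Nontrivial Ω[F⁄K] :=
  ⟨⟨_, 0, hx.D_ne_zero⟩⟩

/-- Tame Riemann–Hurwitz, locally: `ord_v (dx) = (e - 1) - 2 · (pole order of x)`. -/
theorem ordDifferential_D_eq_of_tame (hx : IsSeparatingElement K x)
    (htame : (v.ramificationIndex K⟮x⟯ : K) ≠ 0) :
    v.ordDifferential (D K F x) =
      ((v.ramificationIndex K⟮x⟯ : ℤ) - 1) - 2 * max (-v.ord x) 0 := by
  have := nontrivial_kaehler_of_separating hx
  have hfg := differentials_fg hx v
  rcases lt_or_ge (v.ord x) 0 with hneg | hpos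
  · have he := ramificationIndex_eq_neg_ord_of_pole v hx.transcendental hneg
    have hn : (v.ord x : K) ≠ 0 := by
      rw [show v.ord x = -(v.ramificationIndex K⟮x⟯ : ℤ) by omega]
      simpa using htame
    rw [(ordDifferential_D hfg hn).2, max_eq_left (by omega)]
    omega
  · have hxv : x ∈ v.toValuationSubring := (place_mem_iff v).mpr (Or.inr hpos)
    set α := IsLocalRing.residue v.toValuationSubring ⟨x, hxv⟩ with hα
    have halg : IsIntegral K α := (Algebra.IsSeparable.isSeparable K α).isIntegral
    have he : (v.ramificationIndex K⟮x⟯ : ℤ) = v.ord (aeval x (minpoly K α)) :=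
      ramificationIndex_eq_ord_aeval_minpoly v hx.transcendental hxv halg
    have hn : (v.ord (aeval x (minpoly K α)) : K) ≠ 0 := by
      rw [← he]; simpa using htame
    obtain ⟨hu0, hu⟩ := ord_aeval_eq_zero v (⟨x, hxv⟩ : v.toValuationSubring)
      (p := derivative (minpoly K α))
      ((Algebra.IsSeparable.isSeparable K α).aeval_derivative_ne_zero (minpoly.aeval K α))
    have h := (ordDifferential_D hfg hn).2
    rw [Derivation.map_aeval, ordDifferential_smul_of_fg hfg hu0 hx.D_ne_zero, hu, zero_add]
      at h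
    rw [h, he, max_eq_right (by omega)]
    omega

/-- Away from the poles of `x`, `e - 1 ≤ ord_v (dx)`, also in the wild case. -/
theorem ramificationIndex_sub_one_le_ordDifferential_D (hx : IsSeparatingElement K x)
    (hxv : x ∈ v.toValuationSubring) :
    (v.ramificationIndex K⟮x⟯ : ℤ) - 1 ≤ v.ordDifferential (D K F x) := by
  have := nontrivial_kaehler_of_separating hx
  have hfg := differentials_fg hx v
  set α := IsLocalRing.residue v.toValuationSubring ⟨x, hxv⟩ with hα
  have halg : IsIntegral K α := (Algebra.IsSeparable.isSeparable K α).isIntegral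
  rw [ramificationIndex_eq_ord_aeval_minpoly v hx.transcendental hxv halg]
  obtain ⟨hu0, hu⟩ := ord_aeval_eq_zero v (⟨x, hxv⟩ : v.toValuationSubring)
    (p := derivative (minpoly K α))
    ((Algebra.IsSeparable.isSeparable K α).aeval_derivative_ne_zero (minpoly.aeval K α))
  have hne : D K F (aeval x (minpoly K α)) ≠ 0 := by
    rw [Derivation.map_aeval]
    exact smul_ne_zero hu0 hx.D_ne_zero
  have h := ordDifferential_D_ge hfg hne
  rw [Derivation.map_aeval, ordDifferential_smul_of_fg hfg hu0 hx.D_ne_zero, hu, zero_add] at h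
  exact h

end Fermat.Agent.Curve
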