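import Fermat.Agent.Curve.Canonical
import Fermat.Agent.Curve.Fibre
import Fermat.Agent.Curve.RamificationRatFunc
import Mathlib.RingTheory.DedekindDomain.Different

/-!
# The semilocal ring over a place is monogenic

For algebraically closed constants, the ring `R_Q` of functions integral at all places over `Q`
is `O_Q[y]` for any `y` taking distinct values, simply, at the places over `Q`; its trace dual is
`f'(y)⁻¹ • R_Q`.

Owner: helper39.
-/

set_option autoImplicit false
set_option linter.unusedSectionVars false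

noncomputable section

open IntermediateField AlgebraicCurve KaehlerDifferential Polynomial
open scoped Pointwise

namespace Fermat.Agent.Curve

variable {K F F' : Type*} [Field K] [Field F] [Field F'] [Algebra K F] [Algebra K F']
  [Algebra F F'] [IsScalarTower K F F'] [IsFunctionField1 K F] [IsFunctionField1 K F']
  [FiniteDimensional F F']

variable (F') in
/-- The functions of `F'` regular at every place over `Q`, as an `O_Q`-algebra. -/
def semilocalRing (Q : Place K F) : Subalgebra Q.toValuationSubring F' where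
  carrier := {z | ∀ w ∈ Q.fiber F', z ∈ w.toValuationSubring}
  mul_mem' ha hb w hw := mul_mem (ha w hw) (hb w hw)
  add_mem' ha hb w hw := add_mem (ha w hw) (hb w hw)
  algebraMap_mem' a w hw := by
    have h := Place.mem_fiber.mp hw
    subst h
    exact (Place.mem_restrict_iff w).mp a.2

theorem mem_semilocalRing {Q : Place K F} {z : F'} :
    z ∈ semilocalRing F' Q ↔ ∀ w ∈ Q.fiber F', z ∈ w.toValuationSubring := Iff.rfl

theorem algebraMap_mem_semilocalRing {Q : Place K F} {a : F} (ha : a ∈ Q.toValuationSubring) :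
    algebraMap F F' a ∈ semilocalRing F' Q :=
  (semilocalRing F' Q).algebraMap_mem ⟨a, ha⟩

theorem constant_mem_semilocalRing (Q : Place K F) (k : K) :
    algebraMap K F' k ∈ semilocalRing F' Q :=
  fun w _ => w.algebraMap_mem' k

theorem ord_algebraMap_fiber {Q : Place K F} {w : Place K F'} (hw : w ∈ Q.fiber F') (a : F) :
    w.ord (algebraMap F F' a) = w.ramificationIndex F * Q.ord a := by
  have h := Place.mem_fiber.mp hw
  subst h
  exact w.ord_restrict a

variable [IsAlgClosed K]

/-- The order of a constant-coefficient polynomial in `y`, when `y - c` is a uniformiser. -/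
theorem ord_aeval_eq_rootMultiplicity (w : Place K F') {y : F'} {c : K}
    (hy : w.ord (y - algebraMap K F' c) = 1) {q : K[X]} (hq : q ≠ 0) :
    aeval y q ≠ 0 ∧ w.ord (aeval y q) = (q.rootMultiplicity c : ℤ) := by
  obtain ⟨q₁, hq₁, hndvd⟩ := q.exists_eq_pow_rootMultiplicity_mul_and_not_dvd hq c
  have hc0 : y - algebraMap K F' c ≠ 0 := place_ne_zero_of_ord_ne_zero w (by omega)
  have hcm : y - algebraMap K F' c ∈ w.toValuationSubring :=
    (mem_iff_ord_nonneg w).mpr (by omega)
  have hym : y ∈ w.toValuationSubring := by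
    simpa using add_mem hcm (w.algebraMap_mem' c)
  have hres : IsLocalRing.residue w.toValuationSubring (⟨y, hym⟩ : w.toValuationSubring) =
      algebraMap K w.ResidueField c := by
    rw [← sub_eq_zero]
    change IsLocalRing.residue w.toValuationSubring ⟨y, hym⟩ -
      IsLocalRing.residue w.toValuationSubring (algebraMap K w.toValuationSubring c) = 0
    rw [← map_sub, IsLocalRing.residue_eq_zero_iff]
    refine mem_maximalIdeal_iff.mpr (Or.inr ?_)
    simp [hy]
  obtain ⟨h1, h2⟩ := ord_aeval_eq_zero w (⟨y, hym⟩ : w.toValuationSubring) (p := q₁) (by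
    rw [hres, aeval_algebraMap_apply, _root_.map_ne_zero, coe_aeval_eq_eval]
    exact fun h => hndvd (dvd_iff_isRoot.mpr h))
  have hX : aeval y (X - C c) = y - algebraMap K F' c := by simp
  constructor
  · rw [hq₁, map_mul, map_pow, hX]
    exact mul_ne_zero (pow_ne_zero _ hc0) h1
  · conv_lhs => rw [hq₁, map_mul, map_pow, hX]
    rw [w.ord_mul (pow_ne_zero _ hc0) h1, h2, ord_pow, hy]
    simp

/-- `y` takes distinct values, simply, at the places over `Q`. -/
structure IsSimpleOver (Q : Place K F) (y : F') (c : Place K F' → K) : Prop where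
  injOn : Set.InjOn c (Q.fiber F')
  ord_eq : ∀ w ∈ Q.fiber F', w.ord (y - algebraMap K F' (c w)) = 1

variable (F') in
theorem exists_isSimpleOver (Q : Place K F) :
    ∃ (y : F') (c : Place K F' → K), IsSimpleOver Q y c := by
  classical
  set S := Q.fiber F'
  have : Infinite K := IsAlgClosed.instInfinite
  let c : Place K F' → K := fun w =>
    if h : w ∈ S then Infinite.natEmbedding K (Fintype.equivFin S ⟨w, h⟩ : ℕ) else 0
  choose T hT using fun w : Place K F' => exists_uniformizer w
  obtain ⟨y, hy⟩ := exists_approx S (fun w => algebraMap K F' (c w) + T w) (fun _ => 2)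
  refine ⟨y, c, ?_, fun w hw => ?_⟩
  · intro a ha b hb hab
    have hca : ∀ (u : Place K F') (hu : u ∈ S),
        c u = Infinite.natEmbedding K (Fintype.equivFin S ⟨u, hu⟩ : ℕ) := fun u hu => dif_pos hu
    rw [hca a ha, hca b hb] at hab
    have := (Fintype.equivFin S).injective (Fin.ext ((Infinite.natEmbedding K).injective hab))
    exact congrArg Subtype.val this
  · rcases hy w hw with h | h
    · rw [sub_eq_zero] at h
      rw [h, add_sub_cancel_left]
      exact (hT w).2
    · have hlt : w.ord (T w) < w.ord (y - (algebraMap K F' (c w) + T w)) := by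
        rw [(hT w).2]; omega
      rw [show y - algebraMap K F' (c w) = T w + (y - (algebraMap K F' (c w) + T w)) by ring,
        ord_add_eq_of_lt w (hT w).1 hlt]
      exact (hT w).2

/-- A function regular at `Q` is a constant plus a multiple of the uniformiser. -/
theorem exists_const_add_mul (Q : Place K F) {t : F} (ht : Q.ord t = 1) {a : F}
    (ha : a ∈ Q.toValuationSubring) :
    ∃ k : K, ∃ a' ∈ Q.toValuationSubring, a = algebraMap K F k + t * a' := by
  obtain ⟨k, hk⟩ := exists_sub_algebraMap_ord_pos Q ha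
  have ht0 : t ≠ 0 := place_ne_zero_of_ord_ne_zero Q (by omega)
  refine ⟨k, (a - algebraMap K F k) / t, ?_, by field_simp; ring⟩
  rcases hk with h | h
  · rw [h, zero_div]; exact zero_mem _
  · have h0 : a - algebraMap K F k ≠ 0 := place_ne_zero_of_ord_ne_zero Q (by omega)
    rw [mem_iff_ord_nonneg, div_eq_mul_inv, Q.ord_mul h0 (inv_ne_zero ht0), Q.ord_inv, ht]
    omega

namespace IsSimpleOver

variable {Q : Place K F} {y : F'} {c : Place K F' → K} (hy : IsSimpleOver Q y c)
include hy

theorem mem : y ∈ semilocalRing F' Q := fun w hw => by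
  have h : y - algebraMap K F' (c w) ∈ w.toValuationSubring :=
    (mem_iff_ord_nonneg w).mpr (by rw [hy.ord_eq w hw]; simp)
  simpa using add_mem h (w.algebraMap_mem' (c w))

omit hy in
theorem natDegree_prod :
    (∏ w ∈ Q.fiber F', (X - C (c w)) ^ w.ramificationIndex F).natDegree =
      Module.finrank F F' := by
  rw [natDegree_prod_of_monic _ _ fun w _ => (monic_X_sub_C _).pow _,
    ← sum_ramificationIndex_eq_finrank (F' := F') Q]
  simp

/-- Polynomials in `y` divisible by `t` are divisible by `∏ (X - c_w) ^ e_w`. -/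
theorem prod_dvd {t : F} (ht : Q.ord t = 1) {q : K[X]} {r : F'}
    (hr : r ∈ semilocalRing F' Q) (h : aeval y q = algebraMap F F' t * r) :
    (∏ w ∈ Q.fiber F', (X - C (c w)) ^ w.ramificationIndex F) ∣ q := by
  rcases eq_or_ne q 0 with rfl | hq
  · exact dvd_zero _
  refine Finset.prod_dvd_of_coprime (fun w hw w' hw' hne => ?_) fun w hw => ?_
  · exact (isCoprime_X_sub_C_of_isUnit_sub (sub_ne_zero.mpr
      fun h => hne (hy.injOn hw hw' h)).isUnit).pow
  · obtain ⟨h0, hord⟩ := ord_aeval_eq_rootMultiplicity w (hy.ord_eq w hw) hq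
    rw [← le_rootMultiplicity_iff hq]
    rw [h] at h0 hord
    rw [w.ord_mul (left_ne_zero_of_mul h0) (right_ne_zero_of_mul h0),
      ord_algebraMap_fiber hw, ht] at hord
    have := (mem_iff_ord_nonneg w).mp (hr w hw)
    omega

/-- No non-zero polynomial of degree `< n` with constant coefficients is divisible by `t`. -/
theorem eq_zero_of_natDegree_lt {t : F} (ht : Q.ord t = 1) {q : K[X]} {r : F'}
    (hr : r ∈ semilocalRing F' Q) (h : aeval y q = algebraMap F F' t * r)
    (hdeg : q.natDegree < Module.finrank F F') : q = 0 := by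
  by_contra hq
  have := natDegree_le_of_dvd (hy.prod_dvd ht hr h) hq
  rw [natDegree_prod] at this
  omega

/-- Coordinates with respect to `1, y, …, y^(n-1)` of an element of `R_Q` lie in `O_Q`. -/
theorem coeff_mem {a : Fin (Module.finrank F F') → F} {z : F'}
    (hz : z ∈ semilocalRing F' Q)
    (h : ∑ i, algebraMap F F' (a i) * y ^ (i : ℕ) = z) (i) : a i ∈ Q.toValuationSubring := by
  classical
  obtain ⟨t, ht0, ht⟩ := exists_uniformizer Q
  have htO : t ∈ Q.toValuationSubring := (mem_iff_ord_nonneg Q).mpr (by omega)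
  have hstep : ∀ N : ℕ, (∀ i, t ^ (N + 1) * a i ∈ Q.toValuationSubring) →
      ∀ i, t ^ N * a i ∈ Q.toValuationSubring := by
    intro N hN
    choose k b hb hkb using fun i => exists_const_add_mul Q ht (hN i)
    let q : K[X] := ∑ i : Fin (Module.finrank F F'), C (k i) * X ^ (i : ℕ)
    have hdeg : q.natDegree < Module.finrank F F' := by
      have hn : 0 < Module.finrank F F' := Module.finrank_pos
      refine lt_of_le_of_lt (natDegree_sum_le_of_forall_le _ _ (n := Module.finrank F F' - 1)
        fun i _ => (natDegree_C_mul_X_pow_le _ _).trans ?_) (Nat.sub_lt hn one_pos)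
      omega
    have hr : algebraMap F F' (t ^ N) * z - ∑ i, algebraMap F F' (b i) * y ^ (i : ℕ) ∈
        semilocalRing F' Q :=
      sub_mem (mul_mem (algebraMap_mem_semilocalRing (pow_mem htO _)) hz)
        (sum_mem fun i _ => mul_mem (algebraMap_mem_semilocalRing (hb i)) (pow_mem hy.mem _))
    have hq : aeval y q = algebraMap F F' t *
        (algebraMap F F' (t ^ N) * z - ∑ i, algebraMap F F' (b i) * y ^ (i : ℕ)) := by
      rw [mul_sub, ← mul_assoc, ← map_mul, ← pow_succ', ← h, Finset.mul_sum, Finset.mul_sum,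
        ← Finset.sum_sub_distrib, map_sum]
      refine Finset.sum_congr rfl fun i _ => ?_
      rw [map_mul, aeval_C, map_pow, aeval_X, ← mul_assoc (algebraMap F F' (t ^ (N + 1))),
        ← map_mul, hkb i, map_add, map_mul, ← IsScalarTower.algebraMap_apply]
      ring
    have hq0 := hy.eq_zero_of_natDegree_lt ht hr hq hdeg
    intro i
    have hki : k i = 0 := by
      have hc := congrArg (fun p : K[X] => p.coeff (i : ℕ)) hq0
      simpa [q, finsetSum_coeff, coeff_C_mul_X_pow, Fin.val_inj] using hc
    have := hkb i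
    rw [hki, map_zero, zero_add, pow_succ', mul_assoc] at this
    rw [mul_left_cancel₀ ht0 this]
    exact hb i
  have hall : ∀ N : ℕ, (∀ i, t ^ N * a i ∈ Q.toValuationSubring) →
      ∀ i, a i ∈ Q.toValuationSubring := by
    intro N
    induction N with
    | zero => intro h i; simpa using h i
    | succ N ih => exact fun h => ih (hstep N h)
  refine hall (Finset.univ.sup fun i => (-Q.ord (a i)).toNat) (fun j => ?_) i
  rcases eq_or_ne (a j) 0 with hj | hj
  · rw [hj, mul_zero]; exact zero_mem _
  · rw [mem_iff_ord_nonneg, Q.ord_mul (pow_ne_zero _ ht0) hj, ord_pow, ht, mul_one]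
    have := Finset.le_sup (f := fun i => (-Q.ord (a i)).toNat) (Finset.mem_univ j)
    omega

theorem linearIndependent :
    LinearIndependent F fun i : Fin (Module.finrank F F') => y ^ (i : ℕ) := by
  rw [Fintype.linearIndependent_iff]
  intro a ha i
  by_contra hne
  obtain ⟨t, ht0, ht⟩ := exists_uniformizer Q
  have h := hy.coeff_mem (a := fun j => (a i * t)⁻¹ * a j) (z := 0) (zero_mem _) (by
    simp only [Algebra.smul_def] at ha
    rw [← mul_zero (algebraMap F F' (a i * t)⁻¹), ← ha, Finset.mul_sum]
    exact Finset.sum_congr rfl fun j _ => by rw [map_mul, mul_assoc]) i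
  rw [show (a i * t)⁻¹ * a i = t⁻¹ by field_simp, mem_iff_ord_nonneg, Q.ord_inv, ht] at h
  omega

theorem exists_eq_sum (z : F') :
    ∃ a : Fin (Module.finrank F F') → F, ∑ i, algebraMap F F' (a i) * y ^ (i : ℕ) = z := by
  have : Nonempty (Fin (Module.finrank F F')) := ⟨⟨0, Module.finrank_pos⟩⟩
  let b := basisOfLinearIndependentOfCardEqFinrank hy.linearIndependent (Fintype.card_fin _)
  refine ⟨fun i => b.repr z i, ?_⟩
  conv_rhs => rw [← b.sum_repr z]
  exact Finset.sum_congr rfl fun i _ => by
    rw [Algebra.smul_def]; simp [b]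

/-- `R_Q = O_Q[y]`. -/
theorem adjoin_eq : Algebra.adjoin Q.toValuationSubring {y} = semilocalRing F' Q := by
  refine le_antisymm (Algebra.adjoin_le (Set.singleton_subset_iff.mpr hy.mem)) fun z hz => ?_
  obtain ⟨a, ha⟩ := hy.exists_eq_sum z
  rw [← ha]
  refine sum_mem fun i _ => mul_mem ?_ (pow_mem (Algebra.self_mem_adjoin_singleton _ _) _)
  exact (Algebra.adjoin Q.toValuationSubring {y}).algebraMap_mem ⟨a i, hy.coeff_mem hz ha i⟩

theorem adjoin_eq_top : Algebra.adjoin F {y} = ⊤ := by
  refine eq_top_iff.mpr fun z _ => ?_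
  obtain ⟨a, rfl⟩ := hy.exists_eq_sum z
  exact sum_mem fun i _ => mul_mem (Subalgebra.algebraMap_mem _ _)
    (pow_mem (Algebra.self_mem_adjoin_singleton _ _) _)

/-- The equation of `y` over `O_Q`: `f = X^n - ∑ a_i X^i`. -/
theorem exists_equation :
    ∃ a : Fin (Module.finrank F F') → F, (∀ i, a i ∈ Q.toValuationSubring) ∧
      minpoly F y = X ^ Module.finrank F F' - ∑ i : Fin (Module.finrank F F'), C (a i) * X ^ (i : ℕ) := by
  obtain ⟨a, ha⟩ := hy.exists_eq_sum (y ^ Module.finrank F F')
  refine ⟨a, fun i => hy.coeff_mem (pow_mem hy.mem _) ha i, ?_⟩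
  have hdeg : (∑ i : Fin (Module.finrank F F'), C (a i) * X ^ (i : ℕ)).degree <
      (Module.finrank F F' : WithBot ℕ) := degree_sum_fin_lt a
  refine (minpoly.unique F y (monic_X_pow_sub hdeg) ?_ fun q hq hq0 => ?_).symm
  · rw [map_sub, map_pow, aeval_X, map_sum, ← ha, sub_eq_zero]
    exact Finset.sum_congr rfl fun i _ => by simp
  · rw [degree_sub_eq_left_of_degree_lt (by rwa [degree_X_pow]), degree_X_pow]
    by_contra hlt
    rw [not_le] at hlt
    have hqn : q.natDegree < Module.finrank F F' :=
      (natDegree_lt_iff_degree_lt hq.ne_zero).mpr hlt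
    rw [aeval_eq_sum_range' hqn, Finset.sum_range] at hq0
    have := Fintype.linearIndependent_iff.mp hy.linearIndependent _ hq0 ⟨q.natDegree, hqn⟩
    exact one_ne_zero (hq.coeff_natDegree.symm.trans this)

theorem isIntegral : IsIntegral Q.toValuationSubring y := by
  obtain ⟨a, ha, hmin⟩ := hy.exists_equation
  refine ⟨X ^ Module.finrank F F' -
      ∑ i : Fin (Module.finrank F F'), C (⟨a i, ha i⟩ : Q.toValuationSubring) * X ^ (i : ℕ),
    monic_X_pow_sub (degree_sum_fin_lt _), ?_⟩
  have h := minpoly.aeval F y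
  rw [hmin] at h
  rw [← aeval_def, ← h]
  simp only [map_sub, map_sum, map_mul, map_pow, aeval_X, aeval_C]
  rfl

/-- Euler: the trace dual of `R_Q = O_Q[y]` is `f'(y)⁻¹ • R_Q`. -/
theorem mem_dual_iff [Algebra.IsSeparable F F'] (u : F') :
    (∀ z ∈ semilocalRing F' Q, Algebra.trace F F' (u * z) ∈ Q.toValuationSubring) ↔
      aeval y (derivative (minpoly F y)) * u ∈ semilocalRing F' Q := by
  have key := traceForm_dualSubmodule_adjoin Q.toValuationSubring F hy.adjoin_eq_top hy.isIntegral
  have hne : aeval y (derivative (minpoly F y)) ≠ 0 :=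
    (Algebra.IsSeparable.isSeparable F y).aeval_derivative_ne_zero (minpoly.aeval F y)
  rw [hy.adjoin_eq] at key
  have h := SetLike.ext_iff.mp key u
  rw [← SetLike.mem_coe (x := u) (p := _ • _), Submodule.coe_pointwise_smul,
    Set.mem_smul_set_iff_inv_smul_mem₀ (inv_ne_zero hne), inv_inv, smul_eq_mul] at h
  refine Iff.trans (Iff.trans ?_ h) Iff.rfl
  refine forall₂_congr fun z _ => ?_
  rw [Submodule.mem_one]
  constructor
  · intro hz; exact ⟨⟨_, hz⟩, rfl⟩
  · rintro ⟨o, ho⟩
    rw [← Algebra.traceForm_apply, ← ho]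
    exact o.2

end IsSimpleOver

end Fermat.Agent.Curve

end
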