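import Fermat.Agent.Curve.Canonical
import Fermat.Agent.Curve.Fibre
import Fermat.Agent.Curve.Monogenic

/-!
# The different exponent and Riemann–Hurwitz

Owner: helper39. `Duality` uses `mem_codifferent_iff`; `DualityApps` derives genus formulas.
-/

set_option autoImplicit false
set_option linter.unusedSectionVars false

noncomputable section

open IntermediateField AlgebraicCurve KaehlerDifferential
open Polynomial hiding map_ne_zero
open scoped TensorProduct

namespace Fermat.Agent.Curve

variable {K F F' : Type*} [Field K] [Field F] [Field F'] [Algebra K F] [Algebra K F']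
  [Algebra F F'] [IsScalarTower K F F'] [IsFunctionField1 K F] [IsFunctionField1 K F']
  [FiniteDimensional F F'] [Algebra.IsSeparable F F'] [IsAlgClosed K]

variable (F) in
/-- The exponent of the different at `w`: `ord_w (dT/dt)` for uniformisers `T` below, `t` at `w`. -/
def differentExp (w : Place K F') : ℤ :=
  w.ordDifferential (D K F' (algebraMap F F' (exists_uniformizer (w.restrict F)).choose))

theorem map_ne_zero_of_ne_zero {ω : Ω[F⁄K]} (hω : ω ≠ 0) :
    KaehlerDifferential.map K K F F' ω ≠ 0 := by
  intro h
  have : Algebra.FormallyEtale F F' := Algebra.FormallyEtale.of_isSeparable F F'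
  have h1 : KaehlerDifferential.tensorKaehlerEquivOfFormallyEtale K F F' (1 ⊗ₜ[F] ω) = 0 := by
    rw [KaehlerDifferential.tensorKaehlerEquivOfFormallyEtale_apply,
      KaehlerDifferential.mapBaseChange_tmul, one_smul, h]
  rw [LinearEquiv.map_eq_zero_iff] at h1
  obtain ⟨v, hv⟩ : ∃ v : Module.Dual F Ω[F⁄K], v ω ≠ 0 := by
    by_contra hv
    push Not at hv
    exact hω ((Module.forall_dual_apply_eq_zero_iff F ω).mp hv)
  have h2 := congrArg ((TensorProduct.rid F F').toLinearMap ∘ₗ v.lTensor F') h1
  rw [LinearMap.comp_apply, LinearMap.lTensor_tmul, LinearEquiv.coe_coe, TensorProduct.rid_tmul,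
    map_zero, smul_eq_zero] at h2
  exact h2.elim hv one_ne_zero

variable (F) in
/-- The uniformiser below `w` used in the definition of the different exponent. -/
theorem ord_below_uniformizer (w : Place K F') :
    (exists_uniformizer (w.restrict F)).choose ≠ 0 ∧
      (w.restrict F).ord (exists_uniformizer (w.restrict F)).choose = 1 :=
  (exists_uniformizer (w.restrict F)).choose_spec

theorem D_algebraMap_ne_zero_of_ord_one (Q : Place K F) {t : F} (ht : Q.ord t = 1) :
    D K F' (algebraMap F F' t) ≠ 0 := by
  rw [← KaehlerDifferential.map_D K K F F']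
  exact map_ne_zero_of_ne_zero (D_ne_zero_of_ord_eq_one Q ht)

theorem ordDifferential_map (w : Place K F') {ω : Ω[F⁄K]} (hω : ω ≠ 0) :
    w.ordDifferential (KaehlerDifferential.map K K F F' ω) =
      w.ramificationIndex F * (w.restrict F).ordDifferential ω + differentExp F w := by
  obtain ⟨-, ht⟩ := ord_below_uniformizer F w
  obtain ⟨f, rfl⟩ := exists_smul_D_eq (differentials_fg_of_isCurveOver (w.restrict F)) ht ω
  have hf : f ≠ 0 := by rintro rfl; simp at hω
  rw [map_smul, KaehlerDifferential.map_D, algebra_compatible_smul F' f,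
    ordDifferential_smul_of_ne_zero w (by simpa using hf) (D_algebraMap_ne_zero_of_ord_one _ ht),
    ordDifferential_smul_D_uniformizer _ ht, Place.ord_restrict]
  rfl

theorem sub_one_le_differentExp (w : Place K F') :
    (w.ramificationIndex F : ℤ) - 1 ≤ differentExp F w := by
  obtain ⟨-, ht⟩ := ord_below_uniformizer F w
  have h := sub_one_le_ordDifferential_D w (D_algebraMap_ne_zero_of_ord_one (F' := F') _ ht)
  rw [Place.ord_restrict, ht, mul_one] at h
  exact h

theorem differentExp_eq_of_tame (w : Place K F') (h : (w.ramificationIndex F : K) ≠ 0) :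
    differentExp F w = w.ramificationIndex F - 1 := by
  obtain ⟨-, ht⟩ := ord_below_uniformizer F w
  have he : w.ord (algebraMap F F' (exists_uniformizer (w.restrict F)).choose) =
      w.ramificationIndex F := by rw [Place.ord_restrict, ht, mul_one]
  rw [differentExp, ordDifferential_D_of_ne_zero w (by rw [he]; simpa using h), he]

theorem finite_differentExp_ne_zero : {w : Place K F' | differentExp F w ≠ 0}.Finite := by
  obtain ⟨x, hx⟩ := exists_isSeparatingElement_of_isFunctionField1 K F
  have hω : D K F x ≠ 0 := hx.D_ne_zero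
  refine ((canonicalDivisorOf (map_ne_zero_of_ne_zero (F' := F') hω)).support.finite_toSet.union
    ((canonicalDivisorOf hω).support.finite_toSet.biUnion
      fun Q _ => (Q.fiber F').finite_toSet)).subset fun w hw => ?_
  simp only [Set.mem_union, Set.mem_iUnion, Finset.mem_coe, Finsupp.mem_support_iff,
    canonicalDivisorOf_apply, exists_prop]
  by_contra hc
  push Not at hc
  obtain ⟨h1, h2⟩ := hc
  rw [ordDifferential_map w hω] at h1
  have h3 : (w.restrict F).ordDifferential (D K F x) = 0 := by
    by_contra h3; exact h2 _ h3 (Place.restrict_mem_fiber w)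
  rw [h3, mul_zero, zero_add] at h1
  exact hw h1

theorem finite_ramificationIndex_ne_one :
    {w : Place K F' | w.ramificationIndex F ≠ 1}.Finite := by
  refine (finite_differentExp_ne_zero (F := F)).subset fun w hw h0 => hw ?_
  have h := sub_one_le_differentExp (F := F) w
  have := w.ramificationIndex_pos (F := F)
  rw [h0] at h
  omega

variable (F F') in
/-- The different divisor. -/
def differentDivisor : Divisor K F' :=
  Finsupp.onFinset (finite_differentExp_ne_zero (K := K) (F := F) (F' := F')).toFinset
    (fun w => differentExp F w) fun w h => by simpa using h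

theorem differentDivisor_apply (w : Place K F') : differentDivisor F F' w = differentExp F w :=
  rfl

theorem canonicalDivisorOf_map {ω : Ω[F⁄K]} (hω : ω ≠ 0) :
    canonicalDivisorOf (map_ne_zero_of_ne_zero (F' := F') hω) =
      Divisor.pullback F' (canonicalDivisorOf hω) + differentDivisor F F' := by
  ext w
  rw [Finsupp.add_apply, Divisor.pullback_apply, canonicalDivisorOf_apply,
    canonicalDivisorOf_apply, differentDivisor_apply, ordDifferential_map w hω]

/-- The derivative of the equation of a simple generator has order `differentExp`. -/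
theorem IsSimpleOver.ord_aeval_derivative {Q : Place K F} {y : F'} {c : Place K F' → K}
    (hy : IsSimpleOver Q y c) {w : Place K F'} (hw : w ∈ Q.fiber F') :
    w.ord (aeval y (derivative (minpoly F y))) = differentExp F w := by
  have hwQ := Place.mem_fiber.mp hw
  subst hwQ
  obtain ⟨ht0, ht⟩ := ord_below_uniformizer F w
  set Q := w.restrict F
  set t := (exists_uniformizer Q).choose with htdef
  set n := Module.finrank F F' with hn
  set e := w.ramificationIndex F with he
  have he0 : 0 < e := w.ramificationIndex_pos (F := F)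
  obtain ⟨a, ha, hmin⟩ := hy.exists_equation
  choose k b hb hab using fun i => exists_const_add_mul Q ht (ha i)
  let P : K[X] := X ^ n - ∑ i : Fin n, C (k i) * X ^ (i : ℕ)
  let h : F' := ∑ i : Fin n, algebraMap F F' (b i) * y ^ (i : ℕ)
  let h' : F' := ∑ i : Fin n, algebraMap F F' (b i) * ((i : ℕ) * y ^ ((i : ℕ) - 1))
  set T := algebraMap F F' t with hT
  have hh : h ∈ semilocalRing F' Q :=
    sum_mem fun i _ => mul_mem (algebraMap_mem_semilocalRing (hb i)) (pow_mem hy.mem _)
  -- the equation `P(y) = T h`
  have hPy : aeval y P = T * h := by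
    have h0 := minpoly.aeval F y
    rw [hmin] at h0
    simp only [map_sub, map_pow, aeval_X, map_sum, map_mul, aeval_C] at h0
    simp only [P, h, map_sub, map_pow, aeval_X, map_sum, map_mul, aeval_C]
    rw [sub_eq_zero] at h0
    rw [h0, Finset.mul_sum, sub_eq_iff_eq_add, ← Finset.sum_add_distrib]
    refine Finset.sum_congr rfl fun i _ => ?_
    rw [hab i, map_add, map_mul, ← IsScalarTower.algebraMap_apply K F F']
    ring
  -- hence `P = ∏ (X - c) ^ e` and `h` is a unit at `w`
  have hdeg : (∑ i : Fin n, C (k i) * X ^ (i : ℕ)).degree < (n : WithBot ℕ) := degree_sum_fin_lt k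
  have hPm : P.Monic := monic_X_pow_sub hdeg
  have hPd : P.natDegree = n := natDegree_eq_of_degree_eq_some (by
    rw [degree_sub_eq_left_of_degree_lt (by rwa [degree_X_pow]), degree_X_pow])
  have hPprod : P = ∏ v ∈ Q.fiber F', (X - C (c v)) ^ v.ramificationIndex F :=
    eq_of_monic_of_dvd_of_natDegree_le
      (monic_prod_of_monic _ _ fun v _ => (monic_X_sub_C _).pow _) hPm (hy.prod_dvd ht hh hPy)
      (by rw [IsSimpleOver.natDegree_prod, hPd])
  obtain ⟨hPy0, hPyord⟩ := ord_aeval_eq_rootMultiplicity w (hy.ord_eq w hw) hPm.ne_zero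
  have hmult : (P.rootMultiplicity (c w) : ℤ) = e := by
    rw [← hPyord, hPprod, map_prod, ord_prod w _ _ fun v _ => (ord_aeval_eq_rootMultiplicity w
      (hy.ord_eq w hw) ((monic_X_sub_C (c v)).pow _).ne_zero).1]
    rw [Finset.sum_eq_single w]
    · simp [ord_pow, hy.ord_eq w hw, he]
    · intro v hv hne
      rw [(ord_aeval_eq_rootMultiplicity w (hy.ord_eq w hw)
        ((monic_X_sub_C (c v)).pow _).ne_zero).2,
        rootMultiplicity_eq_zero (fun hroot => hne (hy.injOn hv hw (by
          rw [IsRoot.def, eval_pow, eval_sub, eval_X, eval_C] at hroot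
          exact (sub_eq_zero.mp (eq_zero_of_pow_eq_zero hroot)).symm)))]
      rfl
    · exact fun h => absurd hw h
  rw [hmult, hPy] at hPyord
  rw [hPy] at hPy0
  have hTord : w.ord T = e := by rw [hT, ord_algebraMap_fiber hw, ht, mul_one]
  have hh0 : h ≠ 0 := right_ne_zero_of_mul hPy0
  have hhord : w.ord h = 0 := by
    rw [w.ord_mul (left_ne_zero_of_mul hPy0) hh0, hTord] at hPyord
    omega
  -- differentiate
  choose g hg using fun i => exists_coe_smul_D (differentials_fg_of_isCurveOver Q) ht
    (⟨b i, hb i⟩ : Q.toValuationSubring)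
  let G : F' := ∑ i : Fin n, algebraMap F F' (g i) * y ^ (i : ℕ)
  have hG : G ∈ semilocalRing F' Q :=
    sum_mem fun i _ => mul_mem (algebraMap_mem_semilocalRing (g i).2) (pow_mem hy.mem _)
  have hDh : D K F' h = G • D K F' T + h' • D K F' y := by
    simp only [h, G, h', map_sum, Finset.sum_smul, ← Finset.sum_add_distrib]
    refine Finset.sum_congr rfl fun i _ => ?_
    have hDb : D K F' (algebraMap F F' (b i)) = algebraMap F F' (g i) • D K F' T := by
      rw [← KaehlerDifferential.map_D K K F F', hg i, map_smul, KaehlerDifferential.map_D,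
        algebra_compatible_smul F']
    rw [Derivation.leibniz, Derivation.leibniz_pow, hDb, smul_smul, add_comm,
      ← Nat.cast_smul_eq_nsmul F', smul_smul, smul_smul]
    congr 1 <;> congr 1 <;> ring
  have hf' : aeval y (derivative (minpoly F y)) = aeval y (derivative P) - T * h' := by
    rw [hmin]
    simp only [P, h', map_sub, derivative_X_pow, map_sum, derivative_C_mul_X_pow,
      map_mul, aeval_C, map_natCast, map_pow, aeval_X, Finset.mul_sum]
    rw [sub_sub, ← Finset.sum_add_distrib]
    congr 1
    refine Finset.sum_congr rfl fun i _ => ?_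
    rw [hab i, map_add, map_mul, ← IsScalarTower.algebraMap_apply K F F']
    ring
  have key : aeval y (derivative (minpoly F y)) • D K F' y = (h + T * G) • D K F' T := by
    have hD := congrArg (D K F') hPy
    rw [Derivation.map_aeval, Derivation.leibniz, hDh, smul_add, smul_smul, smul_smul] at hD
    rw [hf', sub_smul, hD, add_smul]
    abel
  have hDy : D K F' y ≠ 0 ∧ w.ordDifferential (D K F' y) = 0 := by
    have := ordDifferential_D (v := w) (f := y - algebraMap K F' (c w))
      (differentials_fg_of_isCurveOver w) (by rw [hy.ord_eq w hw]; simp)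
    rw [map_sub, Derivation.map_algebraMap, sub_zero, hy.ord_eq w hw] at this
    exact this
  have hu : h + T * G ≠ 0 ∧ w.ord (h + T * G) = 0 := by
    rcases eq_or_ne G 0 with hG0 | hG0
    · simp [hG0, hh0, hhord]
    · have hlt : w.ord h < w.ord (T * G) := by
        rw [w.ord_mul (left_ne_zero_of_mul hPy0) hG0, hTord, hhord]
        have := (mem_iff_ord_nonneg w).mp (hG w hw)
        omega
      refine ⟨fun h0 => ?_, by rw [ord_add_eq_of_lt w hh0 hlt, hhord]⟩
      rw [add_eq_zero_iff_eq_neg] at h0
      rw [h0, ord_neg] at hlt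
      exact lt_irrefl _ hlt
  have hne : aeval y (derivative (minpoly F y)) ≠ 0 :=
    (Algebra.IsSeparable.isSeparable F y).aeval_derivative_ne_zero (minpoly.aeval F y)
  have := congrArg w.ordDifferential key
  rw [ordDifferential_smul_of_ne_zero w hne hDy.1, hDy.2, add_zero,
    ordDifferential_smul_of_ne_zero w hu.1 (D_algebraMap_ne_zero_of_ord_one Q ht), hu.2,
    zero_add] at this
  exact this

/-- The local different: trace dual of the semilocal ring over `Q`. -/
theorem mem_codifferent_iff (Q : Place K F) (u : F') :
    (∀ z : F', (∀ w ∈ Q.fiber F', z ∈ w.toValuationSubring) →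
        Algebra.trace F F' (u * z) ∈ Q.toValuationSubring) ↔
      ∀ w ∈ Q.fiber F', u = 0 ∨ -differentExp F w ≤ w.ord u := by
  obtain ⟨y, c, hy⟩ := exists_isSimpleOver F' Q
  have hne : aeval y (derivative (minpoly F y)) ≠ 0 :=
    (Algebra.IsSeparable.isSeparable F y).aeval_derivative_ne_zero (minpoly.aeval F y)
  refine (hy.mem_dual_iff u).trans (forall₂_congr fun w hw => ?_)
  rw [mem_iff_ord_nonneg]
  rcases eq_or_ne u 0 with rfl | hu
  · simp
  · rw [w.ord_mul hne hu, hy.ord_aeval_derivative hw]
    constructor
    · intro h; exact Or.inr (by omega)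
    · rintro (h | h)
      · exact absurd h hu
      · omega

end Fermat.Agent.Curve

end
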