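import Fermat.Agent.Curve.WeilDifferential
import Fermat.Agent.Curve.RiemannHurwitz

/-!
# The cotrace of a Weil differential

For a finite separable extension `F'/F` a Weil differential on `F` with divisor `W₀` yields one on
`F'` with divisor `pullback W₀ + differentDivisor`.
-/

set_option autoImplicit false

noncomputable section

open AlgebraicCurve

namespace Fermat.Agent.Curve

variable {K F F' : Type*} [Field K] [Field F] [Field F'] [Algebra K F] [Algebra K F']
  [Algebra F F'] [IsScalarTower K F F'] [IsFunctionField1 K F] [IsFunctionField1 K F']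
  [FiniteDimensional F F'] [Algebra.IsSeparable F F'] [IsAlgClosed K]

variable (F') in
/-- The divisor of the cotrace. -/
def cotraceDivisor (W₀ : Divisor K F) : Divisor K F' :=
  Divisor.pullback F' W₀ + differentDivisor F F'

variable {W₀ : Divisor K F}

theorem cotraceDivisor_apply (w : Place K F') :
    cotraceDivisor F' W₀ w =
      w.ramificationIndex F * W₀ (w.restrict F) + differentExp F w := by
  rw [cotraceDivisor, Finsupp.add_apply, Divisor.pullback_apply, differentDivisor_apply]

theorem ordGE_trace {Q : Place K F} {z : F'}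
    (hz : ∀ w ∈ Q.fiber F', OrdGE w (-cotraceDivisor F' W₀ w) z) :
    OrdGE Q (-W₀ Q) (Algebra.trace F F' z) := by
  obtain ⟨c, hc0, hc⟩ := exists_ord_eq Q (W₀ Q)
  have hu : ∀ w ∈ Q.fiber F',
      algebraMap F F' c * z = 0 ∨ -differentExp F w ≤ w.ord (algebraMap F F' c * z) := by
    intro w hw
    have hw' : w.restrict F = Q := Place.mem_fiber.mp hw
    refine (ordGE_iff w).mp (((ordGE_algebraMap_of_restrict hw'
      (ordGE_of_le_ord hc.ge)).mul (hz w hw)).mono ?_)
    rw [cotraceDivisor_apply, hw']
    omega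
  have h := (mem_codifferent_iff Q (algebraMap F F' c * z)).mpr hu 1 fun w _ => one_mem _
  rw [mul_one, ← Algebra.smul_def, map_smul, smul_eq_mul] at h
  have h' : OrdGE Q (-W₀ Q + 0) (c⁻¹ * (c * Algebra.trace F F' z)) :=
    (ordGE_of_le_ord (by rw [Q.ord_inv, hc])).mul ((ordGE_zero_iff_mem Q).mpr h)
  rwa [← mul_assoc, inv_mul_cancel₀ hc0, one_mul, add_zero] at h'

variable (W₀) in
/-- `β`, constant on fibres, approximates `α`. -/
def IsFibreApprox (α : ↥(repartitions K F')) (β : Place K F → F') : Prop :=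
  ∀ w : Place K F',
    OrdGE w (-cotraceDivisor F' W₀ w) ((α : Place K F' → F') w - β (w.restrict F))

theorem exists_isFibreApprox (α : ↥(repartitions K F')) : ∃ β, IsFibreApprox W₀ α β := by
  choose β hβ using fun Q : Place K F => exists_approx (Q.fiber F') (α : Place K F' → F')
    fun w => -cotraceDivisor F' W₀ w
  refine ⟨β, fun w => ?_⟩
  have h : OrdGE w (-cotraceDivisor F' W₀ w) (β (w.restrict F) - (α : Place K F' → F') w) :=
    (ordGE_iff w).mpr (hβ _ w (Place.restrict_mem_fiber w))
  simpa using h.neg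

theorem IsFibreApprox.trace_mem {α : ↥(repartitions K F')} {β : Place K F → F'}
    (h : IsFibreApprox W₀ α β) : (fun Q => Algebra.trace F F' (β Q)) ∈ repartitions K F := by
  refine mem_repartitions_of_finite_ord
    ((((mem_repartitions_iff.mp α.2).union (cotraceDivisor F' W₀).support.finite_toSet).image
      fun w => w.restrict F).subset fun Q hQ => ?_)
  by_contra hQ'
  refine absurd (ord_nonneg_of_mem Q (Fermat.Agent.Curve.trace_mem Q fun w hw => ?_))
    (not_le.mpr hQ)
  have hw' : w.restrict F = Q := Place.mem_fiber.mp hw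
  have h1 : 0 ≤ w.ord ((α : Place K F' → F') w) :=
    not_lt.mp fun hh => hQ' ⟨w, Or.inl hh, hw'⟩
  have h2 : cotraceDivisor F' W₀ w = 0 :=
    by_contra fun hh => hQ' ⟨w, Or.inr (Finsupp.mem_support_iff.mpr hh), hw'⟩
  have h3 := h w
  rw [h2, neg_zero, ordGE_zero_iff_mem, hw'] at h3
  have h4 := sub_mem (mem_of_ord_nonneg w h1) h3
  rwa [sub_sub_cancel] at h4

/-- The trace of a fibrewise approximation. -/
def IsFibreApprox.traceRep {α : ↥(repartitions K F')} {β : Place K F → F'}
    (h : IsFibreApprox W₀ α β) : ↥(repartitions K F) :=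
  ⟨fun Q => Algebra.trace F F' (β Q), h.trace_mem⟩

variable (η₀ : ↥(repartitions K F) →ₗ[K] K)

theorem IsFibreApprox.map_traceRep_eq (h₀ : ∀ a ∈ repartitionsOf W₀, η₀ a = 0)
    {α : ↥(repartitions K F')} {β β' : Place K F → F'}
    (h : IsFibreApprox W₀ α β) (h' : IsFibreApprox W₀ α β') :
    η₀ h.traceRep = η₀ h'.traceRep := by
  rw [← sub_eq_zero, ← map_sub]
  refine h₀ _ (mem_repartitionsOf_iff_ordGE.mpr fun Q => ?_)
  show OrdGE Q _ (Algebra.trace F F' (β Q) - Algebra.trace F F' (β' Q))
  rw [← map_sub]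
  refine ordGE_trace fun w hw => ?_
  have hd := (h' w).sub (h w)
  rwa [sub_sub_sub_cancel_left, Place.mem_fiber.mp hw] at hd

/-- The cotrace. -/
def cotrace (h₀ : ∀ a ∈ repartitionsOf W₀, η₀ a = 0) : ↥(repartitions K F') →ₗ[K] K where
  toFun α := η₀ (exists_isFibreApprox (W₀ := W₀) α).choose_spec.traceRep
  map_add' α α' := by
    have ha := (exists_isFibreApprox (W₀ := W₀) α).choose_spec
    have hb := (exists_isFibreApprox (W₀ := W₀) α').choose_spec
    have hab : IsFibreApprox W₀ (α + α')
        ((exists_isFibreApprox (W₀ := W₀) α).choose +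
          (exists_isFibreApprox (W₀ := W₀) α').choose) := fun w => by
      have := (ha w).add (hb w)
      rw [sub_add_sub_comm] at this
      exact this
    rw [← map_add,
      IsFibreApprox.map_traceRep_eq η₀ h₀ (exists_isFibreApprox (α + α')).choose_spec hab]
    exact congrArg η₀ (Subtype.ext (funext fun Q => map_add _ _ _))
  map_smul' c α := by
    have ha := (exists_isFibreApprox (W₀ := W₀) α).choose_spec
    have hca : IsFibreApprox W₀ (c • α) (c • (exists_isFibreApprox (W₀ := W₀) α).choose) :=
      fun w => by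
        have := (ordGE_algebraMap w c).mul (ha w)
        rw [zero_add, mul_sub, ← Algebra.smul_def, ← Algebra.smul_def] at this
        exact this
    rw [RingHom.id_apply, ← map_smul,
      IsFibreApprox.map_traceRep_eq η₀ h₀ (exists_isFibreApprox (c • α)).choose_spec hca]
    exact congrArg η₀ (Subtype.ext (funext fun Q => LinearMap.map_smul_of_tower _ c _))

theorem cotrace_apply (h₀ : ∀ a ∈ repartitionsOf W₀, η₀ a = 0) {α : ↥(repartitions K F')}
    {β : Place K F → F'} (h : IsFibreApprox W₀ α β) : cotrace η₀ h₀ α = η₀ h.traceRep :=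
  IsFibreApprox.map_traceRep_eq η₀ h₀ (exists_isFibreApprox (W₀ := W₀) α).choose_spec h

theorem isFullWeil_cotrace (h : IsFullWeil η₀ W₀) :
    IsFullWeil (cotrace (F' := F') η₀ h.map_eq_zero) (cotraceDivisor F' W₀) := by
  classical
  refine ⟨fun f => ?_, fun α hα => ?_, fun P => ?_⟩
  · have hf : IsFibreApprox W₀ (algebraMap F' ↥(repartitions K F') f) fun _ => f := fun w => by
      show OrdGE w _ (f - f)
      rw [sub_self]
      exact ordGE_zero _
    rw [cotrace_apply η₀ h.map_eq_zero hf]
    exact h.map_const (Algebra.trace F F' f)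
  · have hz : IsFibreApprox W₀ α 0 := fun w => by
      simpa using mem_repartitionsOf_iff_ordGE.mp hα w
    rw [cotrace_apply η₀ h.map_eq_zero hz, show hz.traceRep = 0 from
      Subtype.ext (funext fun _ => map_zero _), map_zero]
  set Q := P.restrict F with hQ
  obtain ⟨c, hc, hc'⟩ := h.exists_ne_zero Q
  obtain ⟨u, hu0, hu⟩ := exists_forall_ord_eq (Q.fiber F')
    fun w => -differentExp F w - if w = P then 1 else 0
  have hPQ : P ∈ Q.fiber F' := Place.restrict_mem_fiber P
  -- `u` is just outside the codifferent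
  obtain ⟨z₁, hz₁, htr⟩ : ∃ z₁ : F', (∀ w ∈ Q.fiber F', z₁ ∈ w.toValuationSubring) ∧
      Algebra.trace F F' (u * z₁) ∉ Q.toValuationSubring := by
    by_contra hall
    push Not at hall
    have := ((mem_codifferent_iff Q u).mp hall P hPQ).resolve_left hu0
    rw [hu P hPQ, if_pos rfl] at this
    omega
  obtain ⟨t, ht0, ht⟩ := exists_uniformizer Q
  -- but `t • u` is inside
  have htu : OrdGE Q 0 (t * Algebra.trace F F' (u * z₁)) := by
    rw [ordGE_zero_iff_mem, ← smul_eq_mul, ← map_smul, Algebra.smul_def, ← mul_assoc]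
    refine (mem_codifferent_iff Q (algebraMap F F' t * u)).mpr (fun w hw => (ordGE_iff w).mp ?_)
      z₁ hz₁
    have hw' : w.restrict F = Q := Place.mem_fiber.mp hw
    refine ((ordGE_algebraMap_of_restrict hw' (ordGE_of_le_ord ht.ge)).mul
      (ordGE_of_le_ord (hu w hw).ge)).mono ?_
    have := w.ramificationIndex_pos (F := F)
    split_ifs <;> omega
  set τ := Algebra.trace F F' (u * z₁) with hτdef
  have hτ0 : τ ≠ 0 := fun h0 => htr (h0 ▸ zero_mem _)
  have hτ : Q.ord τ = -1 := by
    have h1 : Q.ord τ < 0 := not_le.mp fun h1 => htr (mem_of_ord_nonneg Q h1)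
    have h2 := htu.le_ord (mul_ne_zero ht0 hτ0)
    rw [Q.ord_mul ht0 hτ0, ht] at h2
    omega
  -- `z` has trace `c`
  set z : F' := algebraMap F F' (c * τ⁻¹) * (u * z₁) with hz
  have hzc : Algebra.trace F F' z = c := by
    rw [hz, ← Algebra.smul_def, map_smul, smul_eq_mul, ← hτdef, inv_mul_cancel_right₀ hτ0]
  have hzw : ∀ w ∈ Q.fiber F',
      OrdGE w (-cotraceDivisor F' W₀ w - if w = P then 1 else 0) z := by
    intro w hw
    have hw' : w.restrict F = Q := Place.mem_fiber.mp hw
    have hcτ : OrdGE Q (-W₀ Q) (c * τ⁻¹) :=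
      (hc.mul (ordGE_of_le_ord (show (1 : ℤ) ≤ Q.ord τ⁻¹ by rw [Q.ord_inv]; omega))).mono
        (by omega)
    refine ((ordGE_algebraMap_of_restrict hw' hcτ).mul ((ordGE_of_le_ord (hu w hw).ge).mul
      ((ordGE_zero_iff_mem w).mpr (hz₁ w hw)))).mono ?_
    rw [cotraceDivisor_apply, hw', mul_neg]
    omega
  refine ⟨z, ?_, ?_⟩
  · simpa using hzw P hPQ
  · have hβ : IsFibreApprox W₀ (singleRep P z) fun Q' => if Q' = Q then z else 0 := by
      intro w
      show OrdGE w _ (_ - if w.restrict F = Q then z else 0)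
      rcases eq_or_ne w P with rfl | hwP
      · rw [singleRep_apply_self, if_pos hQ.symm, sub_self]; exact ordGE_zero _
      · rw [singleRep_apply_of_ne z hwP, zero_sub]
        split_ifs with hwQ
        · have := hzw w (Place.mem_fiber.mpr hwQ)
          rw [if_neg hwP, sub_zero] at this
          exact this.neg
        · simpa using ordGE_zero _
    rw [cotrace_apply η₀ h.map_eq_zero hβ]
    convert hc' using 2
    refine Subtype.ext (funext fun Q' => ?_)
    show Algebra.trace F F' (if Q' = Q then z else 0) = _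
    rcases eq_or_ne Q' Q with rfl | hne
    · rw [if_pos rfl, hzc, singleRep_apply_self]
    · rw [if_neg hne, map_zero, singleRep_apply_of_ne c hne]

end Fermat.Agent.Curve

end
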