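import Fermat.Prelude.Def_AlgebraicCurve_DivisorClassGroup
import Mathlib.RingTheory.DedekindDomain.IntegralClosure
import Mathlib.FieldTheory.IntermediateField.Adjoin.Algebra
import Mathlib.RingTheory.Finiteness.ModuleFinitePresentation
import Mathlib.RingTheory.FiniteType
import Mathlib.RingTheory.Polynomial.Basic

/-!
# Finitely many affine generators for the local rings away from the poles of `x`
-/

set_option autoImplicit false

noncomputable section

open IsDedekindDomain IntermediateField

namespace Fermat.Agent.Curve

open AlgebraicCurve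

variable {K F : Type*} [Field K] [Field F] [Algebra K F]

theorem adjoin_singleton_isPrincipalIdealRing (x : F) :
    IsPrincipalIdealRing (Algebra.adjoin K ({x} : Set F)) := by
  rw [Algebra.adjoin_singleton_eq_range_aeval]
  exact IsPrincipalIdealRing.of_surjective
    (Polynomial.aeval x).rangeRestrict (AlgHom.rangeRestrict_surjective _)

open scoped IntermediateField.algebraAdjoinAdjoin in
/-- If `F` is finite separable over `K(x)`, then there are finitely many elements of `F` such that
every valuation ring of a place at which `x` is regular contains them and consists of quotients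
`a / b` of polynomials in them, with `b` invertible at the place. -/
theorem exists_finset_adjoin_eq_quotients (x : F) (hx : Transcendental K x)
    [FiniteDimensional K⟮x⟯ F] [Algebra.IsSeparable K⟮x⟯ F] :
    ∃ S : Finset F, ∀ v : Place K F, x ∈ v.toValuationSubring →
      (∀ s ∈ S, s ∈ v.toValuationSubring) ∧
      ∀ u ∈ v.toValuationSubring, ∃ a b : F, a ∈ Algebra.adjoin K (S : Set F) ∧
        b ∈ Algebra.adjoin K (S : Set F) ∧ b ≠ 0 ∧ v.ord b = 0 ∧ u = a / b := by
  classical
  let A := Algebra.adjoin K ({x} : Set F)
  have : IsPrincipalIdealRing A := adjoin_singleton_isPrincipalIdealRing x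
  have : IsDedekindDomain A := inferInstance
  let R := integralClosure A F
  have : IsDedekindDomain R := integralClosure.isDedekindDomain A K⟮x⟯ F
  have : IsFractionRing R F :=
    integralClosure.isFractionRing_of_finite_extension (A := A) K⟮x⟯ F
  have : Module.Finite A R := IsIntegralClosure.finite A K⟮x⟯ F R
  obtain ⟨T, hT⟩ := Module.finite_def.mp (inferInstance : Module.Finite A R)
  refine ⟨insert x (T.image (fun r : R => (r : F))), fun v hv => ?_⟩
  let S : Finset F := insert x (T.image (fun r : R => (r : F)))
  change (∀ s ∈ S, _) ∧ _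
  have hxS : x ∈ (S : Set F) := by simp [S]
  -- the integral closure is generated by `S`
  have hR : ∀ r : R, (r : F) ∈ Algebra.adjoin K (S : Set F) := by
    intro r
    have hr : r ∈ Submodule.span A (T : Set R) := hT ▸ Submodule.mem_top
    induction hr using Submodule.span_induction with
    | mem t ht =>
      exact Algebra.subset_adjoin (by
        simp only [S, Finset.coe_insert, Finset.coe_image, Set.mem_insert_iff]
        exact Or.inr ⟨t, ht, rfl⟩)
    | zero => exact zero_mem _
    | add _ _ _ _ h₁ h₂ => exact add_mem h₁ h₂
    | smul a t _ h =>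
      have ha : (a : F) ∈ Algebra.adjoin K (S : Set F) :=
        Algebra.adjoin_mono (Set.singleton_subset_iff.mpr hxS) a.2
      exact mul_mem ha h
  -- and lies in the valuation ring
  have hAv : ∀ a : A, (a : F) ∈ v.toValuationSubring := by
    rintro ⟨a, ha⟩
    show a ∈ v.toValuationSubring
    induction ha using Algebra.adjoin_induction with
    | mem y hy => rw [Set.mem_singleton_iff.mp hy]; exact hv
    | algebraMap c => exact v.algebraMap_mem' c
    | add _ _ _ _ h₁ h₂ => exact add_mem h₁ h₂
    | mul _ _ _ _ h₁ h₂ => exact mul_mem h₁ h₂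
  let : Algebra A v.toValuationSubring :=
    ((algebraMap A F).codRestrict v.toValuationSubring.toSubring hAv).toAlgebra
  have : IsScalarTower A v.toValuationSubring F := IsScalarTower.of_algebraMap_eq fun _ => rfl
  have hRv : ∀ r : R, (r : F) ∈ v.toValuationSubring := by
    intro r
    have hint : IsIntegral v.toValuationSubring (r : F) :=
      IsIntegral.tower_top (R := A) r.2
    obtain ⟨y, hy⟩ := IsIntegrallyClosed.isIntegral_iff.mp hint
    exact hy ▸ y.2
  refine ⟨fun s hs => ?_, fun u hu => ?_⟩
  · rcases Finset.mem_insert.mp hs with rfl | hs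
    · exact hv
    · obtain ⟨r, -, rfl⟩ := Finset.mem_image.mp hs
      exact hRv r
  let ι : R →+* v.toValuationSubring := (algebraMap R F).codRestrict
    v.toValuationSubring.toSubring hRv
  let p : Ideal R := (IsLocalRing.maximalIdeal v.toValuationSubring).comap ι
  have hunit : ∀ s : R, s ∉ p → IsUnit (ι s) := by
    intro s hs
    simpa [p, IsLocalRing.mem_maximalIdeal] using hs
  have hp : p ≠ ⊥ := by
    intro hbot
    refine v.ne_top' (eq_top_iff.mpr fun f _ => ?_)
    obtain ⟨a, b, hb, rfl⟩ := IsFractionRing.div_surjective (A := R) f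
    have hb0 : b ≠ 0 := nonZeroDivisors.ne_zero hb
    have hbu : IsUnit (ι b) := hunit b (by rw [hbot]; simpa using hb0)
    rw [div_eq_mul_inv]
    refine mul_mem (hRv a) ?_
    obtain ⟨c, hc⟩ := hbu.exists_left_inv
    have hc' : (c : F) * (b : F) = 1 := congrArg Subtype.val hc
    rw [show (algebraMap R F b) = (b : F) from rfl, ← eq_inv_of_mul_eq_one_left hc']
    exact c.2
  let P : HeightOneSpectrum R := ⟨p, inferInstance, hp⟩
  have hle : HeightOneSpectrum.valuationSubringAtPrime F P ≤ v.toValuationSubring := by
    rintro f ⟨a, s, hs, rfl⟩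
    obtain ⟨c, hc⟩ := (hunit s hs).exists_left_inv
    have hc' : (c : F) * (s : F) = 1 := congrArg Subtype.val hc
    refine mul_mem (hRv a) ?_
    rw [show (algebraMap R F s) = (s : F) from rfl, ← eq_inv_of_mul_eq_one_left hc']
    exact c.2
  have heq := ValuationSubring.eq_of_le_of_ne_top _ hle v.ne_top'
  rw [← heq] at hu
  obtain ⟨a, s, hs, rfl⟩ := hu
  have hs0 : (s : F) ≠ 0 := by
    intro h
    apply hs
    rw [show s = 0 from Subtype.ext h]
    exact zero_mem p
  refine ⟨a, s, hR a, hR s, hs0, ?_, (div_eq_mul_inv _ _).symm⟩
  exact v.ord_coe_unit (hunit s hs).unit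

end Fermat.Agent.Curve
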