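import Fermat.Agent.Curve.Canonical
import Fermat.Agent.Curve.RiemannRoch
import Fermat.Agent.Curve.RatPlaces

/-!
# The rational function field `K⟮x⟯`: its places and the divisor of `dx`

Owner: helper36 (places), helper39 (differential).
-/

set_option autoImplicit false

noncomputable section

open IntermediateField AlgebraicCurve KaehlerDifferential

namespace Fermat.Agent.Curve

variable {K F : Type*} [Field K] [Field F] [Algebra K F] {x : F}

local notation "x₀" => IntermediateField.AdjoinSimple.gen K x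

theorem adjoin_gen_sub_eq_top (a : K) :
    (K⟮x₀ - algebraMap K K⟮x⟯ a⟯ : IntermediateField K K⟮x⟯) = ⊤ := by
  rw [adjoin_sub_algebraMap, adjoin_gen_eq_top]

theorem adjoin_gen_inv_eq_top : (K⟮x₀⁻¹⟯ : IntermediateField K K⟮x⟯) = ⊤ := by
  rw [adjoin_inv, adjoin_gen_eq_top]

theorem transcendental_gen_sub (hx : Transcendental K x) (a : K) :
    Transcendental K (x₀ - algebraMap K K⟮x⟯ a) := fun h =>
  transcendental_gen hx (by simpa using h.add (isAlgebraic_algebraMap a))

/-- Existence and uniqueness of the finite place at `a`. -/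
theorem existsUnique_place_zero (hx : Transcendental K x) (a : K) :
    ∃! v : Place K K⟮x⟯, 0 < v.ord (x₀ - algebraMap K K⟮x⟯ a) := by
  haveI := isFunctionField1_adjoin hx
  obtain ⟨v, hv⟩ := exists_place_ord_pos (transcendental_gen_sub hx a)
  exact ⟨v, hv, fun w hw => eq_of_ord_pos_gen (adjoin_gen_sub_eq_top a) hw hv⟩

theorem existsUnique_place_infty (hx : Transcendental K x) :
    ∃! v : Place K K⟮x⟯, v.ord x₀ < 0 := by
  haveI := isFunctionField1_adjoin hx
  obtain ⟨v, hv⟩ := exists_place_ord_neg (transcendental_gen hx)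
  refine ⟨v, hv, fun w hw => eq_of_ord_pos_gen adjoin_gen_inv_eq_top ?_ ?_⟩ <;>
    · rw [Place.ord_inv]
      simpa using ‹_›

theorem ord_gen_infty (hx : Transcendental K x) (v : Place K K⟮x⟯) (hv : v.ord x₀ < 0) :
    v.ord x₀ = -1 := by
  have h := ord_eq_one_of_gen (v := v) adjoin_gen_inv_eq_top (by rw [Place.ord_inv]; omega)
  rw [Place.ord_inv] at h
  omega

theorem ord_gen_sub (hx : Transcendental K x) (a : K) (v : Place K K⟮x⟯)
    (hv : 0 < v.ord (x₀ - algebraMap K K⟮x⟯ a)) :
    v.ord (x₀ - algebraMap K K⟮x⟯ a) = 1 :=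
  ord_eq_one_of_gen (adjoin_gen_sub_eq_top a) hv

theorem place_cases [IsAlgClosed K] (hx : Transcendental K x) (v : Place K K⟮x⟯) :
    v.ord x₀ < 0 ∨ ∃ a : K, 0 < v.ord (x₀ - algebraMap K K⟮x⟯ a) := by
  rcases lt_or_ge (v.ord x₀) 0 with h | h
  · exact Or.inl h
  haveI := isFunctionField1_adjoin hx
  obtain ⟨c, hc⟩ := exists_sub_algebraMap_ord_pos v (mem_of_ord_nonneg v h)
  refine Or.inr ⟨c, hc.resolve_left fun h0 => transcendental_gen_sub hx c ?_⟩
  rw [h0]
  exact isAlgebraic_zero

theorem ordDifferential_D_gen [IsAlgClosed K] (hx : Transcendental K x) (v : Place K K⟮x⟯) :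
    v.ordDifferential (D K K⟮x⟯ x₀) = if v.ord x₀ < 0 then -2 else 0 := by
  have := isFunctionField1_adjoin hx
  split_ifs with hv
  · have h := ord_gen_infty hx v hv
    rw [ordDifferential_D_of_ne_zero v (by rw [h]; simp), h]
    rfl
  · obtain ⟨a, ha⟩ := (place_cases hx v).resolve_left hv
    have h := ord_gen_sub hx a v ha
    have hd := ordDifferential_D_of_ne_zero v (f := x₀ - algebraMap K K⟮x⟯ a) (by rw [h]; simp)
    rw [map_sub, Derivation.map_algebraMap, sub_zero, h] at hd
    exact hd

end Fermat.Agent.Curve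

end
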