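import Fermat.Agent.Curve.Cotrace
import Fermat.Agent.Curve.RatFunc

/-!
# Serre duality and its consequences

`specialIndex D = ell (div ω - D)`, by cotrace of the Weil differential of `dx` on `K⟮x⟯`; hence
`genus = genusFF` and the Riemann–Hurwitz formula.
-/

set_option autoImplicit false
set_option linter.style.haveILetI false

noncomputable section

open IntermediateField AlgebraicCurve KaehlerDifferential

namespace Fermat.Agent.Curve

variable {K F : Type*} [Field K] [Field F] [Algebra K F]

section Base

variable [IsAlgClosed K] {x : F}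

local notation "x₀" => IntermediateField.AdjoinSimple.gen K x

theorem D_gen_ne_zero (hx : Transcendental K x) : D K K⟮x⟯ x₀ ≠ 0 := by
  haveI := isFunctionField1_adjoin hx
  obtain ⟨v, hv, -⟩ := existsUnique_place_zero hx 0
  have h1 := ord_gen_sub hx 0 v hv
  rw [map_zero, sub_zero] at h1
  exact D_ne_zero_of_ord_eq_one v h1

/-- `dx` carries a Weil differential on `K⟮x⟯`. -/
theorem exists_isFullWeil_adjoin (hx : Transcendental K x) :
    haveI := isFunctionField1_adjoin hx
    ∃ η, IsFullWeil η (canonicalDivisorOf (D_gen_ne_zero hx)) := by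
  haveI := isFunctionField1_adjoin hx
  obtain ⟨vi, hvi, huniq⟩ := existsUnique_place_infty hx
  have hdeg : ∀ v : Place K K⟮x⟯, (v.deg : ℤ) = 1 := fun v => by rw [deg_eq_one v, Nat.cast_one]
  have hW : canonicalDivisorOf (D_gen_ne_zero hx) = Finsupp.single vi (-2) := by
    ext v
    rw [canonicalDivisorOf_apply, ordDifferential_D_gen hx v]
    rcases eq_or_ne v vi with rfl | h
    · rw [if_pos hvi, Finsupp.single_eq_same]
    · rw [if_neg fun h' => h (huniq v h'), Finsupp.single_eq_of_ne h]
  have hdegW : Divisor.degree (canonicalDivisorOf (D_gen_ne_zero hx)) = -2 := by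
    rw [hW, Divisor.degree_single, hdeg, mul_one]
  refine exists_isFullWeil ?_ fun v => ?_
  · have h := riemann_roch (canonicalDivisorOf (D_gen_ne_zero hx))
    rw [ell_eq_zero_of_degree_neg (by omega), genusFF_adjoin hx, hdegW] at h
    omega
  · have hd : Divisor.degree (canonicalDivisorOf (D_gen_ne_zero hx) + Finsupp.single v 1) = -1 := by
      rw [map_add, hdegW, Divisor.degree_single, hdeg, one_mul]
      norm_num
    have h := riemann_roch (canonicalDivisorOf (D_gen_ne_zero hx) + Finsupp.single v 1)
    rw [ell_eq_zero_of_degree_neg (by omega), genusFF_adjoin hx, hd] at h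
    omega

end Base

variable [IsFunctionField1 K F] [IsAlgClosed K]

theorem exists_canonical_isFullWeil :
    ∃ (ω : Ω[F⁄K]) (hω : ω ≠ 0) (η : ↥(repartitions K F) →ₗ[K] K),
      IsFullWeil η (canonicalDivisorOf hω) := by
  obtain ⟨x, hx, hfd, hsep⟩ := exists_separating (K := K) (F := F)
  haveI := isFunctionField1_adjoin hx
  obtain ⟨η₀, h₀⟩ := exists_isFullWeil_adjoin hx
  refine ⟨_, map_ne_zero_of_ne_zero (F' := F) (D_gen_ne_zero hx),
    cotrace η₀ h₀.map_eq_zero, ?_⟩
  rw [canonicalDivisorOf_map]
  exact isFullWeil_cotrace η₀ h₀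

/-- Serre duality: `i(D) = ℓ(div ω - D)`. -/
theorem specialIndex_eq_ell {ω : Ω[F⁄K]} (hω : ω ≠ 0) (D : Divisor K F) :
    specialIndex D = ell (canonicalDivisorOf hω - D) := by
  obtain ⟨ω₁, hω₁, η, hη⟩ := exists_canonical_isFullWeil (K := K) (F := F)
  obtain ⟨c, hc⟩ := exists_smul_eq_of_ne_zero hω₁ ω
  have hc0 : c ≠ 0 := by
    rintro rfl
    exact hω (by rw [← hc, zero_smul])
  have hdiv : canonicalDivisorOf hω = canonicalDivisorOf hω₁ + divisorOf c := by
    ext v
    rw [Finsupp.add_apply, canonicalDivisorOf_apply, canonicalDivisorOf_apply, divisorOf_apply,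
      ← hc, ordDifferential_smul_of_ne_zero v hc0 hω₁, add_comm]
  rw [hη.specialIndex_eq_ell, hdiv, add_sub_right_comm, ell_add_divisorOf _ hc0]

theorem ell_canonicalDivisorOf {ω : Ω[F⁄K]} (hω : ω ≠ 0) :
    ell (canonicalDivisorOf hω) = genusFF K F := by
  rw [← specialIndex_zero, specialIndex_eq_ell hω, sub_zero]

theorem degree_canonicalDivisorOf {ω : Ω[F⁄K]} (hω : ω ≠ 0) :
    Divisor.degree (canonicalDivisorOf hω) = 2 * (genusFF K F : ℤ) - 2 := by
  have h := riemann_roch (canonicalDivisorOf hω)
  rw [ell_canonicalDivisorOf, specialIndex_eq_ell hω, sub_self, ell_zero] at h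
  omega

theorem exists_differential_ne_zero : ∃ ω : Ω[F⁄K], ω ≠ 0 := by
  obtain ⟨ω, hω, -⟩ := exists_canonical_isFullWeil (K := K) (F := F)
  exact ⟨ω, hω⟩

theorem genus_eq_genusFF [HasCanonicalDivisor (K := K) (F := F)] :
    genus K F = genusFF K F := by
  have h : ∃ ω : Ω[F⁄K], ω ≠ 0 := exists_differential_ne_zero
  rw [genus, dif_pos h]
  have := degree_canonicalDivisorOf h.choose_spec
  omega

theorem finrank_regularDifferentials :
    Module.finrank K (regularDifferentials K F) = genusFF K F := by
  obtain ⟨ω, hω⟩ := exists_differential_ne_zero (K := K) (F := F)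
  rw [finrank_regularDifferentials_eq hω]
  exact ell_canonicalDivisorOf hω

instance finite_regularDifferentials : Module.Finite K (regularDifferentials K F) := by
  obtain ⟨ω, hω⟩ := exists_differential_ne_zero (K := K) (F := F)
  have hle : regularDifferentials K F ≤ (riemannRochSpace (canonicalDivisorOf hω)).map
      (((LinearMap.id (R := F) (M := F)).smulRight ω).restrictScalars K) := by
    intro η hη
    obtain ⟨f, rfl⟩ := exists_smul_eq_of_ne_zero hω η
    refine ⟨f, mem_riemannRochSpace_iff.mpr fun v => ?_, rfl⟩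
    rcases eq_or_ne f 0 with hf | hf
    · exact Or.inl hf
    · have := mem_regularDifferentials_iff.mp hη v
      rw [ordDifferential_smul_of_ne_zero v hf hω] at this
      rw [canonicalDivisorOf_apply]
      exact Or.inr (by omega)
  exact Submodule.finiteDimensional_of_le hle

theorem specialIndex_eq_zero_of_lt_degree {D : Divisor K F}
    (h : 2 * (genusFF K F : ℤ) - 2 < Divisor.degree D) : specialIndex D = 0 := by
  obtain ⟨ω, hω⟩ := exists_differential_ne_zero (K := K) (F := F)
  rw [specialIndex_eq_ell hω]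
  refine ell_eq_zero_of_degree_neg ?_
  rw [map_sub, degree_canonicalDivisorOf]
  omega

section Hurwitz

variable {F' : Type*} [Field F'] [Algebra K F'] [Algebra F F'] [IsScalarTower K F F']
  [IsFunctionField1 K F'] [FiniteDimensional F F'] [Algebra.IsSeparable F F']

theorem riemann_hurwitz :
    2 * (genusFF K F' : ℤ) - 2 =
      Module.finrank F F' * (2 * (genusFF K F : ℤ) - 2) +
        Divisor.degree (differentDivisor (K := K) F F') := by
  obtain ⟨ω, hω⟩ := exists_differential_ne_zero (K := K) (F := F)
  rw [← degree_canonicalDivisorOf (map_ne_zero_of_ne_zero (F' := F') hω), canonicalDivisorOf_map hω,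
    map_add, Divisor.degree_pullback, degree_canonicalDivisorOf hω]

theorem riemann_hurwitz_tame (h : ∀ w : Place K F', (w.ramificationIndex F : K) ≠ 0) :
    2 * (genusFF K F' : ℤ) - 2 =
      Module.finrank F F' * (2 * (genusFF K F : ℤ) - 2) +
        ∑ᶠ w : Place K F', ((w.ramificationIndex F : ℤ) - 1) := by
  rw [riemann_hurwitz (F := F) (F' := F'), add_right_inj, degree_eq_sum]
  have hf : (fun w : Place K F' => (w.ramificationIndex F : ℤ) - 1) =
      fun w => differentDivisor F F' w * (w.deg : ℤ) := funext fun w => by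
    rw [differentDivisor_apply, differentExp_eq_of_tame w (h w), deg_eq_one w, Nat.cast_one,
      mul_one]
  rw [hf, finsum_eq_sum_of_support_subset]
  intro w hw
  rw [Finset.mem_coe, Finsupp.mem_support_iff]
  intro h0
  refine hw ?_
  beta_reduce
  rw [h0, zero_mul]

end Hurwitz

section Rational

variable {x : F}

/-- Riemann–Hurwitz for `F/K⟮x⟯`, tame case. -/
theorem two_mul_genusFF_sub_two (hx : Transcendental K x) [FiniteDimensional K⟮x⟯ F]
    [Algebra.IsSeparable K⟮x⟯ F]
    (h : ∀ w : Place K F, (w.ramificationIndex K⟮x⟯ : K) ≠ 0) :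
    2 * (genusFF K F : ℤ) - 2 =
      -2 * (Module.finrank K⟮x⟯ F : ℤ) +
        ∑ᶠ w : Place K F, ((w.ramificationIndex K⟮x⟯ : ℤ) - 1) := by
  haveI := isFunctionField1_adjoin hx
  rw [riemann_hurwitz_tame (F := K⟮x⟯) (F' := F) h, genusFF_adjoin hx]
  ring

end Rational

end Fermat.Agent.Curve

end
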