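import Fermat.Agent.Curve.Degree
import Fermat.Agent.Curve.FundamentalInequality
import Mathlib.LinearAlgebra.Dimension.Free
import Mathlib.LinearAlgebra.Dimension.Constructions

/-!
# `∑ e f = n` and adapted bases of a finite extension of function fields

Owner: helper40.
-/

set_option autoImplicit false
set_option linter.style.haveILetI false

noncomputable section

open IntermediateField AlgebraicCurve

namespace Fermat.Agent.Curve

variable {K F F' : Type*} [Field K] [Field F] [Field F'] [Algebra K F] [Algebra K F']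
  [Algebra F F'] [IsScalarTower K F F'] [IsFunctionField1 K F] [IsFunctionField1 K F']
  [FiniteDimensional F F']

omit [FiniteDimensional F F'] [IsFunctionField1 K F] [IsFunctionField1 K F'] in
/-- `[F' : K(f)] = [F' : F] [F : K(f)]`. -/
theorem finrank_adjoin_algebraMap (f : F) :
    Module.finrank K⟮algebraMap F F' f⟯ F' = Module.finrank K⟮f⟯ F * Module.finrank F F' := by
  rw [Module.finrank_mul_finrank K⟮f⟯ F F']
  set φ : F →ₐ[K] F' := IsScalarTower.toAlgHom K F F'
  have h : K⟮f⟯.map φ = K⟮algebraMap F F' f⟯ := by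
    rw [adjoin_map, Set.image_singleton]; rfl
  let e : K⟮f⟯ ≃ₐ[K] K⟮algebraMap F F' f⟯ :=
    (K⟮f⟯.equivMap φ).trans (IntermediateField.equivOfEq h)
  exact (Algebra.finrank_eq_of_equiv_equiv e.toRingEquiv (RingEquiv.refl F') (by ext; rfl)).symm

theorem sum_ramificationIndex_mul_inertiaDeg_eq (Q : Place K F) :
    ∑ w ∈ Q.fiber F', (w.ramificationIndex F : ℤ) * (w.inertiaDeg F : ℤ) =
      (Module.finrank F F' : ℤ) := by
  classical
  obtain ⟨t, ht0, ht1⟩ := exists_uniformizer Q
  have htr : Transcendental K t⁻¹ :=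
    transcendental_of_ord_ne_zero Q (by rw [Q.ord_inv]; omega)
  set D := poleDivisor (K := K) t⁻¹
  have hpole : poleDivisor (K := K) (algebraMap F F' t⁻¹) = Divisor.pullback F' D := by
    ext w
    rw [poleDivisor_apply, Divisor.pullback_apply, poleDivisor_apply, w.ord_restrict,
      mul_max_of_nonneg _ _ (by positivity), mul_neg, mul_zero]
  set n : ℤ := (Module.finrank F F' : ℤ)
  set S : Place K F → ℤ := fun v =>
    ∑ w ∈ v.fiber F', (w.ramificationIndex F : ℤ) * (w.inertiaDeg F : ℤ)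
  have hle : ∀ v, S v ≤ n := fun v => by
    simpa [S, n] using (Int.ofNat_le.mpr (sum_ramificationIndex_mul_inertiaDeg_le
      (v.fiber F') fun w hw => Place.mem_fiber.mp hw))
  have hsingle : ∀ v m, Divisor.degree (Divisor.pullback F' (Finsupp.single v m)) =
      m * (v.deg * S v) := fun v m => by
    simp only [Divisor.pullback_single, map_sum, Divisor.degree_single, S, Finset.mul_sum]
    refine Finset.sum_congr rfl fun w hw => ?_
    have h := w.deg_restrict_mul_inertiaDeg (F := F)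
    rw [Place.mem_fiber.mp hw] at h
    rw [← h]; push_cast; ring
  have h1 : ∑ v ∈ D.support, D v * ((v.deg : ℤ) * S v) =
      n * ∑ v ∈ D.support, D v * (v.deg : ℤ) := by
    rw [← degree_eq_sum, degree_poleDivisor htr]
    have h := degree_poleDivisor (K := K) (transcendental_map (F' := F') htr)
    rw [hpole, finrank_adjoin_algebraMap, ← Finsupp.sum_single D] at h
    simp only [Finsupp.sum, map_sum, hsingle] at h
    rw [h]; push_cast; ring
  have h2 : ∑ v ∈ D.support, D v * (v.deg : ℤ) * (n - S v) = 0 := by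
    rw [show (0 : ℤ) = n * ∑ v ∈ D.support, D v * (v.deg : ℤ) -
      ∑ v ∈ D.support, D v * ((v.deg : ℤ) * S v) by rw [h1, sub_self],
      Finset.mul_sum, ← Finset.sum_sub_distrib]
    exact Finset.sum_congr rfl fun v _ => by ring
  have hQ : D Q = 1 := by simp [D, Place.ord_inv, ht1]
  have h3 := (Finset.sum_eq_zero_iff_of_nonneg (fun v _ => mul_nonneg
    (mul_nonneg (poleDivisor_nonneg _ v) (by positivity)) (by linarith [hle v]))).mp h2 Q
    (by simp [hQ])
  rw [hQ, one_mul] at h3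
  rcases mul_eq_zero.mp h3 with h | h
  · exact absurd h (by have := deg_pos Q; omega)
  · exact (sub_eq_zero.mp h).symm

omit [IsFunctionField1 K F] [IsFunctionField1 K F'] in
theorem ordGE_one_of_residue_basis {w : Place K F'} {v : Place K F} (hw : w.restrict F = v)
    (B : Module.Basis (Fin (w.inertiaDeg F)) (w.restrict F).ResidueField w.ResidueField)
    (u : Fin (w.inertiaDeg F) → w.toValuationSubring)
    (hu : ∀ k, IsLocalRing.residue _ (u k) = B k) (c : Fin (w.inertiaDeg F) → F)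
    (hc : ∀ k, OrdGE v 0 (c k))
    (hsum : OrdGE w 1 (∑ k, algebraMap F F' (c k) * (u k : F'))) (k : Fin (w.inertiaDeg F)) :
    OrdGE v 1 (c k) := by
  subst hw
  let c' : Fin (w.inertiaDeg F) → (w.restrict F).toValuationSubring := fun k =>
    ⟨c k, (ordGE_zero_iff_mem _).mp (hc k)⟩
  have h0 : ∑ k, IsLocalRing.residue _ (c' k) • B k = 0 := by
    simp only [Algebra.smul_def, Place.algebraMap_residueField_eq,
      Place.restrictResidueMap_residue, ← hu, ← map_mul, ← map_sum]
    rw [residue_eq_zero_iff]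
    show OrdGE w 1 ((∑ x, Place.restrictInclusion F w (c' x) * u x : w.toValuationSubring) : F')
    push_cast
    convert hsum using 2 with x
    rfl
  exact (residue_eq_zero_iff _ _).mp (Fintype.linearIndependent_iff.mp B.linearIndependent _ h0 k)

variable (F') in
/-- Index type of an adapted basis at `Q`. -/
abbrev FibreIndex (Q : Place K F) : Type _ :=
  Σ w : Q.fiber F', Fin ((w : Place K F').ramificationIndex F) ×
    Fin ((w : Place K F').inertiaDeg F)

omit [IsFunctionField1 K F] in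
/-- An adapted family: `b ⟨w, j, k⟩` is close to `u_k t^j` at `w` and to `0` elsewhere. -/
theorem exists_adapted (Q : Place K F) :
    ∃ b : FibreIndex F' Q → F',
      (∀ i, OrdGE (i.1 : Place K F') (i.2.1 : ℕ) (b i)) ∧
      (∀ i, ∀ w ∈ Q.fiber F', w ≠ (i.1 : Place K F') →
        OrdGE w (w.ramificationIndex F : ℤ) (b i)) ∧
      (∀ c : FibreIndex F' Q → F, (∀ i, OrdGE Q 0 (c i)) →
        ∀ (w : Q.fiber F') (J : ℕ), OrdGE (w : Place K F') J (∑ i, algebraMap F F' (c i) * b i) →
          ∀ (j : Fin ((w : Place K F').ramificationIndex F))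
            (k : Fin ((w : Place K F').inertiaDeg F)),
            (j : ℕ) < J → OrdGE Q 1 (c ⟨w, (j, k)⟩)) := by
  classical
  haveI : ∀ w : Place K F', Module.Finite (w.restrict F).ResidueField w.ResidueField :=
    fun w => module_finite_residue_over_restrict w
  let B : ∀ w : Place K F',
      Module.Basis (Fin (w.inertiaDeg F)) (w.restrict F).ResidueField w.ResidueField := fun w =>
    Module.finBasis (w.restrict F).ResidueField w.ResidueField
  choose u hu using fun (w : Place K F') (k : Fin (w.inertiaDeg F)) =>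
    IsLocalRing.residue_surjective (B w k)
  choose t ht0 ht1 using fun w : Place K F' => exists_uniformizer w
  set R : ℤ := (∑ w ∈ Q.fiber F', w.ramificationIndex F : ℕ) + 1
  have hR : ∀ w ∈ Q.fiber F', (w.ramificationIndex F : ℤ) + 1 ≤ R := fun w hw => by
    have : w.ramificationIndex F ≤ ∑ w ∈ Q.fiber F', w.ramificationIndex F :=
      Finset.single_le_sum (f := fun w : Place K F' => w.ramificationIndex F)
        (fun _ _ => Nat.zero_le _) hw
    simp only [R]; omega
  choose A hA using fun i : FibreIndex F' Q => exists_approx_ordGE (Q.fiber F')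
    (fun w => if w = (i.1 : Place K F') then (u i.1 i.2.2 : F') * t i.1 ^ (i.2.1 : ℕ) else 0) R
  have hown : ∀ i : FibreIndex F' Q, OrdGE (i.1 : Place K F') (i.2.1 : ℕ) (A i) := by
    rintro ⟨⟨w, hw⟩, j, k⟩
    have hA' := hA ⟨⟨w, hw⟩, j, k⟩ w hw
    rw [if_pos rfl] at hA'
    have h1 : OrdGE w ((0 : ℤ) + (j : ℕ)) ((u w k : F') * t w ^ (j : ℕ)) :=
      ((ordGE_zero_iff_mem w).mpr (u w k).2).mul (ordGE_of_le_ord (by rw [ord_pow, ht1]; omega))
    rw [zero_add] at h1
    simpa using (hA'.mono (by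
      have := hR w hw; have : (j : ℕ) < w.ramificationIndex F := j.isLt; omega)).add h1
  have hoff : ∀ i : FibreIndex F' Q, ∀ w ∈ Q.fiber F', w ≠ (i.1 : Place K F') →
      OrdGE w (w.ramificationIndex F : ℤ) (A i) := fun i w hw hne => by
    have hA' := hA i w hw
    rw [if_neg hne, sub_zero] at hA'
    exact hA'.mono (by have := hR w hw; omega)
  refine ⟨A, hown, hoff, ?_⟩
  rintro c hc0 ⟨w₀, hw₀⟩ J hJ j₁ k₁ hj₁
  by_contra hbad
  obtain ⟨j₀, hj₀, hjmin⟩ := Finset.exists_min_image
    (Finset.univ.filter fun j : Fin (w₀.ramificationIndex F) =>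
      ∃ k, ¬ OrdGE Q 1 (c ⟨⟨w₀, hw₀⟩, (j, k)⟩)) id
    ⟨j₁, by simpa using ⟨k₁, hbad⟩⟩
  obtain ⟨k₀, hk₀⟩ : ∃ k, ¬ OrdGE Q 1 (c ⟨⟨w₀, hw₀⟩, (j₀, k)⟩) := by simpa using hj₀
  have hle : (j₀ : ℕ) ≤ j₁ := hjmin j₁ (by simpa using ⟨k₁, hbad⟩)
  apply hk₀
  have hv0 := Place.mem_fiber.mp hw₀
  refine ordGE_one_of_residue_basis hv0 (B w₀) (u w₀) (hu w₀)
    (fun k => c ⟨⟨w₀, hw₀⟩, (j₀, k)⟩) (fun k => hc0 _) ?_ k₀
  set j : ℕ := (j₀ : ℕ) with hj
  have hjlt : (j : ℤ) + 1 ≤ w₀.ramificationIndex F := by have := j₀.isLt; omega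
  let M : FibreIndex F' Q → F' := fun i => if i.1 = ⟨w₀, hw₀⟩ ∧ (i.2.1 : ℕ) = j then
    algebraMap F F' (c i) * ((u i.1 i.2.2 : F') * t w₀ ^ j) else 0
  have hdiff : ∀ i : FibreIndex F' Q,
      OrdGE w₀ (j + 1) (algebraMap F F' (c i) * A i - M i) := by
    rintro ⟨⟨w, hw⟩, j', k⟩
    have hc := ordGE_algebraMap_of_restrict hv0 (hc0 ⟨⟨w, hw⟩, j', k⟩)
    rw [mul_zero] at hc
    simp only [M, Subtype.mk.injEq]
    by_cases hwe : w = w₀
    · subst hwe
      by_cases hje : (j' : ℕ) = j
      · rw [if_pos ⟨rfl, hje⟩, ← mul_sub]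
        have hA' := hA ⟨⟨w, hw⟩, j', k⟩ w hw
        simp only [if_true, hje] at hA'
        exact (hc.mul hA').mono (by have := hR w hw; omega)
      · rw [if_neg (fun h => hje h.2), sub_zero]
        have hA'' : OrdGE w (j' : ℕ) (A ⟨⟨w, hw⟩, j', k⟩) := hown ⟨⟨w, hw⟩, j', k⟩
        rcases Nat.lt_or_gt_of_ne hje with hlt | hgt
        · have h1 : OrdGE Q 1 (c ⟨⟨w, hw⟩, j', k⟩) := by
            by_contra hbad'
            have := hjmin j' (by simpa using ⟨k, hbad'⟩)
            simp only [id, Fin.le_def] at this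
            omega
          have h2 := ordGE_algebraMap_of_restrict hv0 h1
          exact (h2.mul hA'').mono (by omega)
        · exact (hc.mul hA'').mono (by omega)
    · rw [if_neg (fun h => hwe h.1), sub_zero]
      exact (hc.mul (hoff ⟨⟨w, hw⟩, j', k⟩ w₀ hw₀ fun h => hwe h.symm)).mono (by omega)
  have hM : OrdGE w₀ (j + 1) (∑ i, M i) := by
    have h := (hJ.mono (show (j : ℤ) + 1 ≤ J by omega)).sub
      (OrdGE.sum Finset.univ fun i _ => hdiff i)
    rwa [← Finset.sum_sub_distrib, Finset.sum_congr rfl fun i _ => sub_sub_cancel _ _] at h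
  have hMeq : ∑ i, M i =
      (∑ k, algebraMap F F' (c ⟨⟨w₀, hw₀⟩, (j₀, k)⟩) * (u w₀ k : F')) * t w₀ ^ j := by
    rw [Fintype.sum_sigma, Finset.sum_eq_single (⟨w₀, hw₀⟩ : Q.fiber F'), Fintype.sum_prod_type,
      Finset.sum_eq_single j₀, Finset.sum_mul]
    · refine Finset.sum_congr rfl fun k _ => ?_
      simp [M, ← hj, mul_assoc]
    · intro b _ hb
      exact Finset.sum_eq_zero fun k _ => if_neg fun h => hb (Fin.ext h.2)
    · simp
    · intro b _ hb
      exact Finset.sum_eq_zero fun k _ => if_neg fun h => hb h.1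
    · simp
  rw [hMeq] at hM
  have h := hM.mul (ordGE_of_le_ord (v := w₀) (n := -(j : ℤ)) (f := (t w₀ ^ j)⁻¹)
    (by rw [w₀.ord_inv, ord_pow, ht1]; omega))
  rw [mul_assoc, mul_inv_cancel₀ (pow_ne_zero _ (ht0 w₀)), mul_one] at h
  exact h.mono (by omega)

omit [IsFunctionField1 K F] in
theorem exists_max_normalisation {ι : Type*} [Fintype ι] (v : Place K F) {c : ι → F}
    (hne : ∃ i, c i ≠ 0) :
    ∃ i₀, c i₀ ≠ 0 ∧ ∀ i, OrdGE v 0 (c i / c i₀) ∧ v.adicValuation (c i) ≤ v.adicValuation (c i₀) := by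
  obtain ⟨i₁, hi₁⟩ := hne
  obtain ⟨i₀, -, hmax⟩ := Finset.exists_max_image (Finset.univ : Finset ι)
    (fun i => v.adicValuation (c i)) ⟨i₁, Finset.mem_univ _⟩
  refine ⟨i₀, fun h0 => ?_, fun i => ⟨?_, hmax i (Finset.mem_univ _)⟩⟩
  · have h := hmax i₁ (Finset.mem_univ _)
    rw [h0, map_zero, le_zero_iff, Valuation.zero_iff] at h
    exact hi₁ h
  · show v.adicValuation (c i / c i₀) ≤ _
    rw [map_div₀, neg_zero, WithZero.exp_zero]
    exact div_le_one_of_le₀ (hmax i (Finset.mem_univ _)) zero_le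

/-- An adapted basis: it spans the semilocal ring at `Q` over `O_Q`, and reduces triangularly. -/
theorem exists_adaptedBasis (Q : Place K F) :
    ∃ b : Module.Basis (FibreIndex F' Q) F F',
      (∀ i, OrdGE (i.1 : Place K F') (i.2.1 : ℕ) (b i)) ∧
      (∀ i, ∀ w ∈ Q.fiber F', w ≠ (i.1 : Place K F') →
        OrdGE w (w.ramificationIndex F : ℤ) (b i)) ∧
      (∀ z : F', (∀ w ∈ Q.fiber F', OrdGE w 0 z) → ∀ i, OrdGE Q 0 (b.repr z i)) ∧
      (∀ z : F', (∀ w ∈ Q.fiber F', OrdGE w 0 z) → ∀ (w : Q.fiber F') (J : ℕ),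
        OrdGE (w : Place K F') J z → ∀ (j : Fin ((w : Place K F').ramificationIndex F))
          (k : Fin ((w : Place K F').inertiaDeg F)),
          (j : ℕ) < J → OrdGE Q 1 (b.repr z ⟨w, (j, k)⟩)) := by
  classical
  obtain ⟨A, hown, hoff, hkey⟩ := exists_adapted (F' := F') Q
  have hone : ¬ OrdGE Q 1 (1 : F) := fun h => by
    simpa using h.le_ord one_ne_zero
  have hnorm : ∀ (c : FibreIndex F' Q → F), (∀ i, OrdGE Q 0 (c i)) → ∀ i, c i = 1 →
      ¬ OrdGE (i.1 : Place K F') ((i.1 : Place K F').ramificationIndex F : ℕ)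
        (∑ l, algebraMap F F' (c l) * A l) := by
    rintro c hc ⟨w, j, k⟩ h1 hs
    exact hone (h1 ▸ hkey c hc w _ hs j k j.isLt)
  have hli : LinearIndependent F A := by
    rw [Fintype.linearIndependent_iff]
    intro g hg
    by_contra! hne
    obtain ⟨i₀, hi₀, hmax⟩ := exists_max_normalisation Q hne
    refine hnorm (fun i => g i / g i₀) (fun i => (hmax i).1) i₀ (div_self hi₀) ?_
    have : ∑ i, algebraMap F F' (g i / g i₀) * A i = algebraMap F F' (g i₀)⁻¹ * ∑ i, g i • A i := by
      rw [Finset.mul_sum]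
      exact Finset.sum_congr rfl fun i _ => by rw [Algebra.smul_def, ← mul_assoc, ← map_mul,
        inv_mul_eq_div]
    rw [this, hg, mul_zero]
    exact ordGE_zero _
  have hcard : Fintype.card (FibreIndex F' Q) = Module.finrank F F' := by
    have h := sum_ramificationIndex_mul_inertiaDeg_eq (F' := F') Q
    rw [← Nat.cast_inj (R := ℤ), ← h]
    simp only [FibreIndex, Fintype.card_sigma, Fintype.card_prod, Fintype.card_fin]
    push_cast
    exact Finset.sum_coe_sort (Q.fiber F')
      fun w => (w.ramificationIndex F : ℤ) * (w.inertiaDeg F : ℤ)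
  haveI : Nonempty (FibreIndex F' Q) :=
    Fintype.card_pos_iff.mp (hcard ▸ Module.finrank_pos)
  let b := basisOfLinearIndependentOfCardEqFinrank hli hcard
  have hb : ⇑b = A := coe_basisOfLinearIndependentOfCardEqFinrank hli hcard
  have hlocal : ∀ z : F', (∀ w ∈ Q.fiber F', OrdGE w 0 z) → ∀ i, OrdGE Q 0 (b.repr z i) := by
    intro z hz
    by_contra! hne
    obtain ⟨i₁, hi₁⟩ := hne
    obtain ⟨i₀, hi₀, hmax⟩ := exists_max_normalisation (c := fun i => b.repr z i) Q
      ⟨i₁, fun h => hi₁ (h ▸ ordGE_zero _)⟩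
    have hinv : OrdGE Q 1 (b.repr z i₀)⁻¹ := by
      refine ordGE_of_le_ord ?_
      rw [Q.ord_inv]
      have h : ¬ OrdGE Q 0 (b.repr z i₀) := fun h => hi₁ ((hmax i₁).2.trans h)
      rw [ordGE_iff] at h
      push Not at h
      omega
    refine hnorm (fun i => b.repr z i / b.repr z i₀) (fun i => (hmax i).1) i₀ (div_self hi₀) ?_
    have hsum : ∑ i, algebraMap F F' (b.repr z i / b.repr z i₀) * A i =
        algebraMap F F' (b.repr z i₀)⁻¹ * z := by
      refine Eq.trans ?_ (congrArg (_ * ·) (b.sum_repr z))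
      rw [Finset.mul_sum]
      exact Finset.sum_congr rfl fun i _ => by
        rw [Algebra.smul_def, ← mul_assoc, ← map_mul, inv_mul_eq_div, hb]
    rw [hsum]
    exact ((ordGE_algebraMap_of_restrict (Place.mem_fiber.mp i₀.1.2) hinv).mul
      (hz _ i₀.1.2)).mono (by simp)
  refine ⟨b, fun i => hb ▸ hown i, fun i => hb ▸ hoff i, hlocal,
    fun z hz w J hJ => hkey _ (hlocal z hz) w J ?_⟩
  convert hJ using 1
  refine Eq.trans ?_ (b.sum_repr z)
  exact Finset.sum_congr rfl fun i _ => by rw [Algebra.smul_def, hb]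

end Fermat.Agent.Curve
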