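import Fermat.Agent.Curve.CanonicalDivisor
import Fermat.Prelude.Def_AlgebraicCurve_DivisorPushPull

/-!
# Pull-back of differentials along a finite extension of function fields
-/

set_option autoImplicit false
set_option linter.style.haveILetI false

noncomputable section

open KaehlerDifferential AlgebraicCurve

namespace Fermat.Agent.Curve

variable {K F F' : Type*} [Field K] [Field F] [Field F']
  [Algebra K F] [Algebra K F'] [Algebra F F'] [IsScalarTower K F F'] [Algebra.IsIntegral F F']
  (w : Place K F')

/-- The pull-back of a uniformiser of `F` has order `e`. -/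
theorem ord_algebraMap_uniformizer {t : F} (ht : (w.restrict F).ord t = 1) :
    w.ord (algebraMap F F' t) = Place.ramificationIndex (F := F) w := by
  rw [Place.ord_restrict, ht, mul_one]

omit [Algebra.IsIntegral F F'] in
theorem map_smul_D (f t : F) :
    KaehlerDifferential.map K K F F' (f • D K F t)
      = algebraMap F F' f • D K F' (algebraMap F F' t) := by
  rw [map_smul, KaehlerDifferential.map_D, algebra_compatible_smul F' f]

variable [IsCurveOver K F] [IsCurveOver K F'] [PerfectField K]
  [Algebra.EssFiniteType K F] [Algebra.EssFiniteType K F']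

/-- Pull-back of a differential: tame ramification. -/
theorem ordDifferential_map_eq_of_tame {ω : Ω[F⁄K]} (hω : ω ≠ 0)
    (he : (Place.ramificationIndex (F := F) w : K) ≠ 0) :
    KaehlerDifferential.map K K F F' ω ≠ 0 ∧
    w.ordDifferential (KaehlerDifferential.map K K F F' ω)
      = Place.ramificationIndex (F := F) w * (w.restrict F).ordDifferential ω
        + (Place.ramificationIndex (F := F) w - 1) := by
  obtain ⟨t, ht⟩ := place_exists_ord_one (w.restrict F)
  obtain ⟨f, rfl⟩ := exists_smul_D_eq (differentials_fg_of_isCurveOver (w.restrict F)) ht ω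
  have hf : f ≠ 0 := by rintro rfl; simp at hω
  have hf' : algebraMap F F' f ≠ 0 := by simpa using hf
  have hn : ((w.ord (algebraMap F F' t) : ℤ) : K) ≠ 0 := by
    rwa [ord_algebraMap_uniformizer w ht, Int.cast_natCast]
  obtain ⟨h1, h2⟩ := ordDifferential_D (differentials_fg_of_isCurveOver w) hn
  rw [map_smul_D, ordDifferential_smul_D (differentials_fg_of_isCurveOver (w.restrict F)) ht,
    ordDifferential_smul hf' h1, h2, ord_algebraMap_uniformizer w ht, Place.ord_restrict]
  exact ⟨smul_ne_zero hf' h1, rfl⟩

/-- Pull-back of a differential: the general inequality. -/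
theorem ordDifferential_map_ge_of_fg {ω : Ω[F⁄K]}
    (hω : KaehlerDifferential.map K K F F' ω ≠ 0) :
    Place.ramificationIndex (F := F) w * (w.restrict F).ordDifferential ω
        + (Place.ramificationIndex (F := F) w - 1 : ℤ)
      ≤ w.ordDifferential (KaehlerDifferential.map K K F F' ω) := by
  obtain ⟨t, ht⟩ := place_exists_ord_one (w.restrict F)
  obtain ⟨f, rfl⟩ := exists_smul_D_eq (differentials_fg_of_isCurveOver (w.restrict F)) ht ω
  rw [map_smul_D] at hω ⊢
  obtain ⟨hf', h1⟩ := smul_ne_zero_iff.mp hω
  have h2 := ordDifferential_D_ge (differentials_fg_of_isCurveOver w) h1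
  rw [ord_algebraMap_uniformizer w ht] at h2
  rw [ordDifferential_smul_D (differentials_fg_of_isCurveOver (w.restrict F)) ht,
    ordDifferential_smul hf' h1, Place.ord_restrict]
  omega

end Fermat.Agent.Curve
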