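import Fermat.Agent.Curve.RiemannRoch

/-!
# Weil differentials

A Weil differential `η` with divisor `W` (`IsFullWeil η W`) is a functional on repartitions that
kills the constant repartitions and `repartitionsOf W`, and that at no place kills one more pole.
Such an `η` computes `specialIndex D` as `ell (W - D)`.
-/

set_option autoImplicit false
set_option linter.style.haveILetI false

noncomputable section

open AlgebraicCurve

namespace Fermat.Agent.Curve

variable {K F : Type*} [Field K] [Field F] [Algebra K F]

theorem mem_repartitionsOf_iff_ordGE {D : Divisor K F} {α : ↥(repartitions K F)} :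
    α ∈ repartitionsOf D ↔ ∀ v : Place K F, OrdGE v (-D v) ((α : Place K F → F) v) := by
  refine forall_congr' fun v => ?_
  rw [OrdGE, neg_neg]

theorem mem_riemannRochSpace_iff_ordGE {D : Divisor K F} {f : F} :
    f ∈ riemannRochSpace D ↔ ∀ v : Place K F, OrdGE v (-D v) f := by
  refine forall_congr' fun v => ?_
  rw [OrdGE, neg_neg]

open Classical in
/-- The repartition with value `z` at `v` and `0` elsewhere. -/
def singleRep (v : Place K F) (z : F) : ↥(repartitions K F) :=
  ⟨fun w => if w = v then z else 0, mem_repartitions_of_finite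
    ((Set.finite_singleton v).subset fun w hw => by
      by_contra h
      exact hw (by simp [if_neg (show w ≠ v from h)]))⟩

theorem singleRep_apply_self (v : Place K F) (z : F) :
    (singleRep v z : Place K F → F) v = z := if_pos rfl

theorem singleRep_apply_of_ne {v w : Place K F} (z : F) (h : w ≠ v) :
    (singleRep v z : Place K F → F) w = 0 := if_neg h

theorem singleRep_mem_repartitionsOf {D : Divisor K F} {v : Place K F} {z : F}
    (h : OrdGE v (-D v) z) : singleRep v z ∈ repartitionsOf D :=
  mem_repartitionsOf_iff_ordGE.mpr fun w => by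
    rcases eq_or_ne w v with rfl | hw
    · rwa [singleRep_apply_self]
    · rw [singleRep_apply_of_ne z hw]; exact ordGE_zero _

theorem smul_singleRep (v : Place K F) (f z : F) :
    f • singleRep v z = singleRep v (f * z) := by
  refine Subtype.ext (funext fun w => ?_)
  show f * (singleRep v z : Place K F → F) w = _
  rcases eq_or_ne w v with rfl | hw
  · rw [singleRep_apply_self, singleRep_apply_self]
  · rw [singleRep_apply_of_ne z hw, singleRep_apply_of_ne _ hw, mul_zero]

/-- The functional `η (f • ·)`. -/
def weilTwist (η : ↥(repartitions K F) →ₗ[K] K) : F →ₗ[K] Module.Dual K ↥(repartitions K F) :=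
  LinearMap.mk₂ K (fun f α => η (f • α))
    (fun f g α => by rw [add_smul, map_add])
    (fun c f α => by rw [smul_assoc, map_smul])
    (fun f α β => by rw [smul_add, map_add])
    (fun c f α => by rw [smul_comm, map_smul])

theorem weilTwist_apply (η : ↥(repartitions K F) →ₗ[K] K) (f : F) (α : ↥(repartitions K F)) :
    weilTwist η f α = η (f • α) := rfl

theorem weilTwist_injective {η : ↥(repartitions K F) →ₗ[K] K} (hη : η ≠ 0) :
    Function.Injective (weilTwist η) := by
  rw [injective_iff_map_eq_zero]
  intro f hf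
  by_contra h
  refine hη (LinearMap.ext fun α => ?_)
  have := LinearMap.congr_fun hf (f⁻¹ • α)
  rwa [weilTwist_apply, smul_smul, mul_inv_cancel₀ h, one_smul] at this

/-- The functionals vanishing on `repartitionsOf D` and on the constant repartitions. -/
abbrev weilSpace (D : Divisor K F) : Submodule K (Module.Dual K ↥(repartitions K F)) :=
  (repartitionsOf D ⊔ principalRepartitions K F).dualAnnihilator

theorem finrank_weilSpace (D : Divisor K F) : Module.finrank K (weilSpace D) = specialIndex D := by
  rw [← (Submodule.dualQuotEquivDualAnnihilator _).finrank_eq, Subspace.dual_finrank_eq]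
  rfl

theorem finite_weilSpace [IsFunctionField1 K F] (D : Divisor K F) :
    Module.Finite K (weilSpace D) :=
  haveI : Module.Finite K (H1 D) := finite_H1 D
  Module.Finite.equiv (Submodule.dualQuotEquivDualAnnihilator _)

theorem mem_weilSpace_iff {D : Divisor K F} {η : Module.Dual K ↥(repartitions K F)} :
    η ∈ weilSpace D ↔
      (∀ α ∈ repartitionsOf D, η α = 0) ∧ ∀ f : F, η (algebraMap F _ f) = 0 := by
  rw [Submodule.mem_dualAnnihilator]
  constructor
  · exact fun h => ⟨fun α hα => h α (Submodule.mem_sup_left hα), fun f =>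
      h _ (Submodule.mem_sup_right (mem_principalRepartitions_iff.mpr ⟨f, rfl⟩))⟩
  · rintro ⟨h1, h2⟩ w hw
    obtain ⟨a, ha, b, hb, rfl⟩ := Submodule.mem_sup.mp hw
    obtain ⟨f, hf⟩ := mem_principalRepartitions_iff.mp hb
    rw [map_add, h1 a ha, show b = algebraMap F _ f from Subtype.ext hf, h2, add_zero]

theorem weilTwist_mem {D E : Divisor K F} {η : Module.Dual K ↥(repartitions K F)}
    (hη : η ∈ weilSpace E) {f : F} (hf : f ∈ riemannRochSpace (E - D)) :
    weilTwist η f ∈ weilSpace D := by
  rw [mem_weilSpace_iff] at hη ⊢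
  refine ⟨fun α hα => hη.1 _ (mem_repartitionsOf_iff_ordGE.mpr fun v => ?_), fun g => ?_⟩
  · show OrdGE v (-E v) (f * (α : Place K F → F) v)
    refine ((mem_riemannRochSpace_iff_ordGE.mp hf v).mul
      (mem_repartitionsOf_iff_ordGE.mp hα v)).mono ?_
    rw [Finsupp.sub_apply]
    omega
  · rw [weilTwist_apply, Algebra.smul_def, ← map_mul, hη.2]

/-- `η` is a Weil differential with divisor exactly `W`. -/
structure IsFullWeil (η : ↥(repartitions K F) →ₗ[K] K) (W : Divisor K F) : Prop where
  map_const : ∀ f : F, η (algebraMap F _ f) = 0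
  map_eq_zero : ∀ α ∈ repartitionsOf W, η α = 0
  exists_ne_zero : ∀ v : Place K F, ∃ z : F, OrdGE v (-W v - 1) z ∧ η (singleRep v z) ≠ 0

variable [IsFunctionField1 K F]

theorem IsFullWeil.ne_zero {η : ↥(repartitions K F) →ₗ[K] K} {W : Divisor K F}
    (h : IsFullWeil η W) : η ≠ 0 := by
  obtain ⟨v⟩ := exists_place (K := K) (F := F)
  obtain ⟨z, -, hz⟩ := h.exists_ne_zero v
  intro h0
  exact hz (by rw [h0]; rfl)

/-- Weil differentials form a line over `F`. -/
theorem exists_weilTwist_eq {D E : Divisor K F} {η η' : Module.Dual K ↥(repartitions K F)}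
    (hη : η ∈ weilSpace E) (hη0 : η ≠ 0) (hη' : η' ∈ weilSpace D) :
    ∃ f : F, η' = weilTwist η f := by
  rcases eq_or_ne η' 0 with rfl | hη0'
  · exact ⟨0, (map_zero _).symm⟩
  obtain ⟨P⟩ := exists_place (K := K) (F := F)
  set n : ℤ := |Divisor.degree D| + |Divisor.degree E| + 3 * (genusFF K F : ℤ) + 1 with hn
  set B : Divisor K F := Finsupp.single P n with hB
  have hd : n ≤ Divisor.degree B := by
    rw [hB, Divisor.degree_single]
    have : (1 : ℤ) ≤ P.deg := by exact_mod_cast deg_pos P
    nlinarith [abs_nonneg (Divisor.degree D), abs_nonneg (Divisor.degree E)]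
  have hneg : ell (-B) = 0 := ell_eq_zero_of_degree_neg <| by
    have := abs_nonneg (Divisor.degree D); have := abs_nonneg (Divisor.degree E)
    rw [map_neg]; omega
  let M₁ := (riemannRochSpace (E - -B)).map (weilTwist η)
  let M₂ := (riemannRochSpace (D - -B)).map (weilTwist η')
  haveI := finite_weilSpace (-B)
  have h1 : M₁ ≤ weilSpace (-B) := Submodule.map_le_iff_le_comap.mpr fun f hf =>
    weilTwist_mem hη hf
  have h2 : M₂ ≤ weilSpace (-B) := Submodule.map_le_iff_le_comap.mpr fun f hf =>
    weilTwist_mem hη' hf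
  haveI : Module.Finite K M₁ := Submodule.finiteDimensional_of_le h1
  haveI : Module.Finite K M₂ := Submodule.finiteDimensional_of_le h2
  have e1 : Module.finrank K M₁ = ell (E - -B) :=
    ((Submodule.equivMapOfInjective _ (weilTwist_injective hη0) _).finrank_eq).symm
  have e2 : Module.finrank K M₂ = ell (D - -B) :=
    ((Submodule.equivMapOfInjective _ (weilTwist_injective hη0') _).finrank_eq).symm
  have hne : M₁ ⊓ M₂ ≠ ⊥ := by
    intro hbot
    have h := Submodule.finrank_sup_add_finrank_inf_eq M₁ M₂
    rw [hbot, finrank_bot, e1, e2] at h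
    have h3 := Submodule.finrank_mono (sup_le h1 h2)
    rw [finrank_weilSpace] at h3
    have i1 := ell_sub_specialIndex (E - -B)
    have i2 := ell_sub_specialIndex (D - -B)
    have i3 := ell_sub_specialIndex (-B)
    have := neg_abs_le (Divisor.degree D); have := neg_abs_le (Divisor.degree E)
    simp only [map_sub, map_neg, hneg] at i1 i2 i3
    omega
  obtain ⟨θ, hθ, hθ0⟩ := Submodule.exists_mem_ne_zero_of_ne_bot hne
  obtain ⟨⟨f, -, hf⟩, ⟨f', -, hf'⟩⟩ := Submodule.mem_inf.mp hθ
  have hf'0 : f' ≠ 0 := by
    rintro rfl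
    exact hθ0 (by rw [← hf', map_zero])
  refine ⟨f * f'⁻¹, LinearMap.ext fun α => ?_⟩
  have h := LinearMap.congr_fun (hf'.trans hf.symm) (f'⁻¹ • α)
  rw [weilTwist_apply, weilTwist_apply, smul_smul, smul_smul, mul_inv_cancel₀ hf'0,
    one_smul] at h
  rw [weilTwist_apply, h]

namespace IsFullWeil

variable {η : ↥(repartitions K F) →ₗ[K] K} {W : Divisor K F}

omit [IsFunctionField1 K F] in
theorem mem_weilSpace (h : IsFullWeil η W) : η ∈ weilSpace W :=
  mem_weilSpace_iff.mpr ⟨h.map_eq_zero, h.map_const⟩

theorem map_riemannRochSpace (h : IsFullWeil η W) (D : Divisor K F) :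
    (riemannRochSpace (W - D)).map (weilTwist η) = weilSpace D := by
  refine le_antisymm (Submodule.map_le_iff_le_comap.mpr fun f hf =>
    weilTwist_mem h.mem_weilSpace hf) fun η' hη' => ?_
  obtain ⟨f, rfl⟩ := exists_weilTwist_eq h.mem_weilSpace h.ne_zero hη'
  refine ⟨f, mem_riemannRochSpace_iff_ordGE.mpr fun v => ?_, rfl⟩
  rw [ordGE_iff, Finsupp.sub_apply]
  rcases eq_or_ne f 0 with hf | hf
  · exact Or.inl hf
  refine Or.inr ?_
  by_contra hlt
  obtain ⟨z, hz, hne⟩ := h.exists_ne_zero v
  apply hne
  have hα : OrdGE v (-D v) (f⁻¹ * z) :=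
    ((ordGE_of_le_ord (v.ord_inv f).ge).mul hz).mono (by omega)
  have := (mem_weilSpace_iff.mp hη').1 _ (singleRep_mem_repartitionsOf hα)
  rwa [weilTwist_apply, smul_singleRep, ← mul_assoc, mul_inv_cancel₀ hf, one_mul] at this

/-- Duality: `i(D) = ℓ(W - D)`. -/
theorem specialIndex_eq_ell (h : IsFullWeil η W) (D : Divisor K F) :
    specialIndex D = ell (W - D) := by
  rw [← finrank_weilSpace, ← h.map_riemannRochSpace D]
  exact ((Submodule.equivMapOfInjective _ (weilTwist_injective h.ne_zero) _).finrank_eq).symm

end IsFullWeil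

/-- A nonzero class in `H1 W` which dies in every `H1 (W + v)` gives a Weil differential with
divisor `W`. -/
theorem exists_isFullWeil {W : Divisor K F} (h1 : specialIndex W ≠ 0)
    (h2 : ∀ v : Place K F, specialIndex (W + Finsupp.single v 1) = 0) :
    ∃ η, IsFullWeil η W := by
  classical
  have hne : weilSpace W ≠ ⊥ := by
    intro h
    apply h1
    rw [← finrank_weilSpace, h, finrank_bot]
  obtain ⟨η, hη, hη0⟩ := Submodule.exists_mem_ne_zero_of_ne_bot hne
  obtain ⟨h3, h4⟩ := mem_weilSpace_iff.mp hη
  refine ⟨η, h4, h3, fun v => ?_⟩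
  have hbot : weilSpace (W + Finsupp.single v 1) = ⊥ := by
    haveI := finite_weilSpace (W + Finsupp.single v 1)
    exact Submodule.finrank_eq_zero.mp (by rw [finrank_weilSpace, h2 v])
  have hnot : η ∉ weilSpace (W + Finsupp.single v 1) := by
    rw [hbot]
    exact fun h => hη0 ((Submodule.mem_bot K).mp h)
  obtain ⟨α, hα, hne⟩ : ∃ α ∈ repartitionsOf (W + Finsupp.single v 1), η α ≠ 0 := by
    by_contra hall
    push Not at hall
    exact hnot (mem_weilSpace_iff.mpr ⟨hall, h4⟩)
  have hv := mem_repartitionsOf_iff_ordGE.mp hα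
  refine ⟨(α : Place K F → F) v, ?_, ?_⟩
  · refine (hv v).mono ?_
    rw [Finsupp.add_apply, Finsupp.single_eq_same]
    omega
  · have hrest : η (α - singleRep v ((α : Place K F → F) v)) = 0 :=
      h3 _ (mem_repartitionsOf_iff_ordGE.mpr fun w => by
        show OrdGE w (-W w) ((α : Place K F → F) w
          - (singleRep v ((α : Place K F → F) v) : Place K F → F) w)
        rcases eq_or_ne w v with rfl | hw
        · rw [singleRep_apply_self, sub_self]; exact ordGE_zero _
        · rw [singleRep_apply_of_ne _ hw, sub_zero]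
          refine (hv w).mono ?_
          rw [Finsupp.add_apply, Finsupp.single_eq_of_ne hw]
          omega)
    rw [map_sub, sub_eq_zero] at hrest
    rwa [← hrest]

end Fermat.Agent.Curve

end
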